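import Fermat.Agent.TC.Rank2
import Fermat.Agent.TC.TWAlg
import Fermat.Agent.H22.IntCoeff

set_option autoImplicit false
set_option linter.unusedSectionVars false
set_option linter.style.haveILetI false

/-!
# The dictionary between residual eigensystems of forms and of `Hom(Γ₀(M), O)`
-/

noncomputable section

namespace Fermat.Agent.H19.A8

open CongruenceSubgroup ModularForm Matrix.SpecialLinearGroup ModularCurve
open ModularCurve.Period
open Fermat.Agent Fermat.Agent.H22 Fermat.Agent.H16 Fermat.Agent.AL Fermat.Agent.TC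
open IsLocalRing
open scoped MatrixGroups
open ModularFormClass (qCoeff)

variable {D : ℕ}

/-- the primes indexed by `Pr D` -/
def prD (D : ℕ) (ℓ : Pr D) : Nat.Primes := ⟨ℓ.1, ℓ.2.1⟩

/-- evaluation of integral polynomials at a mod `p` system -/
def evp {p : ℕ} (a : Pr D → ZMod p) : MvPolynomial (Pr D) ℤ →+* ZMod p :=
  MvPolynomial.eval₂Hom (Int.castRingHom (ZMod p)) a

@[simp] theorem evp_X {p : ℕ} (a : Pr D → ZMod p) (ℓ : Pr D) :
    evp a (MvPolynomial.X ℓ) = a ℓ := MvPolynomial.eval₂Hom_X' _ _ _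

@[simp] theorem evp_C {p : ℕ} (a : Pr D → ZMod p) (n : ℤ) :
    evp a (MvPolynomial.C n) = n := MvPolynomial.eval₂Hom_C _ _ _

/-- the mod `p` system `a` away from `D` is realised by a normalized eigenform of level `M` -/
def RM (p M D : ℕ) (a : Pr D → ZMod p) : Prop :=
  ∃ (f : CuspForm (Gamma0 M) 2) (𝔪 : Ideal (integralClosure ℤ ℂ)),
    f.IsNormalizedEigenform ∧ 𝔪.IsMaximal ∧ (p : integralClosure ℤ ℂ) ∈ 𝔪 ∧
    ∀ ℓ : Pr D, ∃ x : integralClosure ℤ ℂ, (x : ℂ) = qCoeff f ℓ ∧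
      x - (((a ℓ).val : ℕ) : integralClosure ℤ ℂ) ∈ 𝔪

section Transfer

variable {M : ℕ} [NeZero M]

/-- an integral relation on integral homomorphisms holds for all torsion free coefficients -/
theorem evH_zero_of_int {z : MvPolynomial (Pr D) ℤ}
    (hz : ∀ φ : Additive (Gamma0 M) →+ ℤ, evH D ℤ M ℤ z φ = 0)
    {R : Type*} [CommRing R] {A : Type*} [AddCommGroup A] [Module R A] [Module.IsTorsionFree ℤ A]
    (ψ : Additive (Gamma0 M) →+ A) : evH D R M A z ψ = 0 := by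
  obtain ⟨n, c, φ, -, hφ⟩ := exists_decomposition ψ
  have h1 : ψ = ∑ i, ((smulAddHom ℤ A).flip (c i)).comp (φ i) := by
    refine AddMonoidHom.ext fun g => ?_
    rw [hφ g, AddMonoidHom.finsetSum_apply]
    rfl
  rw [h1, map_sum]
  refine Finset.sum_eq_zero fun i _ => ?_
  rw [evH_map (R := ℤ) (R' := R), hz]
  exact AddMonoidHom.comp_zero _

theorem evH_int_zero {z : MvPolynomial (Pr D) ℤ}
    (hz : ∀ φ : Additive (Gamma0 M) →+ ℂ, evH D ℂ M ℂ z φ = 0)
    (φ : Additive (Gamma0 M) →+ ℤ) : evH D ℤ M ℤ z φ = 0 := by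
  have h1 := hz ((Int.castAddHom ℂ).comp φ)
  rw [evH_map (R := ℤ) (R' := ℂ)] at h1
  refine AddMonoidHom.ext fun g => ?_
  have h2 := DFunLike.congr_fun h1 g
  change ((evH D ℤ M ℤ z φ g : ℤ) : ℂ) = 0 at h2
  exact_mod_cast h2

theorem hAct_map {O : Type} [CommRing O] {A : Type} [AddCommGroup A] [Module O A]
    (s : MvPolynomial (Pr D) ℤ) (ψ : Additive (Gamma0 M) →+ A) :
    hAct O M ⊤ A (prD D) (MvPolynomial.map (Int.castRingHom O) s) (eT O M A ψ) =
      eT O M A (evH D O M A s ψ) := by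
  induction s using MvPolynomial.induction_on generalizing ψ with
  | C n =>
    rw [MvPolynomial.map_C, ← MvPolynomial.algebraMap_eq, AlgHom.commutes,
      ← MvPolynomial.algebraMap_eq, eq_intCast, eq_intCast, map_intCast, map_intCast,
      Module.End.intCast_apply, Module.End.intCast_apply, map_zsmul]
  | add P Q hP hQ => rw [map_add, map_add, map_add, LinearMap.add_apply, LinearMap.add_apply,
      map_add, hP, hQ]
  | mul_X P ℓ hP =>
    rw [map_mul, map_mul, map_mul, Module.End.mul_apply, Module.End.mul_apply, MvPolynomial.map_X,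
      hAct_X]
    have : NeZero (ℓ : ℕ) := ⟨ℓ.2.1.ne_zero⟩
    have h1 : THp O M ⊤ A (prD D ℓ) (eT O M A ψ) =
        eT O M A (evH D O M A (MvPolynomial.X ℓ) ψ) := by
      rw [evH, evalComm_X]
      exact TH_eT (ℓ := (ℓ : ℕ)) ψ
    rw [h1, hP]

end Transfer

section Main

variable {p : ℕ} [hp : Fact p.Prime] {M : ℕ} [NeZero M]
  {O : Type} [CommRing O] [IsDomain O] [IsDiscreteValuationRing O]
  [IsAdicComplete (maximalIdeal O) O] [CharZero O]

theorem evR_map (ι : ZMod p →+* ResidueField O) (a : Pr D → ZMod p) (s : MvPolynomial (Pr D) ℤ) :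
    evR (fun ℓ => ι (a ℓ)) (MvPolynomial.map (Int.castRingHom O) s) = ι (evp a s) := by
  induction s using MvPolynomial.induction_on with
  | C n => simp
  | add P Q hP hQ => rw [map_add, map_add, map_add, map_add, hP, hQ]
  | mul_X P ℓ hP => rw [map_mul, map_mul, map_mul, map_mul, hP, MvPolynomial.map_X, evR_X, evp_X]

instance torsionFree_O : Module.IsTorsionFree ℤ O := inferInstance

/-- decomposition of a polynomial over `O` over a `ℤ`-basis of the span of its coefficients -/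
theorem exists_decomp_poly {σ : Type} (e : MvPolynomial σ O) :
    ∃ (n : ℕ) (c : Fin n → O) (s : Fin n → MvPolynomial σ ℤ), LinearIndependent ℤ c ∧
      e = ∑ i, MvPolynomial.C (c i) * MvPolynomial.map (Int.castRingHom O) (s i) := by
  classical
  let L : Submodule ℤ O := Submodule.span ℤ ((fun d => e.coeff d) '' (e.support : Set (σ →₀ ℕ)))
  have hfg : L.FG := ⟨e.support.image (fun d => e.coeff d), by rw [Finset.coe_image]⟩
  have : Module.Finite ℤ L := Module.Finite.iff_fg.mpr hfg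
  have : Module.Free ℤ L := inferInstance
  let b := Module.finBasis ℤ L
  have hmem : ∀ d ∈ e.support, e.coeff d ∈ L := fun d hd =>
    Submodule.subset_span ⟨d, hd, rfl⟩
  let co : (σ →₀ ℕ) → Fin (Module.finrank ℤ L) → ℤ := fun d i =>
    if hd : d ∈ e.support then b.repr ⟨e.coeff d, hmem d hd⟩ i else 0
  refine ⟨_, fun i => (b i : O), fun i => ∑ d ∈ e.support, MvPolynomial.monomial d (co d i),
    b.linearIndependent.map' L.subtype (Submodule.ker_subtype L), ?_⟩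
  conv_lhs => rw [e.as_sum]
  simp_rw [map_sum, MvPolynomial.map_monomial, Finset.mul_sum]
  rw [Finset.sum_comm]
  refine Finset.sum_congr rfl fun d hd => ?_
  simp_rw [MvPolynomial.C_mul_monomial]
  rw [← map_sum]
  congr 1
  have h1 := congrArg Subtype.val (b.sum_repr ⟨e.coeff d, hmem d hd⟩)
  rw [AddSubmonoidClass.coe_finsetSum] at h1
  refine Eq.trans h1.symm ?_
  refine Finset.sum_congr rfl fun i _ => ?_
  have h2 : co d i = b.repr ⟨e.coeff d, hmem d hd⟩ i := dif_pos hd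
  rw [h2]
  change b.repr ⟨e.coeff d, hmem d hd⟩ i • (b i : O) = _
  rw [zsmul_eq_mul, mul_comm]
  rfl

/-- a polynomial over `O` killing `Hom(Γ₀(M), O)` lies in `mx` if every integral polynomial killing
`Hom(Γ₀(M), ℤ)` reduces to zero -/
theorem mem_mx_of_kill (ι : ZMod p →+* ResidueField O) (a : Pr D → ZMod p)
    (hK : ∀ z : MvPolynomial (Pr D) ℤ, (∀ φ : Additive (Gamma0 M) →+ ℤ, evH D ℤ M ℤ z φ = 0) →
      evp a z = 0) {e : MvPolynomial (Pr D) O} (he : hAct O M ⊤ O (prD D) e = 0) :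
    e ∈ mx (fun ℓ => ι (a ℓ)) := by
  obtain ⟨n, c, s, hc, rfl⟩ := exists_decomp_poly e
  have hs : ∀ i, evp a (s i) = 0 := by
    intro i
    apply hK
    intro φ
    refine AddMonoidHom.ext fun g => ?_
    -- evaluate on the image of `φ`
    have h1 : hAct O M ⊤ O (prD D)
        (∑ i, MvPolynomial.C (c i) * MvPolynomial.map (Int.castRingHom O) (s i))
        (eT O M O ((Int.castAddHom O).comp φ)) = 0 := by rw [he]; rfl
    rw [map_sum, LinearMap.sum_apply] at h1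
    have h2 : ∀ i, hAct O M ⊤ O (prD D)
        (MvPolynomial.C (c i) * MvPolynomial.map (Int.castRingHom O) (s i))
        (eT O M O ((Int.castAddHom O).comp φ)) =
        eT O M O (c i • (Int.castAddHom O).comp (evH D ℤ M ℤ (s i) φ)) := by
      intro i
      rw [map_mul, Module.End.mul_apply, hAct_map, evH_map (R := ℤ) (R' := O),
        ← MvPolynomial.algebraMap_eq, AlgHom.commutes, Module.algebraMap_end_apply, map_smul]
    simp_rw [h2] at h1
    rw [← map_sum] at h1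
    have h3 : ∑ i, c i • (Int.castAddHom O).comp (evH D ℤ M ℤ (s i) φ) = 0 := by
      have hinj : Function.Injective (eT O M O) := by
        intro x y hxy
        refine AddMonoidHom.ext fun g => ?_
        obtain ⟨γ, rfl⟩ := Additive.ofMul.surjective g
        have h4 := DFunLike.congr_fun hxy
          (Additive.ofMul (⟨(γ : SL(2, ℤ)), (GamH_top (N := M)).ge γ.2⟩ : GamH M ⊤))
        exact h4
      exact hinj (h1.trans (map_zero _).symm)
    have h4 := DFunLike.congr_fun h3 g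
    rw [AddMonoidHom.finsetSum_apply] at h4
    have h5 : ∑ i, (evH D ℤ M ℤ (s i) φ g) • c i = 0 := by
      refine Eq.trans ?_ h4
      refine Finset.sum_congr rfl fun i _ => ?_
      change _ = c i • ((evH D ℤ M ℤ (s i) φ g : ℤ) : O)
      rw [zsmul_eq_mul, smul_eq_mul, mul_comm]
    exact linearIndependent_iff'.mp hc Finset.univ (fun i => evH D ℤ M ℤ (s i) φ g) h5 i
      (Finset.mem_univ i)
  refine Ideal.sum_mem _ fun i _ => Ideal.mul_mem_left _ _ ?_
  rw [mem_mx, evR_map, hs, map_zero]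

theorem ev_int_closure (x : Pr D → integralClosure ℤ ℂ) (z : MvPolynomial (Pr D) ℤ) :
    ((MvPolynomial.aeval x z : integralClosure ℤ ℂ) : ℂ) =
      MvPolynomial.aeval (fun ℓ => (x ℓ : ℂ)) z := by
  induction z using MvPolynomial.induction_on with
  | C n => simp
  | add P Q hP hQ => rw [map_add, map_add, ← hP, ← hQ]; rfl
  | mul_X P ℓ hP => rw [map_mul, map_mul, ← hP, MvPolynomial.aeval_X, MvPolynomial.aeval_X]; rfl

/-- if all `x ℓ ≡ a ℓ` modulo `𝔪` and `z(x) ∈ 𝔪` then `z(a) = 0` -/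
theorem evp_eq_zero {𝔪 : Ideal (integralClosure ℤ ℂ)} (h𝔪 : 𝔪.IsMaximal)
    (hp𝔪 : (p : integralClosure ℤ ℂ) ∈ 𝔪) {x : Pr D → integralClosure ℤ ℂ} {a : Pr D → ZMod p}
    (hx : ∀ ℓ, x ℓ - (((a ℓ).val : ℕ) : integralClosure ℤ ℂ) ∈ 𝔪) {z : MvPolynomial (Pr D) ℤ}
    (hz : MvPolynomial.aeval x z ∈ 𝔪) : evp a z = 0 := by
  letI := Ideal.Quotient.field 𝔪
  have hchar : CharP (integralClosure ℤ ℂ ⧸ 𝔪) p := by
    refine (CharP.charP_iff_prime_eq_zero hp.out).mpr ?_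
    rw [← map_natCast (Ideal.Quotient.mk 𝔪), Ideal.Quotient.eq_zero_iff_mem]
    exact hp𝔪
  let κ : ZMod p →+* integralClosure ℤ ℂ ⧸ 𝔪 := ZMod.castHom (dvd_refl p) _
  have key : ∀ z : MvPolynomial (Pr D) ℤ,
      Ideal.Quotient.mk 𝔪 (MvPolynomial.aeval x z) = κ (evp a z) := by
    intro z
    induction z using MvPolynomial.induction_on with
    | C n => simp
    | add P Q hP hQ => rw [map_add, map_add, map_add, map_add, hP, hQ]
    | mul_X P ℓ hP =>
      rw [map_mul, map_mul, map_mul, map_mul, hP, MvPolynomial.aeval_X, evp_X]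
      congr 1
      have h1 := Ideal.Quotient.eq.mpr (hx ℓ)
      rw [h1, map_natCast]
      have h2 : κ (a ℓ) = κ (((a ℓ).val : ℕ) : ZMod p) := by rw [ZMod.natCast_zmod_val]
      rw [h2, map_natCast]
  have h1 := key z
  rw [Ideal.Quotient.eq_zero_iff_mem.mpr hz] at h1
  exact (map_eq_zero_iff κ κ.injective).mp h1.symm

/-- **A8, first direction.** -/
theorem locPart_ne_bot_of_RM (hMD : M ∣ D) (ι : ZMod p →+* ResidueField O) {a : Pr D → ZMod p}
    (h : RM p M D a) : locPart (hAct O M ⊤ O (prD D)) (mx (fun ℓ => ι (a ℓ))) ≠ ⊥ := by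
  obtain ⟨f, 𝔪, hf, h𝔪, hp𝔪, hx⟩ := h
  choose x hx1 hx2 using hx
  intro hbot
  have hfin : Module.Finite O (HM (GamH M ⊤) O) := finite_HM _ O O
  obtain ⟨e, he⟩ := exists_dec (hAct O M ⊤ O (prD D)) (mx (fun ℓ => ι (a ℓ))) (mx_le _)
  have he0 : hAct O M ⊤ O (prD D) e = 0 := by
    refine LinearMap.ext fun y => ?_
    have := he.mem y
    rw [hbot, Submodule.mem_bot] at this
    exact this
  refine he.nmem (mem_mx_of_kill (M := M) ι a (fun z hz => ?_) he0)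
  refine evp_eq_zero h𝔪 hp𝔪 hx2 ?_
  have h1 : esMap M (evF hMD z f) = 0 := by
    rw [esMap_evF]
    exact evH_zero_of_int hz _
  have h2 : evF hMD z f = 0 := esMap_injective (h1.trans (map_zero _).symm)
  have hf' : f ∈ simEig (TD hMD) (fun ℓ => (x ℓ : ℂ)) := by
    rw [mem_simEig]
    intro ℓ
    rw [hx1]
    exact eigenform_T hf ℓ.2.1 (fun hh => ℓ.2.2 (hh.trans hMD))
  rw [evF_simEig hMD _ z hf', ← ev_int_closure] at h2
  rcases smul_eq_zero.mp h2 with h3 | h3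
  · have h4 : MvPolynomial.aeval x z = 0 := Subtype.ext h3
    rw [h4]
    exact zero_mem _
  · exact absurd h3 hf.ne_zero

/-- the ideal of integral polynomials vanishing at `a` is maximal -/
theorem ker_evp_isMaximal (a : Pr D → ZMod p) : (RingHom.ker (evp a)).IsMaximal := by
  refine RingHom.ker_isMaximal_of_surjective (evp a) fun x => ?_
  refine ⟨MvPolynomial.C ((x.val : ℕ) : ℤ), ?_⟩
  rw [evp_C, Int.cast_natCast, ZMod.natCast_zmod_val]

/-- If no form realises `a` then every characteristic zero eigencharacter is killed by an integral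
polynomial not vanishing at `a`. -/
theorem exists_kill {a : Pr D → ZMod p} (hno : ¬ RM p M D a)
    {f : CuspForm (Gamma0 M) 2} (hf : f.IsNormalizedEigenform) {χ : Pr D → ℂ}
    (hχ : ∀ ℓ : Pr D, qCoeff f ℓ = χ ℓ) :
    ∃ z : MvPolynomial (Pr D) ℤ, MvPolynomial.aeval χ z = 0 ∧ evp a z ≠ 0 := by
  by_contra hcon
  push Not at hcon
  apply hno
  have hint : ∀ ℓ : Pr D, IsIntegral ℤ (χ ℓ) := fun ℓ => by
    rw [← hχ]; exact isIntegral_qCoeff_prime hf ℓ.2.1
  let x : Pr D → integralClosure ℤ ℂ := fun ℓ => ⟨χ ℓ, hint ℓ⟩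
  let g : MvPolynomial (Pr D) ℤ →+* integralClosure ℤ ℂ := (MvPolynomial.aeval x).toRingHom
  letI : Algebra (MvPolynomial (Pr D) ℤ) (integralClosure ℤ ℂ) := g.toAlgebra
  have hint2 : Algebra.IsIntegral (MvPolynomial (Pr D) ℤ) (integralClosure ℤ ℂ) := by
    have : IsScalarTower ℤ (MvPolynomial (Pr D) ℤ) (integralClosure ℤ ℂ) :=
      IsScalarTower.of_algebraMap_eq' (RingHom.ext_int _ _)
    exact Algebra.IsIntegral.tower_top (R := ℤ)
  have hmax := ker_evp_isMaximal (p := p) a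
  obtain ⟨Q, hQ, hQc⟩ := Ideal.exists_ideal_over_maximal_of_isIntegral
    (S := integralClosure ℤ ℂ) (RingHom.ker (evp a)) (fun z hz => by
      refine hcon z ?_
      have h1 : g z = 0 := hz
      have h2 := ev_int_closure x z
      rw [← h2]
      exact congrArg Subtype.val h1)
  have hmem : ∀ z, evp a z = 0 → g z ∈ Q := fun z hz => by
    have h1 : z ∈ Q.comap (algebraMap (MvPolynomial (Pr D) ℤ) (integralClosure ℤ ℂ)) := by
      rw [hQc]; exact hz
    exact h1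
  refine ⟨f, Q, hf, hQ, ?_, fun ℓ => ⟨x ℓ, (hχ ℓ).symm, ?_⟩⟩
  · have h1 := hmem (MvPolynomial.C (p : ℤ)) (by rw [evp_C]; simp)
    have h2 : g (MvPolynomial.C (p : ℤ)) = (p : integralClosure ℤ ℂ) := by
      change MvPolynomial.aeval x (MvPolynomial.C (p : ℤ)) = _
      rw [MvPolynomial.aeval_C]
      simp
    rwa [h2] at h1
  · have h1 := hmem (MvPolynomial.X ℓ - MvPolynomial.C (((a ℓ).val : ℕ) : ℤ)) (by
      rw [map_sub, evp_X, evp_C, Int.cast_natCast, ZMod.natCast_zmod_val, sub_self])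
    have h2 : g (MvPolynomial.X ℓ - MvPolynomial.C (((a ℓ).val : ℕ) : ℤ)) =
        x ℓ - (((a ℓ).val : ℕ) : integralClosure ℤ ℂ) := by
      change MvPolynomial.aeval x _ = _
      rw [map_sub, MvPolynomial.aeval_X, MvPolynomial.aeval_C]
      simp
    rwa [h2] at h1

/-- **A8, second direction** (non-Eisenstein systems). -/
theorem RM_of_locPart_ne_bot (hMD : M ∣ D) (ι : ZMod p →+* ResidueField O)
    {a : Pr D → ZMod p} (heis : ∃ ℓ₀ : Pr D, (M : ℤ) ∣ (ℓ₀ : ℤ) - 1 ∧ a ℓ₀ ≠ (ℓ₀ : ℕ) + 1)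
    (h : locPart (hAct O M ⊤ O (prD D)) (mx (fun ℓ => ι (a ℓ))) ≠ ⊥) : RM p M D a := by
  classical
  by_contra hno
  apply h
  have hfd : FiniteDimensional ℂ (CuspForm (Gamma0 M) 2) := H22.finiteDimensional_cuspForm M 2
  have hfin : {χ | simEig (TD (N := M) hMD) χ ≠ ⊥}.Finite :=
    WellFoundedGT.finite_ne_bot_of_iSupIndep
      (simEig_indep (TD (N := M) hMD) (fun i j => TD_comm hMD i j))
  -- killing polynomials
  have hz : ∀ χ : Pr D → ℂ, ∃ z : MvPolynomial (Pr D) ℤ,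
      evp a z ≠ 0 ∧ (simEig (TD (N := M) hMD) χ ≠ ⊥ → MvPolynomial.aeval χ z = 0) := by
    intro χ
    by_cases hχ : simEig (TD (N := M) hMD) χ = ⊥
    · exact ⟨1, by rw [map_one]; exact one_ne_zero, fun h => absurd hχ h⟩
    · obtain ⟨f, hf, hf0⟩ := Submodule.exists_mem_ne_zero_of_ne_bot hχ
      rw [mem_simEig] at hf
      obtain ⟨g, hg, hga⟩ := exists_eigenform_away (D := D) hf0
        (a := fun ℓ => if hℓ : ℓ.Prime ∧ ¬ ℓ ∣ D then χ ⟨ℓ, hℓ⟩ else 0)
        (fun ℓ hℓ hℓN hℓD => by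
          rw [dif_pos ⟨hℓ, hℓD⟩]
          exact hf ⟨ℓ, hℓ, hℓD⟩)
      obtain ⟨z, hz1, hz2⟩ := exists_kill hno hg (χ := χ) (fun ℓ => by
        have := hga ℓ ℓ.2.1 (fun hh => ℓ.2.2 (hh.trans hMD)) ℓ.2.2
        rw [dif_pos ℓ.2] at this
        exact this)
      exact ⟨z, hz2, fun _ => hz1⟩
  choose z hz1 hz2 using hz
  set Z := ∏ χ ∈ hfin.toFinset, z χ with hZ
  have hZ1 : evp a Z ≠ 0 := by
    rw [hZ, map_prod]
    exact Finset.prod_ne_zero_iff.mpr fun χ _ => hz1 χ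
  have hZ2 : ∀ f : CuspForm (Gamma0 M) 2, evF hMD Z f = 0 := by
    intro f
    have hf : f ∈ ⨆ χ, simEig (TD hMD) χ := by rw [iSup_simEig]; trivial
    refine Submodule.iSup_induction (fun χ => simEig (TD hMD) χ)
      (motive := fun f => evF hMD Z f = 0) hf ?_ ?_ ?_
    · intro χ f hf
      rw [evF_simEig hMD χ Z hf]
      by_cases hbot : simEig (TD (N := M) hMD) χ = ⊥
      · rw [hbot, Submodule.mem_bot] at hf
        rw [hf, smul_zero]
      · have h1 : MvPolynomial.aeval χ Z = 0 := by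
          rw [hZ, map_prod]
          exact Finset.prod_eq_zero (hfin.mem_toFinset.mpr hbot) (hz2 χ hbot)
        rw [h1, zero_smul]
    · exact map_zero _
    · intro f g hf hg
      rw [map_add, hf, hg, add_zero]
  obtain ⟨ℓ₀, hℓ1, hℓ2⟩ := heis
  have hW1 : evp a (Z * eisP ℓ₀) ≠ 0 := by
    rw [map_mul]
    refine mul_ne_zero hZ1 ?_
    rw [eisP, map_sub, evp_X, evp_C]
    push_cast
    exact sub_ne_zero.mpr hℓ2
  have hW2 : ∀ φ : Additive (Gamma0 M) →+ ℂ, evH D ℂ M ℂ (Z * eisP ℓ₀) φ = 0 := by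
    intro φ
    rw [map_mul, Module.End.mul_apply]
    have h1 : evH D ℂ M ℂ (eisP ℓ₀) φ ∈ parabolicHoms ℂ (Gamma0 M) ℂ :=
      evH_eisP (fun n hn x hx => by
        rcases smul_eq_zero.mp hx with h2 | h2
        · exact absurd h2 hn
        · exact h2) ℓ₀ hℓ1 φ
    obtain ⟨f, g, hfg⟩ := exists_esMap_pair h1
    rw [hfg, map_add, evH_charInv, ← esMap_evF hMD, ← esMap_evF hMD, hZ2, hZ2, map_zero, map_zero,
      add_zero]
  have hW3 : ∀ ψ : Additive (Gamma0 M) →+ O, evH D O M O (Z * eisP ℓ₀) ψ = 0 :=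
    fun ψ => evH_zero_of_int (fun φ => evH_int_zero hW2 φ) ψ
  have hfin2 : Module.Finite O (HM (GamH M ⊤) O) := finite_HM _ O O
  obtain ⟨e, he⟩ := exists_dec (hAct O M ⊤ O (prD D)) (mx (fun ℓ => ι (a ℓ))) (mx_le _)
  rw [eq_bot_iff]
  intro y hy
  rw [Submodule.mem_bot]
  refine he.bij (s := MvPolynomial.map (Int.castRingHom O) (Z * eisP ℓ₀)) (fun hmem => ?_) hy ?_
  · rw [mem_mx, evR_map] at hmem
    exact hW1 ((map_eq_zero_iff ι ι.injective).mp hmem)
  · obtain ⟨ψ, rfl⟩ := eT_surjective (R := O) y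
    rw [hAct_map, hW3, map_zero]

/-- **A8**: the dictionary. -/
theorem RM_iff (hMD : M ∣ D) (ι : ZMod p →+* ResidueField O)
    {a : Pr D → ZMod p} (heis : ∃ ℓ₀ : Pr D, (M : ℤ) ∣ (ℓ₀ : ℤ) - 1 ∧ a ℓ₀ ≠ (ℓ₀ : ℕ) + 1) :
    RM p M D a ↔ locPart (hAct O M ⊤ O (prD D)) (mx (fun ℓ => ι (a ℓ))) ≠ ⊥ :=
  ⟨locPart_ne_bot_of_RM hMD ι, RM_of_locPart_ne_bot hMD ι heis⟩

end Main

section Format

variable {p : ℕ} [hp : Fact p.Prime]

/-- the mod `p` system `a` outside `S` is realised by a normalized eigenform of level `M` -/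
def RMs (p M : ℕ) (S : Finset ℕ) (a : ℕ → ZMod p) : Prop :=
  ∃ (f : CuspForm (Gamma0 M) 2) (𝔪 : Ideal (integralClosure ℤ ℂ)),
    f.IsNormalizedEigenform ∧ 𝔪.IsMaximal ∧ (p : integralClosure ℤ ℂ) ∈ 𝔪 ∧
    ∀ ℓ : ℕ, ℓ.Prime → ℓ ∉ S → ∃ x : integralClosure ℤ ℂ, (x : ℂ) = qCoeff f ℓ ∧
      x - (((a ℓ).val : ℕ) : integralClosure ℤ ℂ) ∈ 𝔪

/-- changing the integer lift -/
theorem sub_val_mem_iff {𝔪 : Ideal (integralClosure ℤ ℂ)} (hp𝔪 : (p : integralClosure ℤ ℂ) ∈ 𝔪)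
    {x : integralClosure ℤ ℂ} {c : ZMod p} {n : ℤ} (hn : (n : ZMod p) = c) :
    x - ((c.val : ℕ) : integralClosure ℤ ℂ) ∈ 𝔪 ↔ x - (n : integralClosure ℤ ℂ) ∈ 𝔪 := by
  have h1 : ((n - (c.val : ℤ) : ℤ) : ZMod p) = 0 := by
    push_cast
    rw [hn, ZMod.natCast_zmod_val, sub_self]
  rw [ZMod.intCast_zmod_eq_zero_iff_dvd] at h1
  obtain ⟨d, hd⟩ := h1
  have h2 : ((c.val : ℕ) : integralClosure ℤ ℂ) = (n : integralClosure ℤ ℂ) - p * d := by
    have h3 : ((c.val : ℕ) : ℤ) = n - p * d := by linarith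
    have h4 := congrArg (fun z : ℤ => (z : integralClosure ℤ ℂ)) h3
    simpa using h4
  rw [h2]
  have h5 : (p : integralClosure ℤ ℂ) * d ∈ 𝔪 := Ideal.mul_mem_right _ _ hp𝔪
  constructor
  · intro h
    have : x - (n : integralClosure ℤ ℂ) = (x - (n - p * d)) - p * d := by ring
    rw [this]
    exact sub_mem h h5
  · intro h
    have : x - ((n : integralClosure ℤ ℂ) - p * d) = (x - n) + p * d := by ring
    rw [this]
    exact add_mem h h5

theorem RMs.RM {M D : ℕ} {S : Finset ℕ} {a : ℕ → ZMod p} (h : RMs p M S a)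
    (hS : ∀ q ∈ S, q.Prime → q ∣ D) : RM p M D (fun ℓ => a ℓ) := by
  obtain ⟨f, 𝔪, hf, h𝔪, hp𝔪, hx⟩ := h
  exact ⟨f, 𝔪, hf, h𝔪, hp𝔪, fun ℓ => hx ℓ ℓ.2.1 (fun hh => ℓ.2.2 (hS _ hh ℓ.2.1))⟩

theorem RM.RMs {M D : ℕ} (hD : D ≠ 0) {a : ℕ → ZMod p} (h : RM p M D (fun ℓ => a ℓ)) :
    RMs p M D.primeFactors a := by
  obtain ⟨f, 𝔪, hf, h𝔪, hp𝔪, hx⟩ := h
  exact ⟨f, 𝔪, hf, h𝔪, hp𝔪, fun ℓ hℓ hℓD => hx ⟨ℓ, hℓ, fun hh =>
    hℓD (Nat.mem_primeFactors.mpr ⟨hℓ, hh, hD⟩)⟩⟩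

/-- residual modularity of an elliptic curve in terms of `RMs` -/
theorem RMs_of_isResiduallyModularOfLevel {W : WeierstrassCurve ℤ} {M : ℕ} {S : Finset ℕ}
    (h : W.IsResiduallyModularOfLevel p M)
    (hS : ∀ ℓ : ℕ, ℓ.Prime → ℓ ∉ S → W.IsGoodPrimeFor ℓ ∧ ¬ ℓ ∣ M ∧ ℓ ≠ p) :
    RMs p M S (fun ℓ => (W.apOfModel ℓ : ZMod p)) := by
  obtain ⟨f, 𝔪, hf, h𝔪, hp𝔪, hx⟩ := h
  refine ⟨f, 𝔪, hf, h𝔪, hp𝔪, fun ℓ hℓ hℓS => ?_⟩
  obtain ⟨h1, h2, h3⟩ := hS ℓ hℓ hℓS
  obtain ⟨x, hx1, hx2⟩ := hx ℓ hℓ h1 h2 h3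
  exact ⟨x, hx1, (sub_val_mem_iff hp𝔪 rfl).mpr hx2⟩

variable {M : ℕ} [NeZero M]
  {O : Type} [CommRing O] [IsDomain O] [IsDiscreteValuationRing O]
  [IsAdicComplete (maximalIdeal O) O] [CharZero O]

/-- **A8** in the format of the level lowering assembly. -/
theorem locPart_ne_bot_of_RMs {D : ℕ} {S : Finset ℕ} (hMD : M ∣ D)
    (hS : ∀ q ∈ S, q.Prime → q ∣ D) (ι : ZMod p →+* ResidueField O) {a : ℕ → ZMod p}
    (h : RMs p M S a) :
    locPart (hAct O M ⊤ O (prD D)) (mx (fun ℓ : Pr D => ι (a ℓ))) ≠ ⊥ :=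
  locPart_ne_bot_of_RM hMD ι (h.RM hS)

theorem RMs_of_locPart_ne_bot {D : ℕ} (hD : D ≠ 0) (hMD : M ∣ D) (ι : ZMod p →+* ResidueField O)
    {a : ℕ → ZMod p}
    (heis : ∃ ℓ₀ : Pr D, (M : ℤ) ∣ (ℓ₀ : ℤ) - 1 ∧ a ℓ₀ ≠ (ℓ₀ : ℕ) + 1)
    (h : locPart (hAct O M ⊤ O (prD D)) (mx (fun ℓ : Pr D => ι (a ℓ))) ≠ ⊥) :
    RMs p M D.primeFactors a :=
  (RM_of_locPart_ne_bot hMD ι heis h).RMs hD

end Format

end Fermat.Agent.H19.A8
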