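import Fermat.Agent.H19.HopfF

set_option autoImplicit false
set_option linter.unusedSectionVars false

/-!
# Hopf orders: quotients, comultiplication
-/

noncomputable section

namespace Fermat.Agent.H19

open Fermat.Agent.H02F TensorProduct

section

variable {ℓ : ℕ} {M : Type*} [AddCommGroup M] [Finite M] {act : GQ →* AddMonoid.End M}
  {H : Subalgebra (RL ℓ) (M → Qb)} (hH : IsHopfOrder ℓ act H)
  {M₂ : Type*} [AddCommGroup M₂] [Finite M₂] {act₂ : GQ →* AddMonoid.End M₂}
  (π : M →+ M₂) (hπ : ∀ σ m, π (act σ m) = act₂ σ (π m)) (hsurj : Function.Surjective π)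

include hH hsurj

theorem fg_comap : (Subalgebra.toSubmodule (H.comap (pull ℓ π))).FG := by
  have hfin := finite_H hH
  have hN : IsNoetherian (RL ℓ) H := inferInstance
  let f : H.comap (pull ℓ π) →ₗ[RL ℓ] H :=
    { toFun := fun ψ => ⟨pull ℓ π ψ.1, ψ.2⟩
      map_add' := fun _ _ => rfl
      map_smul' := fun _ _ => rfl }
  have hinj : Function.Injective f := by
    intro a b h
    apply Subtype.ext
    funext z
    obtain ⟨m, rfl⟩ := hsurj z
    exact congrFun (congrArg Subtype.val h) m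
  have : Module.Finite (RL ℓ) (H.comap (pull ℓ π)) := Module.Finite.of_injective f hinj
  exact Module.Finite.iff_fg.mp this

include hπ in
theorem sep_comap {x y : M₂} (hxy : x ≠ y) : ∃ ψ ∈ H.comap (pull ℓ π), ψ x ≠ ψ y := by
  obtain ⟨ψ, hψ, hne⟩ := exists_trace hH π hπ hsurj hxy
  have hψ' : IsEq act (pull ℓ π ψ) := by
    intro σ m
    rw [pull_apply, pull_apply, hπ, hψ]
  obtain ⟨n, hn, hmem⟩ := exists_nsmul_mem hH hψ'
  refine ⟨n • ψ, ?_, ?_⟩
  · change pull ℓ π (n • ψ) ∈ H
    rw [map_nsmul]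
    exact hmem
  · intro h
    apply hne
    rw [Pi.smul_apply, Pi.smul_apply] at h
    have hn' : (n : Qb) ≠ 0 := by exact_mod_cast hn
    rw [nsmul_eq_mul, nsmul_eq_mul] at h
    exact mul_left_cancel₀ hn' h

/-- the submodule of `H` of functions constant on the fibres -/
def WW : Submodule (RL ℓ) H where
  carrier := {φ | ∃ ψ : M₂ → Qb, φ.1 = pull ℓ π ψ}
  add_mem' := by
    rintro a b ⟨α, hα⟩ ⟨β, hβ⟩
    exact ⟨α + β, by rw [map_add, ← hα, ← hβ]; rfl⟩
  zero_mem' := ⟨0, by rw [map_zero]; rfl⟩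
  smul_mem' := by
    rintro c a ⟨α, hα⟩
    exact ⟨c • α, by rw [map_smul, ← hα]; rfl⟩

omit hsurj in
theorem exists_retraction : ∃ P : H →ₗ[RL ℓ] H, (∀ φ, P φ ∈ WW (H := H) π) ∧
    ∀ φ ∈ WW (H := H) π, P φ = φ := by
  have hfin := finite_H hH
  have htf : Module.IsTorsionFree (RL ℓ) (H ⧸ WW (H := H) π) := by
    refine Module.IsTorsionFree.of_smul_eq_zero fun r q h => ?_
    obtain ⟨φ, rfl⟩ := Submodule.Quotient.mk_surjective _ q
    by_cases hr : r = 0
    · exact Or.inl hr
    · right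
      rw [← Submodule.Quotient.mk_smul, Submodule.Quotient.mk_eq_zero] at h
      rw [Submodule.Quotient.mk_eq_zero]
      obtain ⟨ψ, hψ⟩ := h
      have hr' : algebraMap (RL ℓ) Qb r ≠ 0 := fun h0 =>
        hr ((map_eq_zero_iff _ (algebraMap_RL_injective ℓ)).mp h0)
      refine ⟨(algebraMap (RL ℓ) Qb r)⁻¹ • ψ, ?_⟩
      funext m
      have h1 := congrFun hψ m
      change (r • φ.1) m = ψ (π m) at h1
      rw [Pi.smul_apply, Algebra.smul_def] at h1
      change φ.1 m = (algebraMap (RL ℓ) Qb r)⁻¹ * ψ (π m)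
      rw [← h1, inv_mul_cancel_left₀ hr']
  have hfree : Module.Free (RL ℓ) (H ⧸ WW (H := H) π) := Module.free_of_finite_type_torsion_free'
  obtain ⟨s, hs⟩ := Module.projective_lifting_property (WW (H := H) π).mkQ LinearMap.id
    (Submodule.mkQ_surjective _)
  refine ⟨LinearMap.id - s.comp (WW (H := H) π).mkQ, fun φ => ?_, fun φ hφ => ?_⟩
  · rw [← Submodule.Quotient.mk_eq_zero, ← Submodule.mkQ_apply]
    have h1 := LinearMap.congr_fun hs ((WW (H := H) π).mkQ φ)
    rw [LinearMap.sub_apply, map_sub]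
    change (WW (H := H) π).mkQ φ - (WW (H := H) π).mkQ (s ((WW (H := H) π).mkQ φ)) = 0
    change (WW (H := H) π).mkQ (s ((WW (H := H) π).mkQ φ)) = (WW (H := H) π).mkQ φ at h1
    rw [h1, sub_self]
  · have h1 : (WW (H := H) π).mkQ φ = 0 := by
      rw [Submodule.mkQ_apply, Submodule.Quotient.mk_eq_zero]
      exact hφ
    change φ - s ((WW (H := H) π).mkQ φ) = φ
    rw [h1, map_zero, sub_zero]

include hπ in
/-- quotients -/
theorem isHopfOrder_comap : IsHopfOrder ℓ act₂ (H.comap (pull ℓ π)) := by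
  classical
  refine ⟨fg_comap hH π hsurj, ?_, fun x y hxy => sep_comap hH π hπ hsurj hxy, ?_⟩
  · intro ψ hψ σ z
    obtain ⟨m, rfl⟩ := hsurj z
    rw [← hπ]
    exact hH.equiv _ hψ σ m
  · intro ψ hψ
    obtain ⟨P, hP, hPid⟩ := exists_retraction hH π
    -- the `ℚ̄`-linear extension of `P`
    let PQ : (M → Qb) →ₗ[Qb] (M → Qb) := (basisQb hH).constr Qb (fun i => (P (basisH hH i)).1)
    have hPQ : ∀ φ : H, PQ φ.1 = (P φ).1 := by
      have h1 : (PQ.restrictScalars (RL ℓ)).comp (Subalgebra.toSubmodule H).subtype =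
          (Subalgebra.toSubmodule H).subtype.comp P := by
        refine (basisH hH).ext fun i => ?_
        change PQ (basisH hH i).1 = (P (basisH hH i)).1
        rw [← basisQb_apply, Module.Basis.constr_basis]
      exact fun φ => LinearMap.congr_fun h1 φ
    -- functions constant on the fibres are fixed
    have hfix : ∀ χ : M₂ → Qb, PQ (pull ℓ π χ) = pull ℓ π χ := by
      intro χ
      have hmem : χ ∈ Submodule.span Qb (H.comap (pull ℓ π) : Set (M₂ → Qb)) := by
        rw [span_eq_top _ (fun x y hxy => sep_comap hH π hπ hsurj hxy)]; trivial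
      induction hmem using Submodule.span_induction with
      | mem χ hχ =>
        have h1 := hPid ⟨pull ℓ π χ, hχ⟩ ⟨χ, rfl⟩
        exact (hPQ ⟨pull ℓ π χ, hχ⟩).trans (congrArg Subtype.val h1)
      | zero => rw [map_zero, map_zero]
      | add a b _ _ h1 h2 => rw [map_add, map_add, h1, h2]
      | smul c a _ h1 =>
        have : pull ℓ π (c • a) = c • pull ℓ π a := rfl
        rw [this, map_smul, h1]
    obtain ⟨n, a, b, ha, hb, hab'⟩ := hH.comul _ hψ
    have hab : ∀ x y : M, ψ (π (x + y)) = ∑ i, a i x * b i y := hab'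
    -- first projection
    have s1 : ∀ x y : M, ψ (π x + π y) = ∑ i, (P ⟨a i, ha i⟩).1 x * b i y := by
      intro x y
      have h1 : ∑ i, b i y • a i = pull ℓ π (fun z => ψ (z + π y)) := by
        funext x
        rw [Finset.sum_apply]
        have := hab x y
        rw [map_add] at this
        rw [pull_apply, this]
        exact Finset.sum_congr rfl fun i _ => mul_comm _ _
      have h2 := hfix (fun z => ψ (z + π y))
      rw [← h1, map_sum] at h2
      have h3 := congrFun h2 x
      rw [h1, pull_apply, Finset.sum_apply] at h3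
      rw [← h3]
      refine Finset.sum_congr rfl fun i _ => ?_
      rw [map_smul, Pi.smul_apply, smul_eq_mul, mul_comm, ← hPQ ⟨a i, ha i⟩]
    -- second projection
    have s2 : ∀ x y : M, ψ (π x + π y) = ∑ i, (P ⟨a i, ha i⟩).1 x * (P ⟨b i, hb i⟩).1 y := by
      intro x y
      have h1 : ∑ i, (P ⟨a i, ha i⟩).1 x • b i = pull ℓ π (fun z => ψ (π x + z)) := by
        funext y
        rw [Finset.sum_apply, pull_apply, s1 x y]
        rfl
      have h2 := hfix (fun z => ψ (π x + z))
      rw [← h1, map_sum] at h2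
      have h3 := congrFun h2 y
      rw [h1, pull_apply, Finset.sum_apply] at h3
      rw [← h3]
      refine Finset.sum_congr rfl fun i _ => ?_
      rw [map_smul, Pi.smul_apply, smul_eq_mul, ← hPQ ⟨b i, hb i⟩]
    choose α hα using fun i => hP ⟨a i, ha i⟩
    choose β hβ using fun i => hP ⟨b i, hb i⟩
    refine ⟨n, α, β, fun i => ?_, fun i => ?_, fun x y => ?_⟩
    · change pull ℓ π (α i) ∈ H
      rw [← hα i]
      exact (P ⟨a i, ha i⟩).2
    · change pull ℓ π (β i) ∈ H
      rw [← hβ i]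
      exact (P ⟨b i, hb i⟩).2
    · obtain ⟨x, rfl⟩ := hsurj x
      obtain ⟨y, rfl⟩ := hsurj y
      rw [s2]
      refine Finset.sum_congr rfl fun i _ => ?_
      rw [hα i, hβ i]
      rfl

end

/-- quotients -/
theorem HasHopf.of_surjective {ℓ : ℕ} {M M₂ : Type*} [AddCommGroup M] [Finite M]
    [AddCommGroup M₂] {act : GQ →* AddMonoid.End M} {act₂ : GQ →* AddMonoid.End M₂}
    (h : HasHopf ℓ act) (π : M →+ M₂) (hπ : ∀ σ m, π (act σ m) = act₂ σ (π m))
    (hsurj : Function.Surjective π) : HasHopf ℓ act₂ := by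
  have : Finite M₂ := Finite.of_surjective π hsurj
  obtain ⟨H, hH⟩ := h
  exact ⟨_, isHopfOrder_comap hH π hπ hsurj⟩

/-- subquotients -/
theorem HasHopf.of_subquotient {ℓ : ℕ} {M M₁ M₂ : Type*} [AddCommGroup M] [Finite M]
    [AddCommGroup M₁] [AddCommGroup M₂] {act : GQ →* AddMonoid.End M}
    {act₁ : GQ →* AddMonoid.End M₁} {act₂ : GQ →* AddMonoid.End M₂}
    (h : HasHopf ℓ act) (p : M₁ →+ M) (hp : ∀ σ m, p (act₁ σ m) = act σ (p m))
    (hinj : Function.Injective p) (π : M₁ →+ M₂) (hπ : ∀ σ m, π (act₁ σ m) = act₂ σ (π m))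
    (hsurj : Function.Surjective π) : HasHopf ℓ act₂ := by
  have : Finite M₁ := Finite.of_injective p hinj
  exact (h.of_injective p hp hinj).of_surjective π hπ hsurj

end Fermat.Agent.H19
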