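import Fermat.Agent.H19.HopfG

set_option autoImplicit false
set_option linter.unusedSectionVars false

/-!
# Hopf orders: modules killed by the annihilator
-/

noncomputable section

namespace Fermat.Agent.H19

open Fermat.Agent.H02F

section

variable {ℓ : ℕ} {M V : Type*} [AddCommGroup M] [AddCommGroup V]
  (actM : GQ →* AddMonoid.End M) (actV : GQ →* AddMonoid.End V)

/-- the action of an element of the group ring -/
def gr (m : M) : (GQ →₀ ℤ) →ₗ[ℤ] M := Finsupp.linearCombination ℤ (fun g => actM g m)

theorem gr_single (m : M) (g : GQ) (n : ℤ) : gr actM m (Finsupp.single g n) = n • actM g m :=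
  Finsupp.linearCombination_single ℤ n g

/-- left multiplication on the group ring -/
def lm (σ : GQ) : (GQ →₀ ℤ) →ₗ[ℤ] (GQ →₀ ℤ) := Finsupp.lmapDomain ℤ ℤ (fun g => σ * g)

theorem gr_lm (m : M) (σ : GQ) (c : GQ →₀ ℤ) : gr actM m (lm σ c) = actM σ (gr actM m c) := by
  induction c using Finsupp.induction_linear with
  | zero => simp
  | add a b ha hb => rw [map_add, map_add, map_add, map_add, ha, hb]
  | single g n =>
    have h1 : lm σ (Finsupp.single g n) = Finsupp.single (σ * g) n := Finsupp.mapDomain_single
    rw [h1, gr_single, gr_single, map_zsmul, map_mul]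
    rfl

/-- the universal map -/
def Phi (V : Type*) : (V → (GQ →₀ ℤ)) →ₗ[ℤ] (V × M → M) :=
  LinearMap.pi (fun x => (gr actM x.2).comp (LinearMap.proj x.1))

omit [AddCommGroup V] in
theorem Phi_apply (c : V → (GQ →₀ ℤ)) (x : V × M) : Phi actM V c x = gr actM x.2 (c x.1) := rfl

/-- the map to `V` -/
def Psi [Fintype V] : (V → (GQ →₀ ℤ)) →ₗ[ℤ] V :=
  ∑ v : V, (gr actV v).comp (LinearMap.proj v)

theorem Psi_apply [Fintype V] (c : V → (GQ →₀ ℤ)) : Psi actV c = ∑ v : V, gr actV v (c v) := by
  simp [Psi]

/-- action on the range of `Phi` -/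
def actR (V : Type*) : GQ →* AddMonoid.End (LinearMap.range (Phi actM V)) where
  toFun σ :=
    { toFun := fun f => ⟨fun x => actM σ (f.1 x), by
        obtain ⟨c, hc⟩ := f.2
        refine ⟨fun v => lm σ (c v), ?_⟩
        funext x
        rw [Phi_apply, gr_lm, ← hc]
        rfl⟩
      map_zero' := by
        apply Subtype.ext
        funext x
        exact map_zero (actM σ)
      map_add' := fun f g => by
        apply Subtype.ext
        funext x
        exact map_add (actM σ) _ _ }
  map_one' := by
    ext f x
    change actM 1 (f.1 x) = f.1 x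
    rw [map_one]
    rfl
  map_mul' σ τ := by
    ext f x
    change actM (σ * τ) (f.1 x) = actM σ (actM τ (f.1 x))
    rw [map_mul]
    rfl

theorem actR_apply (σ : GQ) (f : LinearMap.range (Phi actM V)) (x : V × M) :
    (actR actM V σ f).1 x = actM σ (f.1 x) := rfl

variable {actM actV}

/-- If every element of the group ring killing `M` kills `V` then `V` is a subquotient of a power
of `M`. -/
theorem HasHopf.of_ann [Finite M] [Finite V] (h : HasHopf ℓ actM)
    (hann : ∀ c : GQ →₀ ℤ, (∀ m : M, gr actM m c = 0) → ∀ v : V, gr actV v c = 0) :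
    HasHopf ℓ actV := by
  classical
  have := Fintype.ofFinite V
  have h1 : HasHopf ℓ (actR actM V) := by
    refine HasHopf.of_family (ι := V × M) (N := fun _ => M) (fun _ => h)
      (fun x => ((Pi.evalAddMonoidHom (fun _ : V × M => M) x).comp
        (LinearMap.range (Phi actM V)).subtype.toAddMonoidHom)) ?_ ?_
    · intro x σ f
      rfl
    · intro f hf
      apply Subtype.ext
      funext x
      exact hf x
  have hker : LinearMap.ker (Phi actM V) ≤ LinearMap.ker (Psi actV) := by
    intro c hc
    rw [LinearMap.mem_ker] at hc ⊢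
    rw [Psi_apply]
    apply Finset.sum_eq_zero
    intro v _
    apply hann
    intro m
    have := congrFun hc (v, m)
    rwa [Phi_apply] at this
  let π : LinearMap.range (Phi actM V) →ₗ[ℤ] V :=
    ((LinearMap.ker (Phi actM V)).liftQ (Psi actV) hker).comp
      (LinearMap.quotKerEquivRange (Phi actM V)).symm.toLinearMap
  have hπ : ∀ c : V → (GQ →₀ ℤ), ∀ hc : Phi actM V c ∈ LinearMap.range (Phi actM V),
      π ⟨Phi actM V c, hc⟩ = Psi actV c := by
    intro c hc
    have e1 : (LinearMap.quotKerEquivRange (Phi actM V)).symm ⟨Phi actM V c, hc⟩ =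
        Submodule.Quotient.mk c := by
      rw [LinearEquiv.symm_apply_eq]
      apply Subtype.ext
      rfl
    change (LinearMap.ker (Phi actM V)).liftQ (Psi actV) hker
      ((LinearMap.quotKerEquivRange (Phi actM V)).symm ⟨Phi actM V c, hc⟩) = _
    rw [e1]
    rfl
  have hfin : Finite (LinearMap.range (Phi actM V)) := Subtype.finite
  refine h1.of_surjective π.toAddMonoidHom ?_ ?_
  · intro σ f
    obtain ⟨c, hc⟩ := LinearMap.mem_range.mp f.2
    have hf : f = ⟨Phi actM V c, LinearMap.mem_range_self _ c⟩ := Subtype.ext hc.symm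
    have e1 : actR actM V σ f =
        ⟨Phi actM V (fun v => lm σ (c v)), LinearMap.mem_range_self _ _⟩ := by
      apply Subtype.ext
      funext x
      change actM σ (f.1 x) = Phi actM V (fun v => lm σ (c v)) x
      rw [Phi_apply, gr_lm, ← hc]
      rfl
    change π (actR actM V σ f) = actV σ (π f)
    rw [e1, hπ, hf, hπ, Psi_apply, Psi_apply, map_sum]
    exact Finset.sum_congr rfl fun v _ => gr_lm actV v σ (c v)
  · intro v
    refine ⟨⟨Phi actM V (Pi.single v (Finsupp.single 1 1)), LinearMap.mem_range_self _ _⟩, ?_⟩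
    change π _ = v
    rw [hπ, Psi_apply, Finset.sum_eq_single v]
    · rw [Pi.single_eq_same, gr_single, one_smul, map_one]
      rfl
    · intro w _ hw
      rw [Pi.single_eq_of_ne hw, map_zero]
    · intro h; exact absurd (Finset.mem_univ v) h

end

end Fermat.Agent.H19
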