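import Fermat.Agent.H19.SSAbs
import Fermat.Agent.TW.LH5

/-!
# Supersingular case: flat deformations
-/

set_option autoImplicit false
set_option linter.unusedSectionVars false

namespace Fermat.Agent.TW

open Matrix Fermat.Agent.CC NVal IsLocalRing
open Fermat.Agent.H04 (DN M2 ofMat IsCont)

/-- the action on a quotient -/
noncomputable def quotAct {G V : Type*} [Monoid G] [AddCommGroup V] (act : G →* AddMonoid.End V)
    (W : AddSubgroup V) (hW : ∀ g, ∀ v ∈ W, act g v ∈ W) : G →* AddMonoid.End (V ⧸ W) where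
  toFun g := QuotientAddGroup.map W W (act g) (fun v hv => hW g v hv)
  map_one' := by
    refine AddMonoidHom.ext fun v => ?_
    obtain ⟨v, rfl⟩ := QuotientAddGroup.mk'_surjective W v
    change QuotientAddGroup.mk' W (act 1 v) = QuotientAddGroup.mk' W v
    rw [map_one]
    rfl
  map_mul' g h := by
    refine AddMonoidHom.ext fun v => ?_
    obtain ⟨v, rfl⟩ := QuotientAddGroup.mk'_surjective W v
    change QuotientAddGroup.mk' W (act (g * h) v) = QuotientAddGroup.mk' W (act g (act h v))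
    rw [map_mul]
    rfl

theorem quotAct_mk {G V : Type*} [Monoid G] [AddCommGroup V] (act : G →* AddMonoid.End V)
    (W : AddSubgroup V) (hW : ∀ g, ∀ v ∈ W, act g v ∈ W) (g : G) (v : V) :
    quotAct act W hW g (QuotientAddGroup.mk' W v) = QuotientAddGroup.mk' W (act g v) := rfl

variable {𝒪 : Type} [CommRing 𝒪] [IsLocalRing 𝒪] {A : ValuationSubring Qb} {p : ℕ} {w : Qb → ℝ}
  {rb : GQ →* Mt (ResidueField 𝒪)} {s : GQ →* M2 (DN 𝒪)} {Q Q' : Mt (ResidueField 𝒪)}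

/-- the `ε`-part of a vector -/
noncomputable def snv : (Fin 2 → DN 𝒪) →+ (Fin 2 → ResidueField 𝒪) where
  toFun v j := sn (v j)
  map_zero' := rfl
  map_add' _ _ := rfl

theorem snv_epsv (y : Fin 2 → ResidueField 𝒪) : snv (epsv y) = y := rfl

theorem redv_epsv (y : Fin 2 → ResidueField 𝒪) : redv (epsv y) = 0 := rfl

theorem epsv_snv {v : Fin 2 → DN 𝒪} (h : redv v = 0) : epsv (snv v) = v := by
  funext j
  apply dn_ext
  · rw [fs_epsv]
    exact (congrFun h j).symm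
  · rfl

section

variable [Algebra (ZMod p) (ResidueField 𝒪)]

/-- the kernel -/
noncomputable def WK (Q' : Mt (ResidueField 𝒪)) (K : Subfield (ResidueField 𝒪))
    (l : ResidueField 𝒪 →ₗ[ZMod p] ZMod p) (z : ResidueField 𝒪) :
    AddSubgroup (Fin 2 → DN 𝒪) where
  carrier := {v | redv v = 0 ∧ ∀ a ∈ K, l (z * (a * (Q'.mulVec (snv v)) 0)) = 0}
  zero_mem' := ⟨map_zero _, fun a _ => by
    rw [map_zero, Matrix.mulVec_zero, Pi.zero_apply, mul_zero, mul_zero, map_zero]⟩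
  add_mem' := by
    rintro v v' ⟨h1, h2⟩ ⟨h1', h2'⟩
    refine ⟨by rw [map_add, h1, h1', add_zero], fun a ha => ?_⟩
    rw [map_add, Matrix.mulVec_add, Pi.add_apply, mul_add, mul_add, map_add, h2 a ha, h2' a ha,
      add_zero]
  neg_mem' := by
    rintro v ⟨h1, h2⟩
    refine ⟨by rw [map_neg, h1, neg_zero], fun a ha => ?_⟩
    rw [map_neg, Matrix.mulVec_neg, Pi.neg_apply, mul_neg, mul_neg, map_neg, h2 a ha, neg_zero]

theorem mem_WK {K : Subfield (ResidueField 𝒪)} {l : ResidueField 𝒪 →ₗ[ZMod p] ZMod p}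
    {z : ResidueField 𝒪} {v : Fin 2 → DN 𝒪} : v ∈ WK Q' K l z ↔
      redv v = 0 ∧ ∀ a ∈ K, l (z * (a * (Q'.mulVec (snv v)) 0)) = 0 := Iff.rfl

variable [Finite (ResidueField 𝒪)] [hf : Fact p.Prime] {π : Qb} {α : GQ → ResidueField 𝒪}
  {K : Subfield (ResidueField 𝒪)} {τ : K →+* ResidueField A}

/-- **flat deformations: levels of the Kummer classes** -/
theorem ss_flat (P : PL p A w) (hp2 : p ≠ 2) {ζ : Qb} {x : GQ → ZMod p} (C : CY p ζ x)
    (S : SR p A π α K τ) (hQ : Q * Q' = 1)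
    (hdiag : ∀ σ ∈ A.inertiaSubgroupIn ℚ,
      Q' * rb σ * Q = Matrix.diagonal ![α σ, (α σ) ^ p])
    (hs : ∀ σ, FM (s σ) = rb σ) (hLH : HasLH A (actV A s)) (i : Fin 2)
    (l : ResidueField 𝒪 →ₗ[ZMod p] ZMod p) (z : ResidueField 𝒪) {j : ℕ} (hj0 : 0 < j)
    (hpj : ¬ p ∣ j) (hj : j < p * (p + 1)) {r : Qb} (hr : Te p r) (hr0 : r ≠ 0)
    (hKR : KR w (Jt A π) ζ π (p ^ 2 - 1) j (fun σ => l (z * (Q' * SM (s σ) * Q) 0 i)) r) :
    p + 1 ≤ j ∧ (Nat.card {y : ResidueField 𝒪 | ∃ σ ∈ Jt A π,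
      (Q' * SM (s σ) * Q) 0 i = y} ≤ p → p ^ 2 + 1 ≤ j) := by
  classical
  have hQ' : Q' * Q = 1 := mul_eq_one_comm.1 hQ
  have h0 := P.tame_ne (S.ndvd P) S.pi
  -- the residual action
  have hrbQ : ∀ σ ∈ A.inertiaSubgroupIn ℚ, rb σ * Q = Q * Matrix.diagonal ![α σ, (α σ) ^ p] := by
    intro σ hσ
    rw [← hdiag σ hσ, ← mul_assoc, ← mul_assoc, hQ, one_mul]
  have hQrb : ∀ σ ∈ A.inertiaSubgroupIn ℚ,
      Q' * rb σ = Matrix.diagonal ![α σ, (α σ) ^ p] * Q' := by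
    intro σ hσ
    rw [← hdiag σ hσ, mul_assoc, mul_assoc, hQ, mul_one]
  have hα1 : ∀ σ ∈ Jt A π, α σ = 1 := by
    intro σ hσ
    have h1 : (⟨α σ, S.mem σ hσ.1⟩ : K) = 1 := by
      apply τ.injective
      rw [S.tau σ hσ.1, hσ.2, div_self h0, P.rsd_one, map_one]
    exact congrArg Subtype.val h1
  have hrb1 : ∀ σ ∈ Jt A π, rb σ = 1 := by
    intro σ hσ
    have h1 := hrbQ σ hσ.1
    have h2 : Matrix.diagonal ![α σ, (α σ) ^ p] = (1 : Mt (ResidueField 𝒪)) := by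
      rw [hα1 σ hσ, one_pow]
      ext a b
      fin_cases a <;> fin_cases b <;> simp
    rw [h2, mul_one] at h1
    calc rb σ = rb σ * Q * Q' := by rw [mul_assoc, hQ, mul_one]
      _ = 1 := by rw [h1, hQ]
  -- the quotient
  obtain ⟨H, hH⟩ := hLH
  have hW : ∀ (σ : A.inertiaSubgroupIn ℚ), ∀ v ∈ WK Q' K l z, actV A s σ v ∈ WK Q' K l z := by
    rintro σ v ⟨h1, h2⟩
    rw [← epsv_snv h1, actV_apply, mulVec_epsv, hs]
    refine ⟨redv_epsv _, fun a ha => ?_⟩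
    rw [snv_epsv, Matrix.mulVec_mulVec, hQrb σ σ.2, ← Matrix.mulVec_mulVec,
      Matrix.mulVec_diagonal]
    have h3 := h2 (a * α σ) (K.mul_mem ha (S.mem σ σ.2))
    rw [mul_assoc] at h3
    exact h3
  obtain ⟨H₂, hH₂, -⟩ := H09.LHopf.exists_lh_surjective P.prime P.lies hH
    (act₂ := quotAct (actV A s) (WK Q' K l z) hW) (QuotientAddGroup.mk' (WK Q' K l z))
    (fun σ v => rfl) (QuotientAddGroup.mk'_surjective _)
  let γ : ResidueField 𝒪 →+ (Fin 2 → DN 𝒪) ⧸ WK Q' K l z :=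
    (QuotientAddGroup.mk' (WK Q' K l z)).comp ((epsv (𝒪 := 𝒪)).comp
      { toFun := fun y => Q.mulVec (Pi.single 0 y)
        map_zero' := by rw [Pi.single_zero, Matrix.mulVec_zero]
        map_add' := fun y y' => by rw [Pi.single_add, Matrix.mulVec_add] })
  have hγ : ∀ y, γ y = QuotientAddGroup.mk' (WK Q' K l z) (epsv (Q.mulVec (Pi.single 0 y))) :=
    fun y => rfl
  have hmk : ∀ y : Fin 2 → ResidueField 𝒪,
      QuotientAddGroup.mk' (WK Q' K l z) (epsv y) = γ ((Q'.mulVec y) 0) := by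
    intro y
    rw [hγ, ← sub_eq_zero, ← map_sub, ← map_sub]
    refine (QuotientAddGroup.eq_zero_iff _).2 ⟨redv_epsv _, fun a ha => ?_⟩
    rw [snv_epsv, Matrix.mulVec_sub, Matrix.mulVec_mulVec, hQ', Matrix.one_mulVec,
      Pi.sub_apply, Pi.single_eq_same, sub_self, mul_zero, mul_zero, map_zero]
  have hker : ∀ y, γ y = 0 ↔ ∀ a ∈ K, l (z * (a * y)) = 0 := by
    intro y
    rw [hγ]
    refine (QuotientAddGroup.eq_zero_iff _).trans ?_
    rw [mem_WK, snv_epsv, Matrix.mulVec_mulVec, hQ', Matrix.one_mulVec, Pi.single_eq_same]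
    exact and_iff_right (redv_epsv _)
  have hact : ∀ (σ : A.inertiaSubgroupIn ℚ) y,
      quotAct (actV A s) (WK Q' K l z) hW σ (γ y) = γ (α σ * y) := by
    intro σ y
    rw [hγ, quotAct_mk, actV_apply, mulVec_epsv, hs, hmk, Matrix.mulVec_mulVec,
      Matrix.mulVec_mulVec, hdiag σ σ.2, Matrix.mulVec_diagonal, Pi.single_eq_same]
    rfl
  obtain ⟨v, hv⟩ : ∃ v : Fin 2 → DN 𝒪, v = fun m => DN.mk 𝒪 (Q m i) 0 := ⟨_, rfl⟩
  have hz0 : ∀ (σ : GQ) (hσ : σ ∈ Jt A π),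
      quotAct (actV A s) (WK Q' K l z) hW ⟨σ, hσ.1⟩ (QuotientAddGroup.mk' (WK Q' K l z) v) -
        QuotientAddGroup.mk' (WK Q' K l z) v = γ ((Q' * SM (s σ) * Q) 0 i) := by
    intro σ hσ
    have h1 : actV A s ⟨σ, hσ.1⟩ v - v = epsv (fun m => (SM (s σ) * Q) m i) := by
      funext m
      apply dn_ext
      · rw [fs_epsv, Pi.sub_apply, map_sub, actV_apply, Matrix.mulVec, dotProduct, map_sum,
          sub_eq_zero]
        have h2 : ∀ n ∈ (Finset.univ : Finset (Fin 2)), fs ((s σ) m n * v n) =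
            (rb σ) m n * Q n i := by
          intro n _
          rw [map_mul, hv, fs_mk, ← hs]
          rfl
        change ∑ n, fs ((s σ) m n * v n) = fs (v m)
        rw [Finset.sum_congr rfl h2, hrb1 σ hσ, ← Matrix.mul_apply, one_mul, hv, fs_mk]
      · rw [sn_epsv, Pi.sub_apply, sn_sub, actV_apply, Matrix.mulVec, dotProduct,
          Fin.sum_univ_two, Matrix.mul_apply, Fin.sum_univ_two]
        change sn ((s σ) m 0 * v 0 + (s σ) m 1 * v 1) - sn (v m) = _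
        rw [sn_add, sn_mul, sn_mul, hv]
        simp only [fs_mk, sn_mk, mul_zero, zero_add, sub_zero]
        rfl
    rw [quotAct_mk, ← map_sub, h1, hmk]
    congr 1
    rw [mul_assoc, Matrix.mul_apply]
    rfl
  have hβ : ∀ σ ∈ Jt A π, ∀ τ' ∈ Jt A π, (Q' * SM (s (σ * τ')) * Q) 0 i =
      (Q' * SM (s σ) * Q) 0 i + (Q' * SM (s τ') * Q) 0 i := by
    intro σ hσ τ' hτ'
    rw [map_mul, SM_mul, hs, hs, hrb1 σ hσ, hrb1 τ' hτ', one_mul, mul_one, mul_add, add_mul,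
      Matrix.add_apply, add_comm]
  exact ss_abs S P hp2 C l z hH₂ γ hker hact _ hz0 hβ hj0 hpj hj hr hr0 hKR

end

end Fermat.Agent.TW
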