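import Fermat.Agent.H19.HopfH
import Fermat.Prelude.Def_GaloisRep_Flat

set_option autoImplicit false
set_option linter.unusedSectionVars false

/-!
# Flat models give Hopf orders
-/

noncomputable section

namespace Fermat.Agent.H19

open Fermat.Agent.H02F TensorProduct

/-- From a finite flat Hopf algebra to a Hopf order. -/
theorem hasHopf_of_hopfAlgebra {ℓ : ℕ} {M : Type*} [AddCommGroup M]
    {act : GQ →* AddMonoid.End M} {H : Type*} [CommRing H]
    [HopfAlgebra (GaloisRep.ratLocalizedAt ℓ) H] [Module.Finite (GaloisRep.ratLocalizedAt ℓ) H]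
    (e : WithConv (H →ₐ[GaloisRep.ratLocalizedAt ℓ] AlgebraicClosure ℚ) ≃ M)
    (he : ∀ f g, e (f * g) = e f + e g)
    (hσ : ∀ (σ : AlgebraicClosure ℚ ≃ₐ[ℚ] AlgebraicClosure ℚ)
      (f g : WithConv (H →ₐ[GaloisRep.ratLocalizedAt ℓ] AlgebraicClosure ℚ)),
      (∀ h : H, g h = σ (f h)) → e g = act σ (e f)) : HasHopf ℓ act := by
  classical
  let Θ : H →ₐ[GaloisRep.ratLocalizedAt ℓ] (M → Qb) := AlgHom.pi (fun x => (e.symm x).ofConv)
  have hΘ : ∀ h x, Θ h x = (e.symm x) h := fun _ _ => rfl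
  refine ⟨Θ.range, ?_, ?_, ?_, ?_⟩
  · rw [← Algebra.map_top, Subalgebra.map_toSubmodule]
    exact (Module.Finite.fg_top).map _
  · rintro _ ⟨h, rfl⟩ σ m
    change Θ h (act σ m) = σ (Θ h m)
    rw [hΘ, hΘ]
    let g : WithConv (H →ₐ[GaloisRep.ratLocalizedAt ℓ] AlgebraicClosure ℚ) :=
      WithConv.toConv (((σ : AlgebraicClosure ℚ →ₐ[ℚ] AlgebraicClosure ℚ).restrictScalars
        (GaloisRep.ratLocalizedAt ℓ)).comp (e.symm m).ofConv)
    have h1 : e g = act σ (e (e.symm m)) := hσ σ (e.symm m) g (fun _ => rfl)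
    rw [e.apply_symm_apply] at h1
    rw [← h1, e.symm_apply_apply]
    rfl
  · intro x y hxy
    have h1 : e.symm x ≠ e.symm y := fun h => hxy (e.symm.injective h)
    have h2 : ∃ h : H, (e.symm x) h ≠ (e.symm y) h := by
      by_contra hcon
      push Not at hcon
      exact h1 (WithConv.ofConv_injective (AlgHom.ext hcon))
    obtain ⟨h, hh⟩ := h2
    exact ⟨Θ h, ⟨h, rfl⟩, hh⟩
  · rintro _ ⟨h, rfl⟩
    obtain ⟨S, hS⟩ := TensorProduct.exists_finset
      (Coalgebra.comul (R := GaloisRep.ratLocalizedAt ℓ) h)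
    obtain ⟨n, ⟨ε⟩⟩ := Finite.exists_equiv_fin S
    refine ⟨n, fun i => Θ (ε.symm i).1.1, fun i => Θ (ε.symm i).1.2, fun i => ⟨_, rfl⟩,
      fun i => ⟨_, rfl⟩, fun x y => ?_⟩
    change Θ h (x + y) = _
    have h1 : e.symm (x + y) = e.symm x * e.symm y := by
      rw [e.symm_apply_eq, he, e.apply_symm_apply, e.apply_symm_apply]
    rw [hΘ, h1, AlgHom.convMul_apply, hS, map_sum, ← Finset.sum_coe_sort S,
      ← Equiv.sum_comp ε.symm]
    refine Finset.sum_congr rfl fun i _ => ?_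
    exact Algebra.TensorProduct.lift_tmul _ _ _ _ _

/-- `hasHopf_of_hopfAlgebra` for `M : Type`: having a Hopf order is the same as having a finite
flat cocommutative Hopf algebra whose geometric points are `M`. -/
theorem hasHopf_iff_exists_hopfAlgebra {ℓ : ℕ} {M : Type} [AddCommGroup M]
    [Finite M] {act : GQ →* AddMonoid.End M} : HasHopf ℓ act ↔
      ∃ (H : Type) (_ : CommRing H) (_ : HopfAlgebra (GaloisRep.ratLocalizedAt ℓ) H),
      Module.Finite (GaloisRep.ratLocalizedAt ℓ) H ∧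
      Module.Flat (GaloisRep.ratLocalizedAt ℓ) H ∧
      Coalgebra.IsCocomm (GaloisRep.ratLocalizedAt ℓ) H ∧
      ∃ e : WithConv (H →ₐ[GaloisRep.ratLocalizedAt ℓ] AlgebraicClosure ℚ) ≃ M,
        (∀ f g, e (f * g) = e f + e g) ∧
        ∀ (σ : AlgebraicClosure ℚ ≃ₐ[ℚ] AlgebraicClosure ℚ)
          (f g : WithConv (H →ₐ[GaloisRep.ratLocalizedAt ℓ] AlgebraicClosure ℚ)),
          (∀ h : H, g h = σ (f h)) → e g = act σ (e f) := by
  constructor
  · rintro ⟨Ho, hHo⟩
    exact exists_hopfAlgebra hHo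
  · rintro ⟨H, i1, i2, h1, -, -, e, h4, h5⟩
    exact hasHopf_of_hopfAlgebra e h4 h5

section Level

variable {T : Type} [CommRing T] [IsLocalRing T]

/-- the action on `V / I V` as a monoid hom -/
def levAct (ρ : GaloisRepAdic T) (I : Ideal T) :
    GQ →* AddMonoid.End (ρ.V ⧸ (I • (⊤ : Submodule T ρ.V))) where
  toFun σ := (ρ.levelAction I σ).toAddMonoidHom
  map_one' := by
    apply AddMonoidHom.ext
    intro x
    obtain ⟨v, rfl⟩ := Submodule.Quotient.mk_surjective _ x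
    change Submodule.Quotient.mk (ρ.ρ 1 v) = _
    rw [map_one]
    rfl
  map_mul' σ τ := by
    apply AddMonoidHom.ext
    intro x
    obtain ⟨v, rfl⟩ := Submodule.Quotient.mk_surjective _ x
    change Submodule.Quotient.mk (ρ.ρ (σ * τ) v) = Submodule.Quotient.mk (ρ.ρ σ (ρ.ρ τ v))
    rw [map_mul]
    rfl

theorem levAct_mk (ρ : GaloisRepAdic T) (I : Ideal T) (σ : GQ) (v : ρ.V) :
    levAct ρ I σ (Submodule.Quotient.mk v) = Submodule.Quotient.mk (ρ.ρ σ v) := rfl

theorem levAct_apply (ρ : GaloisRepAdic T) (I : Ideal T) (σ : GQ)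
    (v : ρ.V ⧸ (I • (⊤ : Submodule T ρ.V))) : levAct ρ I σ v = ρ.levelAction I σ v := rfl

instance finite_level (ρ : GaloisRepAdic T) (I : Ideal T) [Finite (T ⧸ I)] :
    Finite (ρ.V ⧸ (I • (⊤ : Submodule T ρ.V))) := by
  have h1 : Module.Finite (T ⧸ I) (ρ.V ⧸ (I • (⊤ : Submodule T ρ.V))) :=
    Module.Finite.of_restrictScalars_finite T _ _
  exact Module.finite_of_finite (T ⧸ I)

/-- **Flatness in terms of Hopf orders.** -/
theorem isFlatAt_iff {p : ℕ} (ρ : GaloisRepAdic T) : ρ.IsFlatAt p ↔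
    Finite (IsLocalRing.ResidueField T) ∧
      ∀ I : Ideal T, Finite (T ⧸ I) → HasHopf p (levAct ρ I) := by
  refine and_congr Iff.rfl (forall_congr' fun I => ⟨fun h hI => ?_, fun h hI => ?_⟩)
  · exact hasHopf_iff_exists_hopfAlgebra.mpr (h hI)
  · exact hasHopf_iff_exists_hopfAlgebra.mp (h hI)

theorem hasHopf_of_isFlatAt {p : ℕ} {ρ : GaloisRepAdic T} (h : ρ.IsFlatAt p) (I : Ideal T)
    [hI : Finite (T ⧸ I)] : HasHopf p (levAct ρ I) := by
  obtain ⟨H, i1, i2, h1, -, -, e, h4, h5⟩ := h.2 I hI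
  exact hasHopf_of_hopfAlgebra e h4 h5

end Level

end Fermat.Agent.H19
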