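import Fermat.Agent.H19.HeckeBound
import Fermat.Agent.AL.Newform

set_option autoImplicit false

/-!
# The strict Hecke bound for eigenforms, and its transport
-/

noncomputable section

namespace Fermat.Agent.H19

open CongruenceSubgroup Fermat.Agent.AL
open ModularFormClass (qCoeff)

variable {N : ℕ} [NeZero N]

theorem norm_qCoeff_lt {f : CuspForm (Gamma0 N) 2} (hf : f.IsNormalizedEigenform) {q : ℕ}
    (hq : q.Prime) (hqN : ¬ q ∣ N) : ‖qCoeff f q‖ < q + 1 := by
  refine norm_lt_of_heckeT hf.ne_zero hq.one_lt (fun τ => ?_)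
  have h1 := eigenform_T hf hq hqN
  have h2 := DFunLike.congr_fun h1 τ
  exact h2

theorem qCoeff_sq_ne {f : CuspForm (Gamma0 N) 2} (hf : f.IsNormalizedEigenform) {q : ℕ}
    (hq : q.Prime) (hqN : ¬ q ∣ N) : qCoeff f q ^ 2 ≠ ((q : ℂ) + 1) ^ 2 := by
  intro h
  have h1 := norm_qCoeff_lt hf hq hqN
  have h2 := congrArg norm h
  rw [norm_pow, norm_pow] at h2
  have h3 : ‖(q : ℂ) + 1‖ = q + 1 := by
    have : (q : ℂ) + 1 = ((q + 1 : ℕ) : ℂ) := by push_cast; ring
    rw [this, Complex.norm_natCast]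
    push_cast; ring
  rw [h3] at h2
  have h4 : ‖qCoeff f q‖ = q + 1 :=
    (sq_eq_sq₀ (norm_nonneg _) (by positivity)).mp h2
  exact h1.ne h4

theorem map_injective_of_charZero {K : Type*} [Field K] [CharZero K]
    (τ : integralClosure ℤ ℂ →+* K) : Function.Injective τ := by
  rw [RingHom.injective_iff_ker_eq_bot]
  refine Ideal.eq_bot_of_comap_eq_bot (R := ℤ) ?_
  rw [eq_bot_iff]
  intro n hn
  have h1 : τ (algebraMap ℤ (integralClosure ℤ ℂ) n) = 0 := hn
  rw [eq_intCast, map_intCast] at h1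
  rw [Ideal.mem_bot]
  exact_mod_cast h1

/-- the bound transported along a ring homomorphism to a field of characteristic zero -/
theorem map_sq_ne {f : CuspForm (Gamma0 N) 2} (hf : f.IsNormalizedEigenform) {q : ℕ}
    (hq : q.Prime) (hqN : ¬ q ∣ N) {K : Type*} [Field K] [CharZero K]
    (τ : integralClosure ℤ ℂ →+* K) {x : integralClosure ℤ ℂ} (hx : (x : ℂ) = qCoeff f q) :
    τ x ^ 2 ≠ ((q : K) + 1) ^ 2 := by
  intro h
  have h1 : τ (x ^ 2) = τ (((q : integralClosure ℤ ℂ) + 1) ^ 2) := by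
    rw [map_pow, h, map_pow, map_add, map_natCast, map_one]
  have h2 := congrArg Subtype.val (map_injective_of_charZero τ h1)
  refine qCoeff_sq_ne hf hq hqN ?_
  rw [← hx]
  simpa using h2

end Fermat.Agent.H19
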