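import Mathlib
import Fermat.Agent.H27.NFRing

/-!
# Coefficient rings attached to maximal ideals of the ring of algebraic integers
-/

set_option autoImplicit false
set_option linter.unusedSectionVars false
set_option linter.style.haveILetI false

namespace Fermat.Agent.H19

open IsLocalRing Module

open NumberField in
/-- **Coefficient rings.** A finite set `s` of algebraic integers and a prime ideal `𝔪` of the ring
of algebraic integers of residue characteristic `p`. -/
theorem exists_coeff_ring_ideal {𝔪 : Ideal (integralClosure ℤ ℂ)} [h𝔪 : 𝔪.IsPrime] {p : ℕ}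
    (hp : p.Prime) (hp𝔪 : (p : integralClosure ℤ ℂ) ∈ 𝔪) (s : Set (integralClosure ℤ ℂ))
    (hs : s.Finite) :
    ∃ (O : Type) (_ : CommRing O) (_ : IsDomain O) (_ : IsDiscreteValuationRing O)
      (_ : IsAdicComplete (maximalIdeal O) O) (_ : Finite (ResidueField O)) (_ : CharZero O)
      (R : Subring (integralClosure ℤ ℂ)) (f : R →+* O), s ⊆ R ∧ Function.Injective f ∧
        ∀ x : R, (x : integralClosure ℤ ℂ) ∈ 𝔪 → f x ∈ maximalIdeal O := by
  classical
  let s' : Set ℂ := (fun x : integralClosure ℤ ℂ => (x : ℂ)) '' s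
  let K : IntermediateField ℚ ℂ := IntermediateField.adjoin ℚ s'
  have hint : ∀ x ∈ s', IsIntegral ℤ x := by
    rintro _ ⟨x, -, rfl⟩
    exact x.2
  haveI : FiniteDimensional ℚ K := by
    haveI := (hs.image (fun x : integralClosure ℤ ℂ => (x : ℂ))).to_subtype
    exact IntermediateField.finiteDimensional_adjoin (fun x hx => (hint x hx).tower_top)
  haveI : NumberField K := ⟨⟩
  let emb0 : 𝓞 K →+* ℂ := (algebraMap K ℂ).comp (algebraMap (𝓞 K) K)
  have hemb0 : Function.Injective emb0 :=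
    (algebraMap K ℂ).injective.comp (FaithfulSMul.algebraMap_injective (𝓞 K) K)
  have hAint : ∀ x : 𝓞 K, emb0 x ∈ integralClosure ℤ ℂ := fun x =>
    (x.isIntegral_coe.map (IsScalarTower.toAlgHom ℤ K ℂ))
  let emb : 𝓞 K →+* integralClosure ℤ ℂ := emb0.codRestrict (integralClosure ℤ ℂ) hAint
  have hemb : Function.Injective emb := fun x y h =>
    hemb0 (congrArg (fun z : integralClosure ℤ ℂ => (z : ℂ)) h)
  let 𝔭 : Ideal (𝓞 K) := 𝔪.comap emb
  haveI h𝔭 : 𝔭.IsPrime := Ideal.IsPrime.comap emb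
  have hmem : ∀ x : 𝓞 K, x ∈ 𝔭 ↔ emb x ∈ 𝔪 := fun x => Iff.rfl
  have hp0 : 𝔭 ≠ ⊥ := by
    intro h
    have h1 : ((p : ℕ) : 𝓞 K) ∈ 𝔭 := by rw [hmem, map_natCast]; exact hp𝔪
    rw [h, Ideal.mem_bot] at h1
    exact hp.ne_zero (by exact_mod_cast h1)
  haveI : IsDiscreteValuationRing (Localization.AtPrime 𝔭) :=
    IsLocalization.AtPrime.isDiscreteValuationRing_of_dedekind_domain (𝓞 K) hp0 _
  haveI hmax : 𝔭.IsMaximal := h𝔭.isMaximal hp0
  haveI : Finite (𝓞 K ⧸ 𝔭) := Ideal.finiteQuotientOfFreeOfNeBot 𝔭 hp0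
  haveI : Finite (ResidueField (Localization.AtPrime 𝔭)) :=
    Finite.of_equiv _ (IsLocalization.AtPrime.equivQuotMaximalIdeal 𝔭
      (Localization.AtPrime 𝔭)).toEquiv
  have hinj1 : Function.Injective (algebraMap (𝓞 K) (Localization.AtPrime 𝔭)) :=
    IsLocalization.injective _ 𝔭.primeCompl_le_nonZeroDivisors
  haveI : CharZero (Localization.AtPrime 𝔭) := charZero_of_injective_algebraMap hinj1
  obtain ⟨O, i1, i2, i3, i4, i5, i6, f, hf, hfm⟩ :=
    Z34.exists_completion_dvr (Localization.AtPrime 𝔭)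
  let e : 𝓞 K ≃+* emb.range := RingEquiv.ofBijective emb.rangeRestrict
    ⟨fun x y h => hemb (congrArg (Subtype.val (p := (· ∈ emb.range))) h),
      emb.rangeRestrict_surjective⟩
  refine ⟨O, i1, i2, i3, i4, i5, i6, emb.range,
    (f.comp (algebraMap (𝓞 K) (Localization.AtPrime 𝔭))).comp e.symm.toRingHom, ?_, ?_, ?_⟩
  · intro x hx
    have hxK : (x : ℂ) ∈ K := IntermediateField.subset_adjoin ℚ s' ⟨x, hx, rfl⟩
    have hxi : IsIntegral ℤ (⟨(x : ℂ), hxK⟩ : K) := by
      have : IsIntegral ℤ (x : ℂ) := x.2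
      rwa [← isIntegral_algebraMap_iff (A := K) (B := ℂ) (algebraMap K ℂ).injective]
    exact ⟨⟨⟨(x : ℂ), hxK⟩, hxi⟩, Subtype.ext rfl⟩
  · exact (hf.comp hinj1).comp e.symm.injective
  · intro x hx
    obtain ⟨y, rfl⟩ := e.surjective x
    have h1 : e.symm.toRingHom (e y) = y := e.symm_apply_apply y
    rw [RingHom.comp_apply, h1]
    apply hfm
    have h2 : y ∈ 𝔭 := (hmem y).mpr hx
    rw [← Localization.AtPrime.map_eq_maximalIdeal]
    exact Ideal.mem_map_of_mem _ h2

/-- extension of `f` to all algebraic integers -/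
theorem exists_extend {S : Type} [CommRing S] [IsDomain S] [Algebra.IsIntegral ℤ S]
    {O : Type} [CommRing O] [IsDomain O] {R : Subring S}
    {f : R →+* O} (hf : Function.Injective f) {K : Type} [Field K] [IsAlgClosed K] [Algebra O K]
    [FaithfulSMul O K] : ∃ τ : S →+* K, ∀ x : R, τ x = algebraMap O K (f x) := by
  letI : Algebra R K := ((algebraMap O K).comp f).toAlgebra
  haveI : FaithfulSMul R K := (faithfulSMul_iff_algebraMap_injective _ _).mpr
    ((FaithfulSMul.algebraMap_injective O K).comp hf)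
  haveI : Algebra.IsIntegral R S :=
    ⟨fun x => (Algebra.IsIntegral.isIntegral (R := ℤ) x).tower_top⟩
  haveI : Algebra.IsAlgebraic R S := inferInstance
  let τ : S →ₐ[R] K := IsAlgClosed.lift
  exact ⟨τ, fun x => τ.commutes x⟩

end Fermat.Agent.H19
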