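import Mathlib
import Fermat.Agent.H19.CoeffIdeal
import Fermat.Agent.H25.PtC
import Fermat.Agent.Ell.Cond

/-!
# Newforms congruent to an elliptic curve: the trace of Frobenius at the Steinberg primes
-/

set_option autoImplicit false
set_option linter.unusedSectionVars false
set_option linter.style.haveILetI false

namespace Fermat.Agent.H19

open IsLocalRing CongruenceSubgroup Polynomial
open Fermat.Agent.H25 Fermat.Agent.H25.PT Fermat.Agent.Ell Fermat.Agent.H08 Fermat.Agent.H09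
open WeierstrassCurve WeierstrassCurve.Affine WeierstrassCurve.Affine.Point
open Fermat.Agent.CC Fermat.Agent.TW
open Fermat.Agent.H05 Fermat.Agent.H25.TR Fermat.Agent.H25.TWM
open ModularFormClass (qCoeff)

/-- A newform congruent to an elliptic curve modulo `𝔪`: the attached representation is
residually the representation of the curve. -/
theorem exists_NRep_match {W : WeierstrassCurve ℤ} (hΔ : W.Δ ≠ 0) {p : ℕ} [hp : Fact p.Prime]
    (G : Geo p) (hirr : W.ModRepIsIrreducible p) {L : ℕ} [NeZero L] {g : CuspForm (Gamma0 L) 2}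
    (hg : g.IsNewform) {𝔪 : Ideal (integralClosure ℤ ℂ)} (h𝔪 : 𝔪.IsMaximal)
    (hp𝔪 : (p : integralClosure ℤ ℂ) ∈ 𝔪) (bad : Finset ℕ)
    (hcong : ∀ ℓ, ℓ.Prime → ℓ ∉ bad → ∃ a : integralClosure ℤ ℂ, (a : ℂ) = qCoeff g ℓ ∧
      a - ((W.apOfModel ℓ : ℤ) : integralClosure ℤ ℂ) ∈ 𝔪) :
    ∃ (O : Type) (_ : CommRing O) (_ : IsDomain O) (_ : IsDiscreteValuationRing O)
      (_ : IsAdicComplete (maximalIdeal O) O) (_ : Finite (ResidueField O)) (_ : CharZero O)
      (_ : (p : O) ∈ maximalIdeal O)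
      (τ : integralClosure ℤ ℂ →+* AlgebraicClosure (FractionRing O)) (R : NRep O p hg τ)
      (j : ZMod p →+* ResidueField R.Q),
      ∀ σ : GQ, residue R.Q (R.ρ.trace σ) = j (PadicInt.toZMod ((zRep W hΔ p).trace σ)) := by
  classical
  haveI := h𝔪.isPrime
  let 𝕋 := CuspForm.heckeAlgebra L 2 (↑(bd L p) : Set ℕ)
  haveI : Module.Finite ℤ 𝕋 := S22.result L 2 _
  let θ : 𝕋 →+* integralClosure ℤ ℂ := H23.eigenChar hg.1 _
  obtain ⟨s2, hs2⟩ := (Module.Finite.fg_top : (⊤ : Submodule ℤ 𝕋).FG)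
  obtain ⟨O, i1, i2, i3, i4, i5, i6, R0, f, hs, hf, hfm⟩ := exists_coeff_ring_ideal (𝔪 := 𝔪)
    hp.out hp𝔪 (θ '' (s2 : Set 𝕋)) (s2.finite_toSet.image _)
  have hpO : (p : O) ∈ maximalIdeal O := by
    have h1 := hfm (p : R0) (by rw [Subring.coe_natCast]; exact hp𝔪)
    rwa [map_natCast] at h1
  have hmem : ∀ t : 𝕋, θ t ∈ R0 := by
    intro t
    have ht : t ∈ Submodule.span ℤ (s2 : Set 𝕋) := by rw [hs2]; trivial
    induction ht using Submodule.span_induction with
    | mem y hy => exact hs ⟨y, hy, rfl⟩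
    | zero => rw [_root_.map_zero]; exact zero_mem _
    | add y z _ _ hy hz => rw [map_add]; exact add_mem hy hz
    | smul a y _ hy => rw [map_zsmul]; exact zsmul_mem hy a
  haveI : FaithfulSMul O (AlgebraicClosure (FractionRing O)) :=
    (faithfulSMul_iff_algebraMap_injective _ _).mpr (by
      rw [IsScalarTower.algebraMap_eq O (FractionRing O) (AlgebraicClosure (FractionRing O))]
      exact (algebraMap (FractionRing O) (AlgebraicClosure (FractionRing O))).injective.comp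
        (IsFractionRing.injective O (FractionRing O)))
  obtain ⟨τ, hτ⟩ := exists_extend (S := integralClosure ℤ ℂ) (R := R0) hf
    (K := AlgebraicClosure (FractionRing O))
  obtain ⟨R, -⟩ := exists_NRep hpO G hg τ ∅ Set.finite_empty (fun x hx => absurd hx (by simp))
  have hpQ : (p : R.Q) ∈ maximalIdeal R.Q := R.hpQ hpO
  haveI : CharP (ResidueField R.Q) p := by
    refine (CharP.charP_iff_prime_eq_zero hp.out).mpr ?_
    rw [← map_natCast (residue R.Q), residue_eq_zero_iff]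
    exact hpQ
  let j : ZMod p →+* ResidueField R.Q := ZMod.castHom (dvd_refl p) _
  let F : ℤ_[p] →+* ResidueField R.Q := j.comp PadicInt.toZMod
  haveI hF : IsLocalHom F := by
    constructor
    intro a ha
    by_contra hna
    have h1 : a ∈ maximalIdeal ℤ_[p] := hna
    rw [← PadicInt.ker_toZMod, RingHom.mem_ker] at h1
    have h2 : F a = 0 := by
      change j (PadicInt.toZMod a) = 0
      rw [h1, _root_.map_zero]
    rw [h2] at ha
    exact not_isUnit_zero ha
  have hloc : IsLocalHom (residue R.Q) := inferInstance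
  let ρ' : GaloisRepAdic (ResidueField R.Q) := R.ρ.baseChangeAlong (residue R.Q) hloc
  have hbot : maximalIdeal (ResidueField R.Q) = ⊥ := maximalIdeal_eq_bot
  haveI : IsHausdorff (maximalIdeal (ResidueField R.Q)) (ResidueField R.Q) := by
    rw [hbot]
    infer_instance
  refine ⟨O, i1, i2, i3, i4, i5, i6, hpO, τ, R, j, fun σ => ?_⟩
  have key := trace_eq_of_frob F (zRep W hΔ p) ρ'
    (bad ∪ (L * p).primeFactors ∪ (W.Δ.natAbs).primeFactors) ?_ σ
  · have h1 : ρ'.trace σ = residue R.Q (R.ρ.trace σ) :=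
      Ell.trace_baseChange (residue R.Q) hloc R.ρ σ
    rw [← h1, ← key]
    rfl
  · intro ℓ hℓ hℓbad P hP φ hφ
    simp only [Finset.mem_union, not_or] at hℓbad
    obtain ⟨⟨hb, hLp⟩, hD⟩ := hℓbad
    have hℓL : ¬ ℓ ∣ L := fun h => hLp (Nat.mem_primeFactors.mpr ⟨hℓ, h.mul_right p,
      mul_ne_zero (NeZero.ne L) hp.out.ne_zero⟩)
    have hℓp : ℓ ≠ p := by
      rintro rfl
      exact hLp (Nat.mem_primeFactors.mpr ⟨hℓ, dvd_mul_left _ _,
        mul_ne_zero (NeZero.ne L) hℓ.ne_zero⟩)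
    have hgood : W.IsGoodPrimeFor ℓ := by
      intro h
      exact hD (Nat.mem_primeFactors.mpr ⟨hℓ, Int.natCast_dvd.mp h, Int.natAbs_ne_zero.mpr hΔ⟩)
    have hℓS := not_mem_bd (N := L) hp.out hℓ hℓL hℓp
    refine ⟨(W.apOfModel ℓ : ℤ_[p]), ?_, ?_⟩
    · have h1 := charpoly_eq_trace_det (zRep W hΔ p).finrank_eq ((zRep W hΔ p).ρ φ)
      have h2 : LinearMap.trace ℤ_[p] _ ((zRep W hΔ p).ρ φ) = (W.apOfModel ℓ : ℤ_[p]) :=
        zRep_trace_frob hΔ hirr hℓ hgood hℓp hP hφ
      rw [h2, zRep_det_frob hΔ hirr hℓ hℓp hP hφ] at h1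
      exact h1
    · have h1 := R.hfrob ℓ hℓ hℓL hℓS P hP φ hφ
      have h2 : LinearMap.charpoly (ρ'.ρ φ) = (LinearMap.charpoly (R.ρ.ρ φ)).map (residue R.Q) :=
        Ell.charpoly_baseChange (residue R.Q) hloc R.ρ φ
      have h3 : residue R.Q (R.π (CuspForm.heckeAlgebra.T hℓ hℓL hℓS)) =
          F (W.apOfModel ℓ : ℤ_[p]) := by
        have h4 : R.π (CuspForm.heckeAlgebra.T hℓ hℓL hℓS) = algebraMap O R.Q
            (f ⟨θ (CuspForm.heckeAlgebra.T hℓ hℓL hℓS), hmem _⟩) := by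
          apply R.e_inj
          rw [R.hπ]
          have h5 := hτ ⟨θ (CuspForm.heckeAlgebra.T hℓ hℓL hℓS), hmem _⟩
          have h6 : R.e (algebraMap O R.Q (f ⟨θ (CuspForm.heckeAlgebra.T hℓ hℓL hℓS), hmem _⟩)) =
              algebraMap O _ (f ⟨θ (CuspForm.heckeAlgebra.T hℓ hℓL hℓS), hmem _⟩) :=
            R.e.commutes _
          rw [h6]
          exact h5
        obtain ⟨a, ha1, ha2⟩ := hcong ℓ hℓ hb
        have h7 : a = θ (CuspForm.heckeAlgebra.T hℓ hℓL hℓS) := by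
          apply Subtype.ext
          rw [ha1]
          exact (H23.coe_eigenChar_T hg.1 hℓ hℓL hℓS).symm
        rw [h7] at ha2
        have h8 := hfm (⟨θ (CuspForm.heckeAlgebra.T hℓ hℓL hℓS), hmem _⟩ -
          ((W.apOfModel ℓ : ℤ) : R0)) (by
            rw [AddSubgroupClass.coe_sub, SubringClass.coe_intCast]
            exact ha2)
        rw [map_sub, map_intCast] at h8
        have h9 : residue R.Q (algebraMap O R.Q
            (f ⟨θ (CuspForm.heckeAlgebra.T hℓ hℓL hℓS), hmem _⟩ - ((W.apOfModel ℓ : ℤ) : O))) =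
            0 := by
          rw [residue_eq_zero_iff]
          exact map_nonunit (algebraMap O R.Q) _ h8
        rw [map_sub, map_sub, map_intCast, map_intCast, sub_eq_zero] at h9
        rw [h4, h9, map_intCast]
      rw [h2, h1]
      simp only [Polynomial.map_add, Polynomial.map_sub, Polynomial.map_mul, Polynomial.map_pow,
        Polynomial.map_X, Polynomial.map_C, h3, map_natCast, Polynomial.map_natCast]

/-- **newforms congruent to an elliptic curve: trace of Frobenius at the Steinberg primes** -/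
theorem newform_trace_sq_of_geo {W : WeierstrassCurve ℤ} (hΔ : W.Δ ≠ 0) {p : ℕ}
    [hp : Fact p.Prime] (G : Geo p) (hirr : W.ModRepIsIrreducible p) {L : ℕ} [NeZero L]
    {g : CuspForm (Gamma0 L) 2} (hg : g.IsNewform) {𝔪 : Ideal (integralClosure ℤ ℂ)}
    (h𝔪 : 𝔪.IsMaximal) (hp𝔪 : (p : integralClosure ℤ ℂ) ∈ 𝔪) (bad : Finset ℕ)
    (hcong : ∀ ℓ, ℓ.Prime → ℓ ∉ bad → ∃ a : integralClosure ℤ ℂ, (a : ℂ) = qCoeff g ℓ ∧
      a - ((W.apOfModel ℓ : ℤ) : integralClosure ℤ ℂ) ∈ 𝔪) {q : ℕ} (hq : q.Prime) (hqp : q ≠ p)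
    (hqL : q ∣ L) (hqq : ¬ q ^ 2 ∣ L) {A : ValuationSubring Qb} (hA : A.LiesOverPrime q) {φ : GQ}
    (hφ : A.IsFrobeniusAt φ q) :
    (PadicInt.toZMod (LinearMap.trace ℤ_[p] (TT (WQ W) p) (rr (WQ W) p φ))) ^ 2 =
      ((q : ZMod p) + 1) ^ 2 := by
  obtain ⟨O, i1, i2, i3, i4, i5, i6, hpO, τ, R, j, hR⟩ :=
    exists_NRep_match hΔ G hirr hg h𝔪 hp𝔪 bad hcong
  apply j.injective
  have h1 := R.trace_sq hpO G hq hqp hqL hqq hA hφ
  have h2 := congrArg (residue R.Q) h1
  rw [map_pow, hR, map_pow, map_add, map_natCast, map_one] at h2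
  rw [map_pow, map_pow, map_add, map_natCast, map_one, ← h2]
  rfl

end Fermat.Agent.H19
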