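import Fermat.Agent.TW.SS4

/-!
# Supersingular case: cocycles vanishing on wild-type inertia are coboundaries
-/

set_option autoImplicit false
set_option linter.unusedSectionVars false

namespace Fermat.Agent.TW

open Matrix Fermat.Agent.CC NVal
open scoped Pointwise

section gen

variable {A : ValuationSubring Qb} {p : ℕ} {w : Qb → ℝ}

theorem PL.theta_gpow (P : PL p A w) {e : ℕ} (he : ¬ p ∣ e) {π : Qb} (hπ : π ^ e = p) {σ : GQ}
    (hσ : σ ∈ A.inertiaSubgroupIn ℚ) (n : ℕ) : (σ ^ n) π / π = (σ π / π) ^ n := by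
  induction n with
  | zero =>
    rw [pow_zero, pow_zero]
    exact div_self (P.tame_ne he hπ)
  | succ n ih => rw [pow_succ, P.theta_mul he hπ (pow_mem hσ n), ih, pow_succ]

/-- tame inertia is cyclic -/
theorem PL.exists_tame_gen (P : PL p A w) {e : ℕ} (he : ¬ p ∣ e) {π : Qb} (hπ : π ^ e = p)
    {g : GQ} (hg : g ∈ A.inertiaSubgroupIn ℚ) (hprim : IsPrimitiveRoot (rsd A (g π / π)) e)
    {σ : GQ} (hσ : σ ∈ A.inertiaSubgroupIn ℚ) :
    ∃ i : ℕ, ∃ j ∈ Jt A π, σ = g ^ i * j := by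
  have he0 : e ≠ 0 := by rintro rfl; exact he (dvd_zero _)
  have : NeZero e := ⟨he0⟩
  have h0 := P.tame_ne he hπ
  have hte := P.theta_te he hπ
  have h1 : rsd A (σ π / π) ^ e = 1 := by
    rw [← P.rsd_pow (P.te_Bl (hte σ)), P.theta_pow hπ, P.rsd_one]
  obtain ⟨i, -, hi⟩ := hprim.eq_pow_of_pow_eq_one h1
  rw [← P.rsd_pow (P.te_Bl (hte g)), ← P.theta_gpow he hπ hg] at hi
  have h2 : (g ^ i) π / π = σ π / π := by
    obtain ⟨m, hm, hm1⟩ := (hte (g ^ i)).resolve_left (div_ne_zero ((map_ne_zero _).2 h0) h0)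
    refine P.te_unique (m := e) he (P.theta_pow hπ _) (P.theta_pow hπ _) ?_
    exact (P.rsd_eq_iff (P.te_Bl (hte _)) (P.te_Bl (hte _))).1 hi
  have h3 : (g ^ i) π = σ π := by
    rwa [div_left_inj' h0] at h2
  refine ⟨i, (g ^ i)⁻¹ * σ, ⟨mul_mem (inv_mem (pow_mem hg i)) hσ, ?_⟩, by
    rw [mul_inv_cancel_left]⟩
  rw [AlgEquiv.mul_apply, ← h3]
  exact (g ^ i).symm_apply_apply π

theorem PL.gpow_mem (P : PL p A w) {e : ℕ} (he : ¬ p ∣ e) {π : Qb} (hπ : π ^ e = p)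
    {g : GQ} (hg : g ∈ A.inertiaSubgroupIn ℚ) : g ^ e ∈ Jt A π := by
  have h0 := P.tame_ne he hπ
  refine ⟨pow_mem hg e, ?_⟩
  have h1 := P.theta_gpow he hπ hg e
  rw [P.theta_pow hπ, div_eq_one_iff_eq h0] at h1
  exact h1

end gen

variable {A : ValuationSubring Qb} {p : ℕ} {w : Qb → ℝ} {k : Type*} [Field k]
  {π : Qb} {α : GQ → k} {K : Subfield k} {τ : K →+* IsLocalRing.ResidueField A}
  {r : GQ →* Mt k} {Q Q' : Mt k}

theorem ss_rigid [Finite k] [hf : Fact p.Prime] [Algebra (ZMod p) k]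
    (S : SD p A π α K τ r Q Q') (P : PL p A w) (hp2 : p ≠ 2)
    (hM : lev.Smooth (Ad0 r (1 : GQ →* k)))
    (f : Z1 (lev.sub (A.decompositionSubgroup ℚ)) (Ad0 r (1 : GQ →* k)))
    (h : ∀ σ (hσ : σ ∈ Jt A π), f.1 ⟨σ, S.J_le P hσ⟩ = 0) : H1.mk _ _ f = 0 := by
  have hgal := Fermat.Agent.H51.isGalois_Qbar
  have hcp := S.sr.charP P
  have hnd := not_dvd_sq_sub_one P.prime
  have hpi := S.sr.pi
  have h0 := P.tame_ne hnd hpi
  have hpp : 1 ≤ p ^ 2 := Nat.one_le_pow _ _ P.prime.pos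
  have hp1 := P.prime.one_lt
  have h2k : (2 : k) ≠ 0 := by
    intro h2
    have h3 : ((2 : ℕ) : k) = 0 := by exact_mod_cast h2
    rw [CharP.cast_eq_zero_iff k p] at h3
    have h4 := Nat.le_of_dvd (by norm_num) h3
    have h5 := P.prime.two_le
    omega
  obtain ⟨g₀, hg₀, hprim⟩ := exists_theta_gen P hnd hpi
  have hg₀D := inertia_le_decomposition A hg₀
  obtain ⟨φ, hφ⟩ := H05.exists_isFrobeniusAt P.prime P.lies
  have hφD := hφ.mem_decompositionSubgroup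
  -- the group `D`
  obtain ⟨G0, hG0⟩ : ∃ G0 : A.decompositionSubgroup ℚ, G0 = ⟨g₀, hg₀D⟩ := ⟨_, rfl⟩
  have hG0c : ∀ i : ℕ, ((G0 ^ i : A.decompositionSubgroup ℚ) : GQ) = g₀ ^ i := by
    intro i
    rw [hG0]
    rfl
  -- coboundaries
  have hMs := smooth_sub (D := A.decompositionSubgroup ℚ) hM
  obtain ⟨m, hm⟩ : ∃ m, m = ∑ i ∈ Finset.range (p ^ 2 - 1), f.1 (G0 ^ i) := ⟨_, rfl⟩
  have hpow : f.1 (G0 ^ (p ^ 2 - 1)) = 0 := by
    have h1 := P.gpow_mem hnd hpi hg₀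
    have h2 := h _ h1
    have h3 : (⟨g₀ ^ (p ^ 2 - 1), S.J_le P h1⟩ : A.decompositionSubgroup ℚ) =
        G0 ^ (p ^ 2 - 1) := Subtype.ext (hG0c _).symm
    rwa [h3] at h2
  have hchar : ∀ X : Ad0 r (1 : GQ →* k), p • X = 0 := by
    intro X
    rw [← Nat.cast_smul_eq_nsmul k, CharP.cast_eq_zero, zero_smul]
  have hg₀m : f.1 G0 = G0 • m - m := by
    have h1 : G0 • m = ∑ i ∈ Finset.range (p ^ 2 - 1), (f.1 (G0 ^ (i + 1)) - f.1 G0) := by
      rw [hm, Finset.smul_sum]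
      refine Finset.sum_congr rfl fun i _ => ?_
      rw [pow_succ', f.2.2, add_sub_cancel_left]
    have h2 := Finset.sum_range_succ (fun i => f.1 (G0 ^ i)) (p ^ 2 - 1)
    rw [Finset.sum_range_succ', hpow, add_zero, pow_zero, Z1.map_one, add_zero, ← hm] at h2
    rw [h1, Finset.sum_sub_distrib, h2, Finset.sum_const, Finset.card_range, sub_sub_cancel_left]
    have h3 : (p ^ 2 - 1) • f.1 G0 + f.1 G0 = 0 := by
      rw [← succ_nsmul, Nat.sub_add_cancel hpp, pow_two, mul_smul, hchar]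
    exact (neg_eq_of_add_eq_zero_right h3).symm
  obtain ⟨f1, hf1⟩ : ∃ f1, f1 = f - coboundary1 hMs m := ⟨_, rfl⟩
  have hf1v : ∀ g, f1.1 g = f.1 g - (g • m - m) := by
    intro g
    rw [hf1]
    rfl
  have hf1I : ∀ g : A.decompositionSubgroup ℚ, (g : GQ) ∈ A.inertiaSubgroupIn ℚ → f1.1 g = 0 := by
    intro g hg
    obtain ⟨i, j, hj, hij⟩ := P.exists_tame_gen hnd hpi hg₀ hprim hg
    have h1 : g = G0 ^ i * ⟨j, S.J_le P hj⟩ := by
      apply Subtype.ext
      rw [Subgroup.coe_mul, hG0c]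
      exact hij
    have h2 : f1.1 G0 = 0 := by rw [hf1v, hg₀m, sub_self]
    have h3 : f1.1 ⟨j, S.J_le P hj⟩ = 0 := by
      rw [hf1v, h j hj]
      have : (⟨j, S.J_le P hj⟩ : A.decompositionSubgroup ℚ) • m = m := S.smul_J P hj m
      rw [this, sub_self, sub_self]
    rw [h1, f1.2.2, Z1_pow f1 h2, h3, smul_zero, add_zero]
  -- the value at Frobenius
  obtain ⟨X, hX⟩ : ∃ X, X = f1.1 ⟨φ, hφD⟩ := ⟨_, rfl⟩
  have hXI := frob_mem_MI hφ f1 hf1I
  rw [← hX] at hXI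
  obtain ⟨N, hN⟩ : ∃ N, N = Q' * X.val * Q := ⟨_, rfl⟩
  have htr := S.trace X
  have hne : α g₀ ^ p ≠ α g₀ := by
    intro he
    have h1 : (⟨α g₀, S.sr.mem g₀ hg₀⟩ : K) ^ p = ⟨α g₀, S.sr.mem g₀ hg₀⟩ := Subtype.ext he
    have h2 := congrArg τ h1
    rw [map_pow, S.sr.tau g₀ hg₀] at h2
    have hne0 : NeZero (p ^ 2 - 1) := ⟨by
      intro h3
      rw [h3] at hnd
      exact hnd (dvd_zero _)⟩
    have h3 := prim_pow_eq hprim (i := p) (j := 1) (by rw [pow_one]; exact h2)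
    have h4 := (Nat.modEq_iff_dvd' hp1.le).1 h3.symm
    have h5 := Nat.le_of_dvd (by omega) h4
    have h6 : p * p = p ^ 2 := (pow_two p).symm
    have h7 : 2 * p ≤ p * p := Nat.mul_le_mul_right p hp1
    omega
  obtain ⟨hTI1, hTI2⟩ := S.T_I P hg₀
  have hfix := hXI g₀ hg₀
  have hfix' : (Q' * r g₀ * Q) * N * (Q' * r g₀⁻¹ * Q) = N := by
    rw [hN, ← S.conj_smul, hfix]
  rw [S.diag g₀ hg₀, hTI2] at hfix'
  have hα0 : α g₀ ≠ 0 := right_ne_zero_of_mul_eq_one hTI1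
  have hi0 : α g₀⁻¹ = (α g₀)⁻¹ := eq_inv_of_mul_eq_one_left hTI1
  have e01 := congrFun (congrFun hfix' 0) 1
  have e10 := congrFun (congrFun hfix' 1) 0
  simp only [Matrix.mul_apply, Fin.sum_univ_two, Matrix.diagonal_apply_eq, ne_eq, zero_ne_one,
    one_ne_zero, not_false_eq_true, Matrix.diagonal_apply_ne, Matrix.cons_val_zero,
    Matrix.cons_val_one, zero_mul, mul_zero, add_zero, zero_add, hi0, inv_pow] at e01 e10
  have hαp : α g₀ ^ p ≠ 0 := pow_ne_zero _ hα0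
  have n01 : N 0 1 = 0 := by
    have h1 : (α g₀ ^ p - α g₀) * N 0 1 = 0 := by
      field_simp at e01
      linear_combination -e01
    exact (mul_eq_zero.1 h1).resolve_left (sub_ne_zero.2 hne)
  have n10 : N 1 0 = 0 := by
    have h1 : (α g₀ ^ p - α g₀) * N 1 0 = 0 := by
      field_simp at e10
      linear_combination e10
    exact (mul_eq_zero.1 h1).resolve_left (sub_ne_zero.2 hne)
  -- Frobenius acts by `-1`
  have hφX : φ • X = -X := by
    have h1 : φ • X + X = 0 := by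
      obtain ⟨T, hT⟩ : ∃ T, T = Q' * r φ * Q := ⟨_, rfl⟩
      obtain ⟨T', hT'⟩ : ∃ T', T' = Q' * r φ⁻¹ * Q := ⟨_, rfl⟩
      obtain ⟨a1, a2⟩ := S.anti φ hφ
      have a3 := S.conj_r φ
      rw [← hT] at a1 a2 a3
      rw [← hT'] at a3
      have b00 := congrFun (congrFun a3 0) 0
      have b11 := congrFun (congrFun a3 1) 1
      have b01 := congrFun (congrFun a3 0) 1
      have b10 := congrFun (congrFun a3 1) 0
      simp only [Matrix.mul_apply, Fin.sum_univ_two, a1, a2, zero_mul, zero_add, add_zero,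
        Matrix.one_apply_eq, ne_eq, zero_ne_one, one_ne_zero, not_false_eq_true,
        Matrix.one_apply_ne] at b00 b11 b01 b10
      have t01 : T 0 1 ≠ 0 := left_ne_zero_of_mul_eq_one b00
      have t10 : T 1 0 ≠ 0 := left_ne_zero_of_mul_eq_one b11
      have f11 : T' 1 1 = 0 := (mul_eq_zero.1 b01).resolve_left t01
      have f00 : T' 0 0 = 0 := (mul_eq_zero.1 b10).resolve_left t10
      have hval : Q' * (φ • X + X).val * Q = T * N * T' + N := by
        rw [Ad0.val_add, mul_add, add_mul, S.conj_smul, ← hT, ← hT', ← hN]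
      rw [← hN] at htr
      refine S.eq_zero ?_ ?_ ?_
      · rw [hval]
        simp only [Matrix.add_apply, Matrix.mul_apply, Fin.sum_univ_two, a1, a2, f00, f11, n01,
          n10, htr, zero_mul, mul_zero, add_zero, zero_add]
        linear_combination (-N 0 0) * b00
      · rw [hval]
        simp only [Matrix.add_apply, Matrix.mul_apply, Fin.sum_univ_two, a1, a2, f00, f11, n01,
          n10, zero_mul, mul_zero, add_zero]
      · rw [hval]
        simp only [Matrix.add_apply, Matrix.mul_apply, Fin.sum_univ_two, a1, a2, f00, f11, n01,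
          n10, zero_mul, mul_zero, add_zero]
    exact eq_neg_of_add_eq_zero_left h1
  obtain ⟨m2, hm2⟩ : ∃ m2 : Ad0 r (1 : GQ →* k), m2 = (-(2 : k)⁻¹) • X := ⟨_, rfl⟩
  have hφm2 : φ • m2 - m2 = X := by
    rw [hm2, smul_comm φ, hφX, smul_neg, ← neg_add', ← add_smul, ← neg_smul]
    have : -(-(2 : k)⁻¹ + -(2 : k)⁻¹) = 1 := by
      field_simp
      ring
    rw [this, one_smul]
  have hm2I : ∀ σ ∈ A.inertiaSubgroupIn ℚ, σ • m2 = m2 := by
    intro σ hσ
    rw [hm2, smul_comm σ, hXI σ hσ]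
  have hf2 := Z1_eq_zero P.prime P.lies hφ (f1 - coboundary1 hMs m2) (fun g hg => by
      change f1.1 g - (g • m2 - m2) = 0
      rw [hf1I g hg]
      have : g • m2 = m2 := hm2I g hg
      rw [this, sub_self, sub_self]) (by
      change f1.1 ⟨φ, hφD⟩ - (φ • m2 - m2) = 0
      rw [← hX, hφm2, sub_self])
  rw [H1.mk_eq_zero]
  refine ⟨m + m2, fun g => ?_⟩
  have h1 : f1.1 g - (g • m2 - m2) = 0 := hf2 g
  rw [hf1v] at h1
  rw [smul_add]
  have h2 : f.1 g = (g • m - m) + (g • m2 - m2) := by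
    rw [sub_sub, sub_eq_zero] at h1
    exact h1
  rw [h2]
  abel

end Fermat.Agent.TW
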