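import Mathlib
import Fermat.Agent.H25.SelF

set_option autoImplicit false
set_option linter.unusedSectionVars false
set_option linter.style.haveILetI false

/-!
# The local condition at an unramified prime where all points are of Steinberg type
-/

namespace Fermat.Agent.H19.ST

open Fermat.Agent.H25 Fermat.Agent.H25.PR Fermat.Agent.CC Fermat.Agent.TW IsLocalRing Matrix
open Fermat.Agent.H05 Fermat.Agent.H25.TR Fermat.Agent.H25.TWM Fermat.Agent.H25.GD
open Fermat.Agent.H25.PT Fermat.Agent.H19 Fermat.Agent.H25.GE Fermat.Agent.H25.SB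
open Fermat.Agent.H04 (DN M2)
open scoped Pointwise

section LinAlg

variable {k : Type*} [Field k]

/-- a group of nilpotent matrices is determined by one coordinate -/
theorem exists_coord (N : AddSubgroup (Mt k)) (h : ∀ m ∈ N, m.trace = 0 ∧ m.det = 0) :
    ∃ i j : Fin 2, ∀ m ∈ N, m i j = 0 → m = 0 := by
  have hN : ∀ m ∈ N, m 1 1 = - m 0 0 ∧ m 0 0 * m 0 0 + m 0 1 * m 1 0 = 0 := by
    intro m hm
    obtain ⟨h1, h2⟩ := h m hm
    rw [Matrix.trace_fin_two] at h1
    rw [Matrix.det_fin_two] at h2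
    have h3 : m 1 1 = - m 0 0 := by linear_combination h1
    refine ⟨h3, ?_⟩
    rw [h3] at h2
    linear_combination -h2
  have hz : ∀ m ∈ N, m 1 0 = 0 → m 0 1 = 0 → m = 0 := by
    intro m hm h10 h01
    obtain ⟨h1, h2⟩ := hN m hm
    rw [h10, mul_zero, add_zero, mul_self_eq_zero] at h2
    rw [h2, neg_zero] at h1
    ext i j
    fin_cases i <;> fin_cases j
    · exact h2
    · exact h01
    · exact h10
    · exact h1
  by_cases hc : ∃ m0 ∈ N, m0 1 0 ≠ 0
  · obtain ⟨m0, hm0, h10⟩ := hc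
    refine ⟨1, 0, fun m hm hm10 => ?_⟩
    refine hz m hm hm10 ?_
    obtain ⟨-, h2⟩ := hN m hm
    rw [hm10, mul_zero, add_zero, mul_self_eq_zero] at h2
    obtain ⟨-, h3⟩ := hN m0 hm0
    obtain ⟨-, h4⟩ := hN (m0 + m) (N.add_mem hm0 hm)
    simp only [Matrix.add_apply, h2, hm10, add_zero] at h4
    have h5 : m 0 1 * m0 1 0 = 0 := by linear_combination h4 - h3
    exact (mul_eq_zero.1 h5).resolve_right h10
  · push Not at hc
    exact ⟨0, 1, fun m hm h01 => hz m hm (hc m hm) h01⟩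

/-- solving `C a C⁻¹ - a = X` for `C` with distinct eigenvalues -/
theorem exists_coboundary_reg (h2 : (2 : k) ≠ 0) {C C' X : Mt k} (hC : C * C' = 1)
    (hδ : C.trace ^ 2 - 4 * C.det ≠ 0) (hX : X.trace = 0) (hXC : (X * C).trace = 0) :
    ∃ a : Mt k, a.trace = 0 ∧ X = C * a * C' - a := by
  obtain ⟨H, hH⟩ : ∃ H : Mt k, H = (2 : k) • C - C.trace • (1 : Mt k) := ⟨_, rfl⟩
  obtain ⟨δ, hδ'⟩ : ∃ δ : k, δ = C.trace ^ 2 - 4 * C.det := ⟨_, rfl⟩
  rw [← hδ'] at hδ
  obtain ⟨Y, hY⟩ : ∃ Y : Mt k, Y = X * C := ⟨_, rfl⟩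
  have hYtr : Y.trace = 0 := by rw [hY, hXC]
  have hCC : C * C = C.trace • C - C.det • (1 : Mt k) := cayley C
  have hHH : H * H = δ • (1 : Mt k) := by
    have e : H * H = (4 : k) • (C * C) - (4 * C.trace) • C + (C.trace ^ 2) • (1 : Mt k) := by
      rw [hH]
      simp only [sub_mul, mul_sub, smul_mul_assoc, mul_smul_comm, mul_one, one_mul]
      module
    rw [e, hCC, hδ', smul_sub, smul_smul, smul_smul, sub_smul]
    abel
  -- `tr (Y C) = 0`
  have hYC : (Y * C).trace = 0 := by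
    rw [hY, mul_assoc, hCC, mul_sub, mul_smul_comm, mul_smul_comm, mul_one, Matrix.trace_sub,
      Matrix.trace_smul, Matrix.trace_smul, hX, hXC, smul_zero, smul_zero, sub_zero]
  have hHtr : H.trace = 0 := by
    rw [hH, Matrix.trace_sub, Matrix.trace_smul, Matrix.trace_smul, Matrix.trace_one]
    simp only [Fintype.card_fin, Nat.cast_ofNat, smul_eq_mul]
    ring
  have hYH : (Y * H).trace = 0 := by
    rw [hH, mul_sub, mul_smul_comm, mul_smul_comm, mul_one, Matrix.trace_sub, Matrix.trace_smul,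
      Matrix.trace_smul, hYC, hYtr, smul_zero, smul_zero, sub_zero]
  have ac : Y * H = - (H * Y) := by
    have := anticomm (C := Y) (H := H) hYtr
    rw [hHtr, hYH, zero_smul, zero_smul, add_zero] at this
    exact eq_neg_of_add_eq_zero_left this
  obtain ⟨a, ha⟩ : ∃ a : Mt k, a = δ⁻¹ • (H * Y) := ⟨_, rfl⟩
  have hatr : a.trace = 0 := by
    rw [ha, Matrix.trace_smul, Matrix.trace_mul_comm, hYH, smul_zero]
  have h3 : (2 : k) • (C * a - a * C) = (2 : k) • Y := by
    have e1 : (2 : k) • (C * a - a * C) = H * a - a * H := by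
      rw [hH]
      simp only [sub_mul, mul_sub, smul_mul_assoc, mul_smul_comm, mul_one, one_mul, smul_sub]
      abel
    rw [e1, ha]
    have e2 : H * (H * Y) = δ • Y := by rw [← mul_assoc, hHH, smul_mul_assoc, one_mul]
    have e3 : H * Y * H = - (δ • Y) := by
      rw [mul_assoc, ac, mul_neg, e2]
    rw [mul_smul_comm, smul_mul_assoc, e2, e3, smul_neg, sub_neg_eq_add, smul_smul,
      inv_mul_cancel₀ hδ, one_smul, two_smul]
  have h4 : C * a - a * C = Y := by
    have := congrArg (fun Z => (2 : k)⁻¹ • Z) h3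
    simpa only [smul_smul, inv_mul_cancel₀ h2, one_smul] using this
  refine ⟨a, hatr, ?_⟩
  have h5 := congrArg (fun Z => Z * C') h4
  beta_reduce at h5
  rw [hY, sub_mul, mul_assoc a, mul_assoc X, hC, mul_one, mul_one] at h5
  exact h5.symm

end LinAlg

section Local

variable {q : ℕ} {A : ValuationSubring Qb} {φ : GQ}

/-- tame evaluation of local cocycles -/
theorem tame_key {M : Type*} [AddCommGroup M] [DistribMulAction GQ M] [Finite M] (hq : q.Prime)
    (hA : A.LiesOverPrime q) (hφ : A.IsFrobeniusAt φ q)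
    {p : ℕ} (hp : p.Prime) (hpq : p ≠ q) (hpM : ∀ m : M, p • m = 0)
    (hI : ∀ τ ∈ A.inertiaSubgroupIn ℚ, ∀ m : M, τ • m = m)
    {π : Qb} {τ : GQ} (hπ : π ^ p = (q : Qb)) (hτI : τ ∈ A.inertiaSubgroupIn ℚ) (hτ : τ π ≠ π)
    (f : Z1 (lev.sub (A.decompositionSubgroup ℚ)) M) :
    (f.1 ⟨τ, inertia_le_decomposition A hτI⟩ = 0 → ∀ g : A.decompositionSubgroup ℚ,
      (g : GQ) ∈ A.inertiaSubgroupIn ℚ → f.1 g = 0) ∧
    φ • f.1 ⟨τ, inertia_le_decomposition A hτI⟩ =
      q • f.1 ⟨τ, inertia_le_decomposition A hτI⟩ := by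
  have hφD := hφ.mem_decompositionSubgroup
  obtain ⟨U, ⟨U0, hU0, hU0U⟩, hU⟩ := f.2.1
  have hgadd : ∀ x y : A.inertiaSubgroupIn ℚ,
      f.1 ⟨(x * y : A.inertiaSubgroupIn ℚ), inertia_le_decomposition A (x * y).2⟩ =
      f.1 ⟨x, inertia_le_decomposition A x.2⟩ + f.1 ⟨y, inertia_le_decomposition A y.2⟩ := by
    intro x y
    have h1 := f.2.2 ⟨x, inertia_le_decomposition A x.2⟩ ⟨y, inertia_le_decomposition A y.2⟩
    have h2 : (⟨x, inertia_le_decomposition A x.2⟩ : A.decompositionSubgroup ℚ) •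
        f.1 ⟨y, inertia_le_decomposition A y.2⟩ = f.1 ⟨y, inertia_le_decomposition A y.2⟩ :=
      hI x x.2 _
    rw [h2] at h1
    exact h1
  obtain ⟨h1, h2⟩ := tame_values hq hA hp hpq hpM π hπ τ hτI hτ
    (fun x => f.1 ⟨x, inertia_le_decomposition A x.2⟩) hgadd U0 hU0 (fun σ hσ => by
      have h3 := hU 1 ⟨σ, inertia_le_decomposition A σ.2⟩ (hU0U hσ)
      rw [one_mul] at h3
      rw [h3, Z1.map_one])
  refine ⟨fun h0 g hg => h1 h0 ⟨g, hg⟩, ?_⟩
  have hτ' := inertia_conj_mem hφD hτI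
  have h3 := h2 φ hφ τ hτI hτ'
  beta_reduce at h3
  rw [← h3]
  have e : (⟨φ * τ * φ⁻¹, inertia_le_decomposition A hτ'⟩ * ⟨φ, hφD⟩ :
      A.decompositionSubgroup ℚ) = ⟨φ, hφD⟩ * ⟨τ, inertia_le_decomposition A hτI⟩ := by
    apply Subtype.ext
    change φ * τ * φ⁻¹ * φ = φ * τ
    group
  have h4 := congrArg f.1 e
  rw [f.2.2, f.2.2] at h4
  have h5 : (⟨φ * τ * φ⁻¹, inertia_le_decomposition A hτ'⟩ : A.decompositionSubgroup ℚ) •
      f.1 ⟨φ, hφD⟩ = f.1 ⟨φ, hφD⟩ := hI _ hτ' _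
  rw [h5, add_comm (f.1 ⟨φ, hφD⟩)] at h4
  exact (add_right_cancel h4).symm

variable {k : Type*} [Field k]

/-- the trace functional on local classes -/
noncomputable def trH1 (r : GQ →* Mt k) (φ : GQ) (hφD : φ ∈ A.decompositionSubgroup ℚ) :
    H1 (lev.sub (A.decompositionSubgroup ℚ)) (Ad0 r (1 : GQ →* k)) →+ k :=
  QuotientAddGroup.lift (B1 (lev.sub (A.decompositionSubgroup ℚ)) (Ad0 r (1 : GQ →* k)))
    { toFun := fun f => ((f.1 ⟨φ, hφD⟩).val * r φ).trace
      map_zero' := by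
        change ((0 : Ad0 r (1 : GQ →* k)).val * r φ).trace = 0
        rw [Ad0.val_zero, zero_mul, Matrix.trace_zero]
      map_add' := fun f g => by
        change ((f.1 ⟨φ, hφD⟩ + g.1 ⟨φ, hφD⟩).val * r φ).trace = _
        rw [Ad0.val_add, add_mul, Matrix.trace_add] } (by
      rintro f ⟨a, ha⟩
      change ((f.1 ⟨φ, hφD⟩).val * r φ).trace = 0
      rw [ha, Ad0.val_sub, Ad0.val_subgroup_smul, MonoidHom.one_apply, one_smul, sub_mul,
        Matrix.trace_sub, mul_assoc, r_inv_mul, mul_one, Matrix.trace_mul_comm, sub_self])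

theorem trH1_mk (r : GQ →* Mt k) (φ : GQ) (hφD : φ ∈ A.decompositionSubgroup ℚ)
    (f : Z1 (lev.sub (A.decompositionSubgroup ℚ)) (Ad0 r (1 : GQ →* k))) :
    trH1 r φ hφD (H1.mk _ _ f) = ((f.1 ⟨φ, hφD⟩).val * r φ).trace := rfl

theorem trH1_resD (r : GQ →* Mt k) (φ : GQ) (hφD : φ ∈ A.decompositionSubgroup ℚ)
    (S : Finset Nat.Primes) (f : Z1 (levS S) (Ad0 r (1 : GQ →* k))) :
    trH1 r φ hφD (resD S (A.decompositionSubgroup ℚ) _ (H1.mk _ _ f)) =
      ((f.1 φ).val * r φ).trace := rfl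

/-- **(G3)**: the local condition at a stuck prime. -/
theorem card_trH1_ker_le [Finite k] {p : ℕ} [CharP k p] (hp : p.Prime) (hp2 : p ≠ 2)
    {r : GQ →* Mt k} (hr : lev.isOpen r.ker) (hq : q.Prime) (hpq : p ≠ q)
    (hA : A.LiesOverPrime q)
    (hI : ∀ τ ∈ A.inertiaSubgroupIn ℚ, r τ = 1)
    (hφ : A.IsFrobeniusAt φ q) (hdet : (r φ).det = (q : k))
    (htr : (r φ).trace ^ 2 = ((q : k) + 1) ^ 2) (hq1 : (q : k) ^ 2 ≠ 1) :
    Finite (trH1 (A := A) r φ hφ.mem_decompositionSubgroup).ker ∧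
    Nat.card (trH1 (A := A) r φ hφ.mem_decompositionSubgroup).ker ≤
      Nat.card (H0 (A.decompositionSubgroup ℚ) (Ad0 r (1 : GQ →* k))) := by
  have hgal := Fermat.Agent.H51.isGalois_Qbar
  have hφD := hφ.mem_decompositionSubgroup
  have : Fact p.Prime := ⟨hp⟩
  have h2 : (2 : k) ≠ 0 := by simpa using cast_ne_zero (k := k) (p := p) Nat.prime_two hp2
  have hq1' : (q : k) ≠ 1 := fun h => hq1 (by rw [h, one_pow])
  have hδ : (r φ).trace ^ 2 - 4 * (r φ).det ≠ 0 := by
    rw [htr, hdet]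
    have : ((q : k) + 1) ^ 2 - 4 * q = ((q : k) - 1) ^ 2 := by ring
    rw [this]
    exact pow_ne_zero 2 (sub_ne_zero.2 hq1')
  have hpM : ∀ m : Ad0 r (1 : GQ →* k), p • m = 0 := by
    intro m
    have : (p : k) • m = 0 := by rw [CharP.cast_eq_zero, zero_smul]
    rwa [Nat.cast_smul_eq_nsmul] at this
  have hIM : ∀ τ ∈ A.inertiaSubgroupIn ℚ, ∀ m : Ad0 r (1 : GQ →* k), τ • m = m :=
    fun τ hτ m => Ad0.smul_of_trivial (hI τ hτ) rfl m
  have hsm : lev.Smooth (Ad0 r (1 : GQ →* k)) := smooth_Ad0 hr fun g _ => rfl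
  have hfin : Finite (H1 (lev.sub (A.decompositionSubgroup ℚ)) (Ad0 r (1 : GQ →* k))) :=
    (card_tame_le (M := Ad0 r (1 : GQ →* k)) hq hA hφ hsm hp hpq hpM hIM).1
  refine ⟨inferInstance, ?_⟩
  obtain ⟨π, τ, hπ, hτI, hτ⟩ := exists_pi_tau hq hA hp
  have key := tame_key (M := Ad0 r (1 : GQ →* k)) hq hA hφ hp hpq hpM hIM hπ hτI hτ
  -- the eigenspace
  let N : AddSubgroup (Mt k) :=
    { carrier := {m | m.trace = 0 ∧ r φ * m = (q : k) • (m * r φ)}
      zero_mem' := ⟨Matrix.trace_zero _ _, by rw [mul_zero, zero_mul, smul_zero]⟩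
      add_mem' := fun {a b} ha hb => ⟨by rw [Matrix.trace_add, ha.1, hb.1, add_zero], by
        rw [mul_add, add_mul, smul_add, ha.2, hb.2]⟩
      neg_mem' := fun {a} ha => ⟨by rw [Matrix.trace_neg, ha.1, neg_zero], by
        rw [mul_neg, neg_mul, smul_neg, ha.2]⟩ }
  have hN : ∀ m ∈ N, m.trace = 0 ∧ m.det = 0 := by
    intro m hm
    refine ⟨hm.1, ?_⟩
    have h3 := congrArg Matrix.det hm.2
    rw [Matrix.det_mul, Matrix.det_smul, Matrix.det_mul, Fintype.card_fin, hdet] at h3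
    have hq0 : (q : k) ≠ 0 := cast_ne_zero (k := k) (p := p) hq hpq
    have h4 : (q : k) * ((1 - (q : k) ^ 2) * m.det) = 0 := by linear_combination h3
    have h5 := (mul_eq_zero.1 h4).resolve_left hq0
    exact (mul_eq_zero.1 h5).resolve_left (sub_ne_zero.2 (Ne.symm hq1))
  obtain ⟨i, j, hij⟩ := exists_coord N hN
  have hev : ∀ f : Z1 (lev.sub (A.decompositionSubgroup ℚ)) (Ad0 r (1 : GQ →* k)),
      (f.1 ⟨τ, inertia_le_decomposition A hτI⟩).val ∈ N := by
    intro f
    refine ⟨Ad0.trace_val _, ?_⟩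
    have h3 := congrArg (fun x => x.val * r φ) (key f).2
    beta_reduce at h3
    rw [Ad0.val_gsmul, MonoidHom.one_apply, one_smul, mul_assoc, r_inv_mul, mul_one,
      ← Nat.cast_smul_eq_nsmul k, Ad0.val_smul, smul_mul_assoc] at h3
    exact h3
  -- the evaluation map on the local condition
  let ev : (trH1 (A := A) r φ hφD).ker →+ k :=
    { toFun := fun x => (evH1 (⟨τ, inertia_le_decomposition A hτI⟩ : A.decompositionSubgroup ℚ)
        (hIM τ hτI) x.1).val i j
      map_zero' := by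
        rw [ZeroMemClass.coe_zero, map_zero]
        rfl
      map_add' := fun x y => by
        rw [AddSubgroup.coe_add, map_add]
        rfl }
  have hevinj : Function.Injective ev := by
    rw [injective_iff_map_eq_zero]
    rintro ⟨x, hx⟩ hx0
    obtain ⟨f, rfl⟩ := H1.mk_surjective x
    rw [AddMonoidHom.mem_ker, trH1_mk] at hx
    have h3 : (f.1 ⟨τ, inertia_le_decomposition A hτI⟩).val i j = 0 := hx0
    have h4 : f.1 ⟨τ, inertia_le_decomposition A hτI⟩ = 0 := Ad0.ext (hij _ (hev f) h3)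
    have h5 := (key f).1 h4
    obtain ⟨a, ha, hXa⟩ := exists_coboundary_reg h2 (r_mul_inv r φ) hδ
      (f.1 ⟨φ, hφD⟩).trace_val hx
    apply Subtype.ext
    change H1.mk _ _ f = 0
    rw [H1.mk_eq_zero]
    refine ⟨Ad0.mk a ha, fun g => ?_⟩
    have h6 := Z1_eq_zero hq hA hφ (f - coboundary1 (smooth_sub hsm) (Ad0.mk a ha))
      (fun g hg => ?_) ?_ g
    · have h7 : f.1 g - (g • (Ad0.mk a ha : Ad0 r (1 : GQ →* k)) - Ad0.mk a ha) = 0 := h6
      rw [sub_eq_zero] at h7
      exact h7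
    · change f.1 g - (g • (Ad0.mk a ha : Ad0 r (1 : GQ →* k)) - Ad0.mk a ha) = 0
      rw [h5 g hg]
      have : g • (Ad0.mk a ha : Ad0 r (1 : GQ →* k)) = Ad0.mk a ha := hIM g hg _
      rw [this, sub_self, sub_self]
    · change f.1 ⟨φ, hφD⟩ - (φ • (Ad0.mk a ha : Ad0 r (1 : GQ →* k)) - Ad0.mk a ha) = 0
      rw [sub_eq_zero]
      apply Ad0.ext
      rw [Ad0.val_sub, Ad0.val_gsmul, MonoidHom.one_apply, one_smul]
      exact hXa
  refine (Nat.card_le_card_of_injective ev hevinj).trans ?_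
  -- the centraliser
  obtain ⟨H, hH⟩ : ∃ H : Mt k, H = (2 : k) • r φ - (r φ).trace • (1 : Mt k) := ⟨_, rfl⟩
  have hHtr : H.trace = 0 := by
    rw [hH, Matrix.trace_sub, Matrix.trace_smul, Matrix.trace_smul, Matrix.trace_one]
    simp only [Fintype.card_fin, Nat.cast_ofNat, smul_eq_mul]
    ring
  have hH0 : H ≠ 0 := by
    intro h0
    rw [hH, sub_eq_zero] at h0
    have h3 := congrArg Matrix.det h0
    rw [Matrix.det_smul, Matrix.det_smul, Matrix.det_one, Fintype.card_fin, mul_one] at h3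
    apply hδ
    linear_combination -h3
  have hHc : r φ * H = H * r φ := by
    rw [hH, mul_sub, sub_mul, mul_smul_comm, smul_mul_assoc, mul_smul_comm, smul_mul_assoc,
      mul_one, one_mul]
  have hmem : ∀ c : k, (c • (Ad0.mk H hHtr : Ad0 r (1 : GQ →* k))) ∈
      H0 (A.decompositionSubgroup ℚ) (Ad0 r (1 : GQ →* k)) := by
    intro c
    rw [mem_H0_iff hq hA hφ hsm]
    refine ⟨fun τ hτ => hIM τ hτ _, ?_⟩
    apply Ad0.ext
    rw [Ad0.val_gsmul, MonoidHom.one_apply, one_smul, Ad0.val_smul, Ad0.val_mk, mul_smul_comm,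
      smul_mul_assoc, hHc, mul_assoc, r_mul_inv, mul_one]
  refine Nat.card_le_card_of_injective (fun c : k => (⟨_, hmem c⟩ :
    H0 (A.decompositionSubgroup ℚ) (Ad0 r (1 : GQ →* k)))) ?_
  intro c c' hcc
  have h3 := congrArg (fun x : H0 (A.decompositionSubgroup ℚ) (Ad0 r (1 : GQ →* k)) =>
    (x : Ad0 r (1 : GQ →* k)).val) hcc
  have h4 : c • H = c' • H := h3
  have h5 : (c - c') • H = 0 := by rw [sub_smul, h4, sub_self]
  exact sub_eq_zero.1 ((smul_eq_zero.1 h5).resolve_right hH0)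

end Local

section Cond

variable {O : Type} [CommRing O] [IsLocalRing O]

/-- the condition at a stuck prime for deformations to the dual numbers -/
def StuckC (q : Nat.Primes) (s : GQ →* M2 (DN O)) : Prop := sn (s (frv q q.2)).trace = 0

/-- **(G3)**, interface form -/
theorem lstuck [Finite (ResidueField O)] {p : ℕ} [CharP (ResidueField O) p] (hp : p.Prime)
    (hp2 : p ≠ 2) {rb : GQ →* Mt (ResidueField O)} (hr : lev.isOpen rb.ker) (q : Nat.Primes)
    (hpq : p ≠ q) (hI : ∀ τ ∈ (plv q q.2).inertiaSubgroupIn ℚ, rb τ = 1)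
    (hdet : (rb (frv q q.2)).det = ((q : ℕ) : ResidueField O))
    (htr : (rb (frv q q.2)).trace ^ 2 = (((q : ℕ) : ResidueField O) + 1) ^ 2)
    (hq1 : ((q : ℕ) : ResidueField O) ^ 2 ≠ 1) :
    LCond (plv q q.2) rb 0 (StuckC q) := by
  obtain ⟨h1, h2⟩ := card_trH1_ker_le hp hp2 hr q.2 hpq (plv_over q q.2) hI (frv_spec q q.2)
    hdet htr hq1
  refine ⟨_, h1, by rw [pow_zero, one_mul]; exact h2, fun S' s hs hU htr' hc => ?_⟩
  refine (trH1_resD rb (frv q q.2) (frv_spec q q.2).mem_decompositionSubgroup S' _).trans ?_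
  change (xi rb s (frv q q.2) * rb (frv q q.2)).trace = 0
  rw [trace_xi_mul]
  exact hc

end Cond

section Fam

variable {O : Type} [CommRing O] [IsLocalRing O] [IsNoetherianRing O]
    [IsAdicComplete (maximalIdeal O) O] {D : RD O (ResidueField O)}
    {S : Finset Nat.Primes} {bad : Finset ℕ} {κ : Type} [Finite κ] [Nonempty κ]
    (H : κ → CData D S bad) (hbar : HBar D S)

/-- traces on the trace ring, constant case -/
theorem CA_t_eq_const {φ : GQ} {c : O} (h : ∀ i x, (H i).t x φ = algebraMap O _ c) :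
    (CA H hbar).t φ = algebraMap O _ c := by
  refine ext_pt H hbar fun i x => ?_
  rw [pt_t, h, AlgHom.commutes]

/-- the local condition at a stuck prime -/
noncomputable def Lst (D : RD O (ResidueField O)) (q : Nat.Primes) :
    AddSubgroup (HD D.rbar q) :=
  (trH1 (A := plv q q.2) D.rbar (frv q q.2) (frv_spec q q.2).mem_decompositionSubgroup).ker

variable [Finite (ResidueField O)]

/-- membership in the local condition at a stuck prime -/
theorem coc_mem_Lst (q : Nat.Primes) {c : O}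
    (ht : ∀ i x, (H i).t x (frv q q.2) = algebraMap O _ c)
    {d : AR H hbar → ResidueField O} (hd : IsDer O (CA H hbar).resB d) :
    resD S (Dq q) _ (H1.mk _ _ (coc hd (CA H hbar).rho_res (CA_det H hbar) (CA_cont2 H hbar))) ∈
      Lst D q := by
  rw [← cls_eq_coc hd (CA H hbar).rho_res (CA_det H hbar) (CA_cont2 H hbar)]
  refine (trH1_resD D.rbar (frv q q.2) (frv_spec q q.2).mem_decompositionSubgroup S _).trans ?_
  change (xi D.rbar (sHom hd (CA H hbar).rho) (frv q q.2) * D.rbar (frv q q.2)).trace = 0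
  rw [trace_xi_mul, trace_sHom, (CA H hbar).trace_rho, CA_t_eq_const H hbar ht, dualHom_apply,
    sn_mk, hd.const]

include hbar in
/-- from squares of traces to traces -/
theorem exists_const_of_sq {q : ℕ} {φ : GQ}
    (h : ∀ i x, (H i).t x φ ^ 2 = ((q : (H i).P x) + 1) ^ 2) (h2 : (2 : ResidueField O) ≠ 0)
    (hq1 : (q : ResidueField O) + 1 ≠ 0) :
    ∃ c : O, ∀ i x, (H i).t x φ = algebraMap O _ c := by
  haveI := (CA H hbar).isLocalRing
  have h3 : (CA H hbar).t φ ^ 2 = ((q : AR H hbar) + 1) ^ 2 := by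
    refine ext_pt H hbar fun i x => ?_
    rw [map_pow, pt_t, h, map_pow, map_add, map_natCast, map_one]
  have h4 : IsUnit ((2 : AR H hbar) * ((q : AR H hbar) + 1)) := by
    rw [(CA H hbar).isUnit_iff, map_mul, map_ofNat, map_add, map_natCast, map_one]
    exact mul_ne_zero h2 hq1
  have h5 : ((CA H hbar).t φ - ((q : AR H hbar) + 1)) * ((CA H hbar).t φ + ((q : AR H hbar) + 1)) =
      0 := by
    linear_combination h3
  have h6 : ((CA H hbar).t φ + ((q : AR H hbar) + 1)) - ((CA H hbar).t φ - ((q : AR H hbar) + 1)) =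
      2 * ((q : AR H hbar) + 1) := by ring
  have h7 : IsUnit ((CA H hbar).t φ + ((q : AR H hbar) + 1)) ∨
      IsUnit ((CA H hbar).t φ - ((q : AR H hbar) + 1)) := by
    rw [← h6, sub_eq_add_neg] at h4
    rcases IsLocalRing.isUnit_or_isUnit_of_isUnit_add h4 with h8 | h8
    · exact Or.inl h8
    · exact Or.inr ((IsUnit.neg_iff _).1 h8)
  rcases h7 with h8 | h8
  · have h9 : (CA H hbar).t φ = (q : AR H hbar) + 1 :=
      sub_eq_zero.1 ((h8.mul_left_eq_zero).1 h5)
    refine ⟨(q : O) + 1, fun i x => ?_⟩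
    rw [← pt_t H hbar i x φ, h9, map_add, map_natCast, map_one, map_add, map_natCast, map_one]
  · have h9 : (CA H hbar).t φ + ((q : AR H hbar) + 1) = 0 := (h8.mul_right_eq_zero).1 h5
    refine ⟨-((q : O) + 1), fun i x => ?_⟩
    rw [← pt_t H hbar i x φ, eq_neg_of_add_eq_zero_left h9, map_neg, map_add, map_natCast, map_one,
      map_neg, map_add, map_natCast, map_one]

include hbar in
/-- the residual trace -/
theorem tbar_sq_of_sq {q : ℕ} {φ : GQ}
    (h : ∀ i x, (H i).t x φ ^ 2 = ((q : (H i).P x) + 1) ^ 2) :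
    D.tbar φ ^ 2 = ((q : ResidueField O) + 1) ^ 2 := by
  have h3 : (CA H hbar).t φ ^ 2 = ((q : AR H hbar) + 1) ^ 2 := by
    refine ext_pt H hbar fun i x => ?_
    rw [map_pow, pt_t, h, map_pow, map_add, map_natCast, map_one]
  have h4 := congrArg (CA H hbar).resB h3
  rwa [map_pow, (CA H hbar).res_t, map_pow, map_add, map_natCast, map_one] at h4

/-- membership in the local condition at a stuck prime, from squares of traces -/
theorem coc_mem_Lst_of_sq {p : ℕ} [CharP (ResidueField O) p] (hp : p.Prime) (hp2 : p ≠ 2)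
    (q : Nat.Primes) (hq1 : ((q : ℕ) : ResidueField O) ^ 2 ≠ 1)
    (h : ∀ i x, (H i).t x (frv q q.2) ^ 2 = (((q : ℕ) : (H i).P x) + 1) ^ 2)
    {d : AR H hbar → ResidueField O} (hd : IsDer O (CA H hbar).resB d) :
    resD S (Dq q) _ (H1.mk _ _ (coc hd (CA H hbar).rho_res (CA_det H hbar) (CA_cont2 H hbar))) ∈
      Lst D q := by
  haveI : Fact p.Prime := ⟨hp⟩
  have h2 : (2 : ResidueField O) ≠ 0 := by
    simpa using cast_ne_zero (k := ResidueField O) (p := p) Nat.prime_two hp2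
  have h3 : ((q : ℕ) : ResidueField O) + 1 ≠ 0 := by
    intro h0
    apply hq1
    linear_combination (((q : ℕ) : ResidueField O) - 1) * h0
  obtain ⟨c, hc⟩ := exists_const_of_sq H hbar h h2 h3
  exact coc_mem_Lst H hbar q hc hd

/-- the condition at a stuck prime for first order deformations of a family -/
theorem stuckC_sHom (q : Nat.Primes) {c : O}
    (ht : ∀ i x, (H i).t x (frv q q.2) = algebraMap O _ c)
    {d : AR H hbar → ResidueField O} (hd : IsDer O (CA H hbar).resB d) :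
    StuckC q (sHom hd (CA H hbar).rho) := by
  rw [StuckC, trace_sHom, (CA H hbar).trace_rho, CA_t_eq_const H hbar ht, dualHom_apply,
    sn_mk, hd.const]

/-- the condition at a stuck prime for first order deformations of a family -/
theorem stuckC_sHom_of_sq {p : ℕ} [CharP (ResidueField O) p] (hp : p.Prime) (hp2 : p ≠ 2)
    (q : Nat.Primes) (hq1 : ((q : ℕ) : ResidueField O) ^ 2 ≠ 1)
    (h : ∀ i x, (H i).t x (frv q q.2) ^ 2 = (((q : ℕ) : (H i).P x) + 1) ^ 2)
    {d : AR H hbar → ResidueField O} (hd : IsDer O (CA H hbar).resB d) :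
    StuckC q (sHom hd (CA H hbar).rho) := by
  haveI : Fact p.Prime := ⟨hp⟩
  have h2 : (2 : ResidueField O) ≠ 0 := by
    simpa using cast_ne_zero (k := ResidueField O) (p := p) Nat.prime_two hp2
  have h3 : ((q : ℕ) : ResidueField O) + 1 ≠ 0 := by
    intro h0
    apply hq1
    linear_combination (((q : ℕ) : ResidueField O) - 1) * h0
  obtain ⟨c, hc⟩ := exists_const_of_sq H hbar h h2 h3
  exact stuckC_sHom H hbar q hc hd

/-- size of the local condition at a stuck prime -/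
theorem card_Lst_le {p : ℕ} [CharP (ResidueField O) p] (hp : p.Prime) (hp2 : p ≠ 2)
    (hr : lev.isOpen D.rbar.ker) (q : Nat.Primes) (hpq : p ≠ q)
    (hI : ∀ τ ∈ (plv q q.2).inertiaSubgroupIn ℚ, D.rbar τ = 1)
    (hdet : (D.rbar (frv q q.2)).det = ((q : ℕ) : ResidueField O))
    (htr : D.tbar (frv q q.2) ^ 2 = (((q : ℕ) : ResidueField O) + 1) ^ 2)
    (hq1 : ((q : ℕ) : ResidueField O) ^ 2 ≠ 1) :
    Finite (Lst D q) ∧ Nat.card (Lst D q) ≤
      Nat.card (H0 (Dq q) (Ad0 D.rbar (1 : GQ →* ResidueField O))) := by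
  rw [← D.trace_rbar] at htr
  exact card_trH1_ker_le hp hp2 hr q.2 hpq (plv_over q q.2) hI (frv_spec q q.2) hdet htr hq1

end Fam

end Fermat.Agent.H19.ST
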