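import Mathlib
import Fermat.Agent.H12.LL.LLmain
import Fermat.Agent.H18R.TopFill
import Fermat.Agent.TFin.Step1
import Fermat.Agent.H11N.Unr

/-!
# The level lowering input of the modularity lifting theorem
-/

set_option autoImplicit false
set_option linter.unusedSectionVars false

noncomputable section

namespace Fermat.Agent.H19.LLp

open Fermat.Agent.TW Fermat.Agent.CC Fermat.Agent.Ell Fermat.Agent.H12.LL Fermat.Agent.TFin
open IsLocalRing CongruenceSubgroup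
open ModularFormClass (qCoeff)

variable {W : WeierstrassCurve ℤ} {p : ℕ} [hp : Fact p.Prime]

/-- a prime which cannot be removed divides the level of the newform -/
theorem stOk_of (hΔ : W.Δ ≠ 0) (hirr : W.ModRepIsIrreducible p) (G : H25.PT.Geo p) {N q : ℕ}
    (hq : q.Prime) (hqp : q ≠ p) (hunr : UnrAt W p q) (hsq : ¬ q ^ 2 ≡ 1 [MOD p])
    (hN : Squarefree (N * q)) (hRM : W.IsResiduallyModularOfLevel p (N * q))
    (hn : ¬ W.IsResiduallyModularOfLevel p N) : StOk W p q where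
  ne := hqp
  unr := hunr
  sq := hsq
  tr := by
    intro A hA φ hφ
    obtain ⟨L, hL, g, 𝔪, hLM, hg, h𝔪, hp𝔪, hx, hRL⟩ := H18R.exists_newform_level hΔ hirr
      hN.ne_zero hRM
    have hN0 : N ≠ 0 := fun h => hN.ne_zero (by rw [h, zero_mul])
    have hqL : q ∣ L := by
      by_contra hqL
      refine hn (H18R.isResiduallyModular_mono hΔ hirr hRL ?_ hN0)
      exact Nat.Coprime.dvd_of_dvd_mul_right
        (((Nat.Prime.coprime_iff_not_dvd hq).mpr hqL).symm) hLM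
    have hqL2 : ¬ q ^ 2 ∣ L := by
      intro h
      rw [pow_two] at h
      exact hq.not_isUnit (hN _ (h.trans hLM))
    exact H18R.sq_of_geo hΔ hirr G hg ⟨𝔪, h𝔪, hp𝔪, hx⟩ hq hqp hqL hqL2 hA hφ

open Classical in
/-- **Black box 1 in the form used by the first step of LIFT.** -/
theorem llprop_of (hΔ : W.Δ ≠ 0) (hirr : W.ModRepIsIrreducible p) (hp2 : p ≠ 2)
    (G : H25.PT.Geo p) (hk : Kill W p) (hNL : NLIn W p)
    (hNew : ∀ q : ℕ, q.Prime → NewP W p q) {b : Prop}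
    (hMode : ∀ St : Finset Nat.Primes, ModeIn W p b St) : LLprop W p b := by
  intro T M₀ h3 hsq hcop hb hpn hq hTp hT1 hTu htr hRM
  have hsqN : Squarefree (Q0 T * M₀) :=
    (Nat.squarefree_mul_iff).mpr ⟨hcop, squarefree_Q0 T, hsq⟩
  have hdiv : ∀ q : ℕ, q ∣ M₀ → M₀ = M₀ / q * q := fun q h => (Nat.div_mul_cancel h).symm
  have hQ : ∀ q : ℕ, q ∣ M₀ → Q0 T * M₀ = (Q0 T * (M₀ / q)) * q := fun q h => by
    rw [mul_assoc, ← hdiv q h]
  let St : Finset Nat.Primes := ((M₀.primeFactors).subtype Nat.Prime).filter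
    (fun q => (q : ℕ) ≠ p ∧ UnrAt W p q)
  have hSt : ∀ q : Nat.Primes, q ∈ St ↔ (q : ℕ) ∣ M₀ ∧ (q : ℕ) ≠ p ∧ UnrAt W p q := by
    intro q
    have h1 : q ∈ St ↔ q ∈ (M₀.primeFactors.subtype Nat.Prime : Finset Nat.Primes) ∧
        ((q : ℕ) ≠ p ∧ UnrAt W p q) := Finset.mem_filter
    have h2 : q ∈ (M₀.primeFactors.subtype Nat.Prime : Finset Nat.Primes) ↔
        (q : ℕ) ∈ M₀.primeFactors := Finset.mem_subtype (p := Nat.Prime)
    rw [h1, h2, Nat.mem_primeFactors]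
    exact ⟨fun h => ⟨h.1.2.1, h.2⟩, fun h => ⟨⟨q.2, h.1, hsq.ne_zero⟩, h.2⟩⟩
  refine ll_gen hΔ hirr hp2 G hk hNL (hMode St) T M₀ (fun hp3 => ?_) hsq hcop
    (fun hnb h => hnb (hb.mp h)) (fun hb' => ⟨hNew p hp.out, M₀ / p, hdiv p (hb.mpr hb'),
      hpn (hb.mpr hb')⟩) (fun q hqS => ?_) (fun q hqp hqM hqS => ?_) hTp hT1 hTu htr
    (fun q hq' hqp hqN => H11N.unrAt_of_residual hΔ hirr hp2 hsqN.ne_zero hRM hq' hqN hqp) hRM
  · rcases h3 with h | h
    · exact absurd hp3 h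
    · exact h
  · obtain ⟨h1, h2, h4⟩ := (hSt q).mp hqS
    rcases hq q q.2 h2 h1 with h5 | ⟨h5, h6⟩
    · exact absurd h4 h5
    · exact ⟨stOk_of hΔ hirr G q.2 h2 h4 h5 (by rw [← hQ q h1]; exact hsqN)
        (by rw [← hQ q h1]; exact hRM) h6, hNew q q.2, M₀ / q, hdiv q h1, h6⟩
  · intro h
    exact hqS ((hSt q).mpr ⟨hqM, hqp, h⟩)

end Fermat.Agent.H19.LLp
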