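import Fermat.Agent.H19.S32B

set_option autoImplicit false
set_option linter.unusedSectionVars false
set_option maxSynthPendingDepth 3

noncomputable section

namespace Fermat.Agent.H19

open AlgebraicCurve ModularCurve CongruenceSubgroup
open Fermat.Agent.H01 Fermat.Agent.H05 Fermat.Agent.H02F Fermat.Agent.H26

section Abstract

/-- abstract form of the vanishing -/
theorem act_sum_eq_zero {R X : Type*} [Ring R] [AddCommGroup X] {W : Submodule ℤ X}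
    (act : R →+* Module.End ℤ W) (rX : GQ →* AddMonoid.End X) (r : GQ →* Module.End ℤ W)
    (hr : ∀ g w, ((r g w : W) : X) = rX g (w : X)) (c : GQ →₀ ℤ) (h : GQ) (s : GQ → R) (k : GQ → ℕ)
    (h2 : ∀ g w, act (s g) w = r (g * h) w + k g • r (g * h)⁻¹ w)
    (hc : ∀ x : X, gr rX x c = 0)
    (hadj : ∀ x : X, ∑ g ∈ c.support, c g • k g • rX (g * h)⁻¹ x = 0) :
    act (∑ g ∈ c.support, c g • s g) = 0 := by
  apply LinearMap.ext
  intro w
  apply Subtype.ext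
  have e2 : (((act (∑ g ∈ c.support, c g • s g)) w : W) : X) =
      ∑ g ∈ c.support, (c g • rX (g * h) (w : X) + c g • k g • rX (g * h)⁻¹ (w : X)) := by
    rw [map_sum, LinearMap.sum_apply, AddSubmonoidClass.coe_finsetSum]
    refine Finset.sum_congr rfl fun g _ => ?_
    rw [map_zsmul, LinearMap.smul_apply, h2 g, ← smul_add, ← hr, ← hr]
    rfl
  have e4 : ∑ g ∈ c.support, c g • rX (g * h) (w : X) = 0 := by
    have := hc (rX h (w : X))
    rw [gr, Finsupp.linearCombination_apply, Finsupp.sum] at this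
    rw [← this]
    refine Finset.sum_congr rfl fun g _ => ?_
    rw [map_mul]
    rfl
  rw [e2, Finset.sum_add_distrib, hadj, e4, add_zero]
  rfl

theorem trace_abstract {R T V : Type*} [CommRing R] [CommRing T] [AddCommGroup V] [Module T V]
    (ρ : GQ →* Module.End T V) (π : R →+* T) (I : Ideal T) (c : GQ →₀ ℤ) (h : GQ) (s : GQ → R)
    (h1 : ∀ g, LinearMap.trace T V (ρ (g * h)) - π (s g) ∈ I)
    (h2 : π (∑ g ∈ c.support, c g • s g) ∈ I) :
    LinearMap.trace T V ((∑ g ∈ c.support, c g • ρ g) * ρ h) ∈ I := by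
  have htr : LinearMap.trace T V ((∑ g ∈ c.support, c g • ρ g) * ρ h) =
      ∑ g ∈ c.support, c g • (LinearMap.trace T V (ρ (g * h)) - π (s g)) +
        π (∑ g ∈ c.support, c g • s g) := by
    rw [Finset.sum_mul, map_sum, map_sum, ← Finset.sum_add_distrib]
    refine Finset.sum_congr rfl fun g _ => ?_
    rw [smul_mul_assoc, map_zsmul, map_mul ρ, map_zsmul, ← smul_add, sub_add_cancel]
  rw [htr]
  exact Ideal.add_mem _ (Ideal.sum_mem _ fun g _ => zsmul_mem (h1 g) _) h2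

end Abstract

section Main

variable {p N : ℕ} [NeZero N] {S : Finset ℕ} {T : Type} [CommRing T] [IsLocalRing T]

theorem exists_level_trace [Algebra (AlgebraicClosure ℚ) ℂ] (hCheb : WeakChebotarev) (hp : p.Prime)
    (hpS : p ∈ S) (hNS : ∀ q : ℕ, q.Prime → q ∣ N → q ∈ S) (ρ : GaloisRepAdic T)
    (π : CuspForm.heckeAlgebra N 2 (↑S : Set ℕ) →+* T)
    (hfrob : ∀ (ℓ : ℕ) (hℓ : ℓ.Prime) (hℓN : ¬ ℓ ∣ N) (hℓS : ℓ ∉ (↑S : Set ℕ)),
      ∀ A : ValuationSubring (AlgebraicClosure ℚ), A.LiesOverPrime ℓ →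
        ∀ σ : GQ, A.IsFrobeniusAt σ ℓ → LinearMap.charpoly (ρ.ρ σ) =
          Polynomial.X ^ 2 - Polynomial.C (π (CuspForm.heckeAlgebra.T hℓ hℓN hℓS)) * Polynomial.X +
            Polynomial.C ((ℓ : T)))
    (hpT : (p : T) ∈ IsLocalRing.maximalIdeal T)
    (hES : ∀ (m : ℕ) (ℓ : ℕ) (hℓ : ℓ.Prime), ¬ ℓ ∣ N → ℓ ≠ p →
      ∀ A : ValuationSubring (AlgebraicClosure ℚ), A.LiesOverPrime ℓ →
      ∀ φ : AlgebraicClosure ℚ ≃ₐ[ℚ] AlgebraicClosure ℚ, A.IsFrobeniusAt φ ℓ →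
      ∀ x : JZero N, (p ^ m) • x = 0 →
        φ • φ • x - heckeOperatorBar N ⟨ℓ, hℓ⟩ (φ • x) + ℓ • x = 0) (n : ℕ) :
    ∃ (m : ℕ) (_ : NeZero (p ^ m)), ∀ c : GQ →₀ ℤ,
      (∀ x : Tor N (p ^ m), gr (actTor N (p ^ m)) x c = 0) →
      ∀ h : GQ, LinearMap.trace T ρ.V (rr ρ c * ρ.ρ h) ∈ IsLocalRing.maximalIdeal T ^ n := by
  classical
  obtain ⟨m, inst, hm⟩ := exists_level (N := N) hp (↑S) n
  refine ⟨m, inst, fun c hc h => ?_⟩
  obtain ⟨ζ, hζ⟩ : ∃ ζ : AlgebraicClosure ℚ, IsPrimitiveRoot ζ (p ^ m) := by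
    have : NeZero ((p ^ m : ℕ) : AlgebraicClosure ℚ) :=
      ⟨by exact_mod_cast (pow_pos hp.pos m).ne'⟩
    exact HasEnoughRootsOfUnity.exists_primitiveRoot (AlgebraicClosure ℚ) (p ^ m)
  have hex : ∀ g : GQ, ∃ (s : CuspForm.heckeAlgebra N 2 (↑S : Set ℕ)) (k : ℕ),
      LinearMap.trace T ρ.V (ρ.ρ (g * h)) - π s ∈ IsLocalRing.maximalIdeal T ^ n ∧
      (∀ w, H22.formsPartActAway N (torAct N (p ^ m)) (↑S : Set ℕ) s w =
        formsGal N (p ^ m) (g * h) w + k • formsGal N (p ^ m) (g * h)⁻¹ w) ∧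
      (g * h) ζ = ζ ^ k := fun g =>
    exists_hecke_trace hCheb hp hpS hNS ρ π hfrob _ _ (formsGal_finiteLevel N (p ^ m))
      (fun ℓ hℓ hℓN hℓS hℓp A hA φ hφ w => es_forms (↑S) hES m ℓ hℓ hℓN hℓS hℓp A hA φ hφ w)
      n m ζ hζ.pow_eq_one (g * h)
  choose s k h1 h2 h3 using hex
  have hact : H22.formsPartActAway N (torAct N (p ^ m)) (↑S : Set ℕ)
      (∑ g ∈ c.support, c g • s g) = 0 := by
    refine act_sum_eq_zero _ (actTor N (p ^ m)) (formsGal N (p ^ m)) (fun _ _ => rfl) c h s k h2 hc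
      (fun x => adj_eq_zero c hc h k (fun g _ ξ hξ => ?_) x)
    obtain ⟨i, -, rfl⟩ := hζ.eq_pow_of_pow_eq_one hξ
    rw [map_pow, h3 g, ← pow_mul, ← pow_mul, mul_comm]
  obtain ⟨s0, hs0⟩ := hm _ hact
  refine trace_abstract ρ.ρ π _ c h s h1 ?_
  rw [hs0, map_nsmul, nsmul_eq_mul]
  push_cast
  exact Ideal.mul_mem_right _ _ (Ideal.pow_mem_pow hpT n)

end Main

end Fermat.Agent.H19
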