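import Fermat.Agent.H19.HopfA

set_option autoImplicit false
set_option linter.unusedSectionVars false

/-!
# Hopf orders: the Hopf algebra and its points
-/

noncomputable section

namespace Fermat.Agent.H19

open Fermat.Agent.H02F TensorProduct

variable {ℓ : ℕ} {M : Type*} [AddCommGroup M] {act : GQ →* AddMonoid.End M}
  {H : Subalgebra (RL ℓ) (M → Qb)}

/-- evaluation at a point -/
def evA (H : Subalgebra (RL ℓ) (M → Qb)) (x : M) : H →ₐ[RL ℓ] Qb :=
  (Pi.evalAlgHom (RL ℓ) (fun _ : M => Qb) x).comp H.val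

@[simp] theorem evA_apply (x : M) (φ : H) : evA H x φ = φ.1 x := rfl

/-- functions on `M × M` -/
def mu2 (H : Subalgebra (RL ℓ) (M → Qb)) : H ⊗[RL ℓ] H →ₐ[RL ℓ] (M × M → Qb) :=
  AlgHom.pi (fun p : M × M =>
    Algebra.TensorProduct.lift (evA H p.1) (evA H p.2) (fun _ _ => Commute.all _ _))

@[simp] theorem mu2_tmul (a b : H) (p : M × M) : mu2 H (a ⊗ₜ b) p = a.1 p.1 * b.1 p.2 := by
  simp [mu2]

/-- functions on `M × M × M` -/
def mu3 (H : Subalgebra (RL ℓ) (M → Qb)) : H ⊗[RL ℓ] (H ⊗[RL ℓ] H) →ₐ[RL ℓ] (M × M × M → Qb) :=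
  AlgHom.pi (fun p : M × M × M =>
    Algebra.TensorProduct.lift (evA H p.1)
      ((Pi.evalAlgHom (RL ℓ) (fun _ : M × M => Qb) p.2).comp (mu2 H)) (fun _ _ => Commute.all _ _))

@[simp] theorem mu3_tmul (a : H) (t : H ⊗[RL ℓ] H) (p : M × M × M) :
    mu3 H (a ⊗ₜ t) p = a.1 p.1 * mu2 H t p.2 := by
  simp [mu3]

theorem algebraMap_RL_injective (ℓ : ℕ) : Function.Injective (algebraMap (RL ℓ) Qb) := by
  rw [IsScalarTower.algebraMap_eq (RL ℓ) ℚ Qb]
  exact (algebraMap ℚ Qb).injective.comp (IsFractionRing.injective (RL ℓ) ℚ)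

section

variable (hH : IsHopfOrder ℓ act H)

include hH

theorem finite_H : Module.Finite (RL ℓ) H := Module.Finite.iff_fg.mpr hH.fg

omit hH in
theorem torsionFree_fun (ℓ : ℕ) (M : Type*) : Module.IsTorsionFree (RL ℓ) (M → Qb) := by
  refine Module.IsTorsionFree.of_smul_eq_zero fun r φ h => ?_
  by_cases hr : r = 0
  · exact Or.inl hr
  · right
    funext m
    have h1 := congrFun h m
    rw [Pi.smul_apply, Pi.zero_apply, Algebra.smul_def] at h1
    rcases mul_eq_zero.mp h1 with h2 | h2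
    · exact absurd ((map_eq_zero_iff _ (algebraMap_RL_injective ℓ)).mp h2) hr
    · exact h2

omit hH in
theorem torsionFree_H : Module.IsTorsionFree (RL ℓ) H := by
  have := torsionFree_fun ℓ M
  exact Function.Injective.moduleIsTorsionFree (R := RL ℓ) (fun φ : H => φ.1)
    Subtype.val_injective (fun _ _ => rfl)

theorem free_H : Module.Free (RL ℓ) H := by
  have := finite_H hH
  have := torsionFree_H (H := H)
  exact Module.free_of_finite_type_torsion_free'

/-- a basis of `H` -/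
def basisH : Module.Basis (Fin (Module.finrank (RL ℓ) H)) (RL ℓ) H :=
  letI := finite_H hH
  letI := free_H hH
  Module.finBasis (RL ℓ) H

theorem linInd_coe {ι : Type*} {b : ι → H} (hb : LinearIndependent (RL ℓ) b) :
    LinearIndependent Qb (fun i => (b i : M → Qb)) := by
  apply linInd (act := act) (fun i => hH.equiv _ (b i).2)
  have h1 : LinearIndependent (RL ℓ) (fun i => (b i : M → Qb)) := by
    have h2 := hb.map' (Subalgebra.toSubmodule H).subtype (Submodule.ker_subtype _)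
    exact h2
  exact (LinearIndependent.iff_fractionRing (RL ℓ) ℚ).mp h1

theorem linInd_basisH : LinearIndependent Qb (fun i => (basisH hH i : M → Qb)) :=
  linInd_coe hH (basisH hH).linearIndependent

theorem mu2_injective : Function.Injective (mu2 H) := by
  rw [injective_iff_map_eq_zero]
  intro t ht
  refine injective_lift (basisH hH) (Subalgebra.toSubmodule H).subtype (linInd_basisH hH)
    (Subalgebra.toSubmodule H).subtype (Submodule.subtype_injective _) t (fun x y => ?_)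
  have h1 := congrFun ht (x, y)
  rw [Pi.zero_apply] at h1
  rw [← h1]
  clear ht h1
  induction t with
  | zero => simp
  | tmul a b => rw [mu2_tmul]; rfl
  | add a b ha hb => rw [map_add, map_add, ha, hb, Pi.add_apply]

theorem mu3_injective : Function.Injective (mu3 H) := by
  rw [injective_iff_map_eq_zero]
  intro t ht
  refine injective_lift (basisH hH) (Subalgebra.toSubmodule H).subtype (linInd_basisH hH)
    (mu2 H).toLinearMap (mu2_injective hH) t (fun x y => ?_)
  have h1 := congrFun ht (x, y)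
  rw [Pi.zero_apply] at h1
  rw [← h1]
  clear ht h1
  induction t with
  | zero => simp
  | tmul a b => rw [mu3_tmul]; rfl
  | add a b ha hb =>
    have h2 : mu3 H (a + b) = mu3 H a + mu3 H b := (mu3 H).map_add a b
    rw [map_add, h2, ha, hb, Pi.add_apply]

omit hH in
/-- pullback along addition -/
def addA (H : Subalgebra (RL ℓ) (M → Qb)) : H →ₐ[RL ℓ] (M × M → Qb) :=
  AlgHom.pi (fun p : M × M => evA H (p.1 + p.2))

omit hH in
@[simp] theorem addA_apply (φ : H) (p : M × M) : addA H φ p = φ.1 (p.1 + p.2) := rfl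

theorem addA_mem (φ : H) : addA H φ ∈ (mu2 H).range := by
  obtain ⟨n, a, b, ha, hb, hab⟩ := hH.comul φ φ.2
  refine ⟨∑ i, (⟨a i, ha i⟩ : H) ⊗ₜ[RL ℓ] (⟨b i, hb i⟩ : H), ?_⟩
  funext p
  change mu2 H _ p = _
  rw [map_sum, Finset.sum_apply, addA_apply, hab]
  simp

/-- comultiplication -/
def comulA : H →ₐ[RL ℓ] H ⊗[RL ℓ] H :=
  ((AlgEquiv.ofInjective (mu2 H) (mu2_injective hH)).symm : _ →ₐ[RL ℓ] _).comp
    ((addA H).codRestrict (mu2 H).range (addA_mem hH))

theorem mu2_comulA (φ : H) : mu2 H (comulA hH φ) = addA H φ := by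
  have h1 := (AlgEquiv.ofInjective (mu2 H) (mu2_injective hH)).apply_symm_apply
    ⟨addA H φ, addA_mem hH φ⟩
  exact congrArg Subtype.val h1

theorem mu2_comulA_apply (φ : H) (p : M × M) : mu2 H (comulA hH φ) p = φ.1 (p.1 + p.2) := by
  rw [mu2_comulA, addA_apply]

theorem counit_mem (φ : H) : ∃ r : RL ℓ, algebraMap (RL ℓ) Qb r = φ.1 0 := by
  have h1 : ∀ σ : GQ, σ (φ.1 0) = φ.1 0 := by
    intro σ
    rw [← hH.equiv _ φ.2, map_zero]
  obtain ⟨q, hq⟩ := fixed_mem_range h1
  have := finite_H hH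
  have h2 : IsIntegral (RL ℓ) φ := Algebra.IsIntegral.isIntegral φ
  have h3 : IsIntegral (RL ℓ) (φ.1 0) := h2.map (evA H 0)
  rw [← hq] at h3
  have h4 : IsIntegral (RL ℓ) q :=
    (isIntegral_algHom_iff ((IsScalarTower.toAlgHom ℚ ℚ Qb).restrictScalars (RL ℓ))
      (algebraMap ℚ Qb).injective).mp h3
  obtain ⟨r, hr⟩ := IsIntegrallyClosed.isIntegral_iff.mp h4
  refine ⟨r, ?_⟩
  rw [← hq, ← hr, ← IsScalarTower.algebraMap_apply]

theorem counit_mem_bot (φ : H) : evA H 0 φ ∈ (⊥ : Subalgebra (RL ℓ) Qb) := by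
  obtain ⟨r, hr⟩ := counit_mem hH φ
  exact Algebra.mem_bot.mpr ⟨r, hr⟩

/-- counit -/
def counitA : H →ₐ[RL ℓ] RL ℓ :=
  ((Algebra.botEquivOfInjective (algebraMap_RL_injective ℓ)) : _ →ₐ[RL ℓ] _).comp
    ((evA H 0).codRestrict ⊥ (counit_mem_bot hH))

theorem algebraMap_counitA (φ : H) : algebraMap (RL ℓ) Qb (counitA hH φ) = φ.1 0 := by
  have h1 := (Algebra.botEquivOfInjective (algebraMap_RL_injective ℓ)).symm_apply_apply
    ⟨evA H 0 φ, counit_mem_bot hH φ⟩
  have h2 := congrArg Subtype.val h1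
  exact h2

end

end Fermat.Agent.H19
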