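import Fermat.Agent.H19.OT2B
import Fermat.Agent.H02F.ModHopf2

set_option autoImplicit false
set_option linter.unusedSectionVars false
set_option maxSynthPendingDepth 3

/-!
# No mod 2 system of odd level gives a representation with odd discriminant at `2`
-/

noncomputable section

namespace Fermat.Agent.H19

open AlgebraicCurve ModularCurve CongruenceSubgroup
open Fermat.Agent.H01 Fermat.Agent.H05 Fermat.Agent.H02F Fermat.Agent.H26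

/-- **A mod 2 eigensystem of odd level gives a Hopf order at 2.** -/
theorem hasHopf_of_system_odd {N : ℕ} [NeZero N] (hN : ¬ 2 ∣ N) {S : Finset ℕ} (h2S : 2 ∈ S)
    (hNS : ∀ q : ℕ, q.Prime → q ∣ N → q ∈ S) {k : Type} [Field k] [CharP k 2]
    (θ : CuspForm.heckeAlgebra N 2 (↑S : Set ℕ) →+* k)
    (r0 : GQ →* Matrix (Fin 2) (Fin 2) (ZMod 2))
    (hcont : ∃ L : IntermediateField ℚ (AlgebraicClosure ℚ), FiniteDimensional ℚ L ∧
      ∀ σ : GQ, (∀ x ∈ L, σ x = x) → r0 σ = 1)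
    (hirr : ∃ σ τ : GQ, r0 σ = !![1, 1; 0, 1] ∧ r0 τ = !![0, 1; 1, 0])
    (hθ : ∀ (ℓ : ℕ) (hℓ : ℓ.Prime) (hℓN : ¬ ℓ ∣ N) (hℓS : ℓ ∉ (↑S : Set ℕ)),
      ∀ A : ValuationSubring (AlgebraicClosure ℚ), A.LiesOverPrime ℓ →
        ∀ φ : GQ, A.IsFrobeniusAt φ ℓ →
          θ (CuspForm.heckeAlgebra.T hℓ hℓN hℓS) = ZMod.castHom (dvd_refl 2) k (r0 φ).trace) :
    HasHopf 2 (matAct r0) :=
  hasHopf_of_system h2S hNS θ r0 hcont hirr hθ fun m _ =>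
    Fermat.Agent.H02F.hasHopf_torsion_nat N Nat.prime_two hN (m := 2 ^ m)
      (pow_pos Nat.prime_two.pos m)

/-- **OT2**: a mod 2 representation with image `S₃` and discriminant of odd valuation at `2` does
not come from an odd level. -/
theorem even_of_system_odd {N : ℕ} [NeZero N] (hN : ¬ 2 ∣ N) {S : Finset ℕ} (h2S : 2 ∈ S)
    (hNS : ∀ q : ℕ, q.Prime → q ∣ N → q ∈ S) {k : Type} [Field k] [CharP k 2]
    (θ : CuspForm.heckeAlgebra N 2 (↑S : Set ℕ) →+* k)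
    (r0 : GQ →* Matrix (Fin 2) (Fin 2) (ZMod 2))
    (hcont : ∃ L : IntermediateField ℚ (AlgebraicClosure ℚ), FiniteDimensional ℚ L ∧
      ∀ σ : GQ, (∀ x ∈ L, σ x = x) → r0 σ = 1)
    (hirr : ∃ σ τ : GQ, r0 σ = !![1, 1; 0, 1] ∧ r0 τ = !![0, 1; 1, 0])
    (hθ : ∀ (ℓ : ℕ) (hℓ : ℓ.Prime) (hℓN : ¬ ℓ ∣ N) (hℓS : ℓ ∉ (↑S : Set ℕ)),
      ∀ A : ValuationSubring (AlgebraicClosure ℚ), A.LiesOverPrime ℓ →
        ∀ φ : GQ, A.IsFrobeniusAt φ ℓ →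
          θ (CuspForm.heckeAlgebra.T hℓ hℓN hℓS) = ZMod.castHom (dvd_refl 2) k (r0 φ).trace)
    {s : Qb} {c : ℚ} (hc : c ≠ 0) (hs : s ^ 2 = algebraMap ℚ Qb c)
    (hsign : ∀ σ : GQ, σ s = s ↔ (r0 σ = 1 ∨ (r0 σ).trace = 1)) : Even (padicValRat 2 c) :=
  even_of_hasHopf_matAct (hasHopf_of_system_odd hN h2S hNS θ r0 hcont hirr hθ) hc hs hsign

end Fermat.Agent.H19
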