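import Mathlib
import Fermat.Agent.H19.Stuck
import Fermat.Agent.TC.Sys5

set_option autoImplicit false
set_option linter.unusedSectionVars false
set_option linter.style.haveILetI false

/-!
# The unramified local condition, and levels at auxiliary primes
-/

namespace Fermat.Agent.H19.UR

open Fermat.Agent.H25 Fermat.Agent.H25.PR Fermat.Agent.CC Fermat.Agent.TW IsLocalRing Matrix
open Fermat.Agent.H05 Fermat.Agent.H25.TR Fermat.Agent.H25.TWM Fermat.Agent.H25.GD
open Fermat.Agent.H25.PT Fermat.Agent.H19 Fermat.Agent.H25.GE Fermat.Agent.H25.SB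
open Fermat.Agent.H04 (DN M2)
open scoped Pointwise

section Cond

variable {O : Type} [CommRing O] [IsLocalRing O]

/-- the unramified condition for deformations to the dual numbers -/
def UnrC (q : Nat.Primes) (s : GQ →* M2 (DN O)) : Prop :=
  ∀ τ ∈ (plv q q.2).inertiaSubgroupIn ℚ, s τ = 1

theorem FM_one' : FM (1 : M2 (DN O)) = 1 := by
  ext i j
  fin_cases i <;> fin_cases j <;> rfl

theorem SM_one' : SM (1 : M2 (DN O)) = 0 := by
  ext i j
  fin_cases i <;> fin_cases j <;> rfl

/-- the unramified local condition -/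
theorem lunr [Finite (ResidueField O)] {rb : GQ →* Mt (ResidueField O)}
    (hr : lev.isOpen rb.ker) (q : Nat.Primes) : LCond (plv q q.2) rb 0 (UnrC q) := by
  have hsm : lev.Smooth (Ad0 rb (1 : GQ →* ResidueField O)) := smooth_Ad0 hr fun g _ => rfl
  obtain ⟨h1, h2⟩ := card_unr_le (M := Ad0 rb (1 : GQ →* ResidueField O)) q.2 (plv_over q q.2)
    (frv_spec q q.2) hsm
  refine ⟨unr (plv q q.2) (Ad0 rb (1 : GQ →* ResidueField O)), h1,
    by rw [pow_zero, one_mul]; exact h2, fun S' s hs hU htr' hc => ?_⟩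
  refine ⟨_, rfl, fun g hg => ?_⟩
  apply Ad0.ext
  change SM (s (g : GQ)) * rb (g : GQ)⁻¹ = 0
  rw [hc g hg, SM_one', zero_mul]

end Cond

section Fam

variable {O : Type} [CommRing O] [IsLocalRing O] [IsNoetherianRing O]
    [IsAdicComplete (maximalIdeal O) O] {D : RD O (ResidueField O)}
    {S : Finset Nat.Primes} {bad : Finset ℕ} {κ : Type} [Finite κ] [Nonempty κ]
    (H : κ → CData D S bad) (hbar : HBar D S)

/-- elements acting trivially on all points -/
theorem CA_rho_eq_one {τ : GQ} (h : ∀ i x, ∀ g, (H i).t x (τ * g) = (H i).t x g) :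
    (CA H hbar).rho τ = 1 := by
  rw [(CA H hbar).rho_eq_one_iff]
  intro g
  refine ext_pt H hbar fun i x => ?_
  rw [pt_t, pt_t, h]

/-- the unramified condition for first order deformations of a family -/
theorem unrC_sHom (q : Nat.Primes)
    (h : ∀ i x, ∀ τ ∈ (plv q q.2).inertiaSubgroupIn ℚ, ∀ g, (H i).t x (τ * g) = (H i).t x g)
    {d : AR H hbar → ResidueField O} (hd : IsDer O (CA H hbar).resB d) :
    UnrC q (sHom hd (CA H hbar).rho) := by
  intro τ hτ
  rw [sHom_apply, CA_rho_eq_one H hbar (fun i x g => h i x τ hτ g)]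
  exact Matrix.map_one _ (map_zero _) (map_one _)

include hbar in
/-- the residual representation at elements acting trivially on all points -/
theorem rbar_eq_one {τ : GQ} (h : ∀ i x, ∀ g, (H i).t x (τ * g) = (H i).t x g) :
    D.rbar τ = 1 := by
  rw [← (CA H hbar).rho_res, CA_rho_eq_one H hbar h]
  exact Matrix.map_one _ (map_zero _) (map_one _)

end Fam

section Sq

variable {O k : Type} [CommRing O] [IsLocalRing O] [IsNoetherianRing O]
    [IsAdicComplete (maximalIdeal O) O] [Field k] {D : RD O k}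
    {S : Finset Nat.Primes} {bad : Finset ℕ}

/-- a residual inequality for squares of traces implies the same at every point -/
theorem t_sq_ne (H : CData D S bad) (hbar : HBar D S) {q : ℕ} {φ : GQ}
    (h : D.tbar φ ^ 2 ≠ ((q : k) + 1) ^ 2) (x : H.X) :
    H.t x φ ^ 2 ≠ ((q : H.P x) + 1) ^ 2 := by
  intro h0
  have h1 : (H.C hbar).resB ((H.C hbar).t φ ^ 2 - ((q : H.B) + 1) ^ 2) ≠ 0 := by
    rw [map_sub, map_pow, map_pow, (H.C hbar).res_t, map_add, map_natCast, map_one]
    exact sub_ne_zero.2 h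
  have h2 := ((H.C hbar).loc _ h1).map (H.ev x)
  rw [map_sub, map_pow, map_pow, H.ev_C hbar, map_add, map_natCast, map_one, h0, sub_self] at h2
  exact not_isUnit_zero h2

end Sq

section Lev

variable {O k : Type} [CommRing O] [IsDomain O] [IsDiscreteValuationRing O]
  [IsAdicComplete (maximalIdeal O) O] [Finite (ResidueField O)] [CharZero O] [Field k]
  {D : RD O k}
  {K : Type} [Field K] [IsAlgClosed K] [Algebra O K] [FaithfulSMul O K]
  {p : ℕ} [hp : Fact p.Prime] (hpO : (p : O) ∈ maximalIdeal O) (G : Geo p)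
  (hchi : IsCyc p D.chi) (hc : D.chi D.c = -1)
  {S : Finset Nat.Primes} {bad : Finset ℕ} (H : HIn D K p S bad)
  (hbar : HBar D S) (x : (H.cd hpO G hchi hc).X)

include hbar in
/-- points with squarefree level at `q` and `tr² ≠ (q+1)²` residually have level prime to `q` -/
theorem not_dvd_lvl_of_tr {q : ℕ} (hq : q.Prime) (hqp : q ≠ p)
    (hq2 : ¬ q * q ∣ (H.npt hpO G hchi hc x).N0) {A : ValuationSubring Qb}
    (hA : A.LiesOverPrime q) {φ : GQ} (hφ : A.IsFrobeniusAt φ q)
    (h : D.tbar φ ^ 2 ≠ ((q : k) + 1) ^ 2) :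
    ¬ q ∣ (H.npt hpO G hchi hc x).N0 :=
  (Fermat.Agent.TC.hin_not_dvd hpO G hchi hc H x hq hqp hq2 hA hφ
    (t_sq_ne (H.cd hpO G hchi hc) hbar h x)).1

include hbar in
/-- points with squarefree level at `q` and `tr² ≠ (q+1)²` residually are unramified at `q` -/
theorem unr_of_tr {q : ℕ} (hq : q.Prime) (hqp : q ≠ p)
    (hq2 : ¬ q * q ∣ (H.npt hpO G hchi hc x).N0) {A : ValuationSubring Qb}
    (hA : A.LiesOverPrime q) {φ : GQ} (hφ : A.IsFrobeniusAt φ q)
    (h : D.tbar φ ^ 2 ≠ ((q : k) + 1) ^ 2) {A' : ValuationSubring Qb}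
    (hA' : A'.LiesOverPrime q) {τ : GQ} (hτ : τ ∈ A'.inertiaSubgroupIn ℚ) (g : GQ) :
    (H.cd hpO G hchi hc).t x (τ * g) = (H.cd hpO G hchi hc).t x g :=
  Fermat.Agent.TC.hin_unr hpO G hchi hc H x hq hqp
    (not_dvd_lvl_of_tr hpO G hchi hc H hbar x hq hqp hq2 hA hφ h) hA' hτ g

end Lev

end Fermat.Agent.H19.UR
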