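import Mathlib
import Fermat.Agent.H19.LLp
import Fermat.Agent.TFin.Killer
import Fermat.Agent.H12.LL.NL
import Fermat.Agent.H13.LL.NewP

/-!
# The level lowering input of the modularity lifting theorem, semistable curves
-/

set_option autoImplicit false
set_option linter.unusedSectionVars false

noncomputable section

namespace Fermat.Agent.H19.LLp

open Fermat.Agent.TW Fermat.Agent.CC Fermat.Agent.Ell Fermat.Agent.H12.LL Fermat.Agent.TFin
open IsLocalRing CongruenceSubgroup

variable {W : WeierstrassCurve ℤ} {p : ℕ} [hp : Fact p.Prime]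

/-- existence of killers -/
theorem kill (hΔ : W.Δ ≠ 0) (hirr : W.ModRepIsIrreducible p) (G : H25.PT.Geo p) : Kill W p := by
  intro k _ ι D hD hDp L hL g hg q hq hqp hqL hqq hgood hne
  exact TFin.exists_killer_of_K1 hΔ hirr
    (by
      intro L _ g hg 𝔪 h𝔪 hp𝔪 bad hcong q hq hqp hqL hqq A hA φ hφ
      exact H19.newform_trace_sq_of_geo hΔ G hirr hg h𝔪 hp𝔪 bad hcong hq hqp hqL hqq hA hφ)
    hD hg hq hqp hqL hqq hgood hne ι

/-- **Black box 1 for semistable curves.** -/
theorem llprop {b : Prop} (hΔ : W.Δ ≠ 0) (hss : W.IsSemistableModel)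
    (hirr : W.ModRepIsIrreducible p) (hp2 : p ≠ 2) (G : H25.PT.Geo p)
    (hmode : ∀ St : Finset Nat.Primes, ModeIn W p b St) : LLprop W p b :=
  llprop_of hΔ hirr hp2 G (kill hΔ hirr G) (nLIn_of_semistable hss)
    (fun _ hq => newP W p hq) hmode

end Fermat.Agent.H19.LLp
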