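import Mathlib
import Fermat.Agent.H01.P2.Props
import Fermat.Agent.H24K.Final

/-!
# The switch at `5` with control at `5`, for curves with good reduction at `2`
-/

set_option autoImplicit false

namespace Fermat.Agent.P2

open WeierstrassCurve Fermat.Agent.H24 Fermat.Agent.H24K

/-- The 5-switch keeps the valuations of the discriminant at `2`, `3` and `5`. -/
theorem exists_switchGen (W : WeierstrassCurve ℤ) (hΔ : W.Δ ≠ 0) (hW : W.IsSemistableModel) :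
    ∃ W' : WeierstrassCurve ℤ, W'.Δ ≠ 0 ∧ W'.IsSemistableModel ∧ W'.ModRepIsIrreducible 3 ∧
      (∀ q : ℕ, q.Prime → q ≤ 5 → padicValInt q W'.Δ = padicValInt q W.Δ) ∧
      (∀ q : ℕ, q.Prime → (q : ℤ) ∣ W.Δ → (q : ℤ) ∣ W'.Δ) ∧
      ∀ ℓ : ℕ, ℓ.Prime → W.IsGoodPrimeFor ℓ → W'.IsGoodPrimeFor ℓ → ℓ ≠ 5 →
        (5 : ℤ) ∣ (W'.apOfModel ℓ - W.apOfModel ℓ) := by
  obtain ⟨n, hn, hX⟩ := Fermat.Agent.H07.hilbert W.c₄ W.c₆ W.Δ W.c_relation.symm hΔ (30 * W.Δ)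
    (mul_ne_zero (by norm_num) hΔ)
  have hDD := DD_ne_zero W.c₄ W.c₆ n
  have hΔ' : (fam W n).Δ ≠ 0 := by
    rw [fam_Δ_int W hΔ]; exact mul_ne_zero hΔ (pow_ne_zero 5 hDD)
  refine ⟨fam W n, hΔ', fam_semistable W hΔ hW n hn, ?_, ?_, ?_, ?_⟩
  · apply Fermat.Agent.H07.modThree_irreducible _ hΔ'
    intro X
    rw [fam_c₄, fam_c₆]
    exact hX X
  · intro q hq hq5
    have := Fact.mk hq
    have hq' := Nat.prime_iff_prime_int.mp hq
    have h30 : (q : ℤ) ∣ 30 := by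
      have h2 := hq.two_le
      interval_cases q
      · norm_num
      · norm_num
      · exact absurd hq (by decide)
      · norm_num
    have hqn : (q : ℤ) ∣ n := (h30.mul_right _).trans hn
    rw [fam_Δ_int W hΔ, padicValInt.mul hΔ (pow_ne_zero 5 hDD), Fermat.Agent.H07.Sel.val_zero (fun h =>
      not_dvd_DD hq _ _ _ hqn (hq'.dvd_of_dvd_pow h)), add_zero]
  · intro q hq h
    rw [fam_Δ_int W hΔ]; exact h.mul_right _
  · intro ℓ hℓ hg hg' h5
    exact fam_congr Fermat.Agent.Frob.ch_prop W n hn ℓ hℓ hg hg' h5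

/-- **(Q3, fourth part)** -/
theorem switch5Gen : Switch5Gen := by
  intro W hΔ hW _ _ _
  obtain ⟨W', h1, h2, h3, h4, -, h6⟩ := exists_switchGen W hΔ hW
  refine ⟨W', h1, h2, h3, ?_, fun ℓ hℓ _ h5 hg hg' => by exact_mod_cast h6 ℓ hℓ hg hg' h5⟩
  have h5 := h4 5 Nat.prime_five le_rfl
  intro h
  have e1 := (val_pos_iff Nat.prime_five h1).1 (by exact_mod_cast h)
  rw [h5] at e1
  exact_mod_cast (val_pos_iff Nat.prime_five hΔ).2 e1

end Fermat.Agent.P2
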