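import Fermat.Agent.H19.FlatHopf
import Fermat.Prelude.Def_GaloisRep_StrictOrdinary

set_option autoImplicit false
set_option linter.unusedSectionVars false

/-!
# Transport of the local deformation conditions
-/

noncomputable section

namespace Fermat.Agent.H19

open Fermat.Agent.H02F TensorProduct IsLocalRing

section Equiv

variable {A : Type} [CommRing A] [IsLocalRing A] {ρ ρ' : GaloisRepAdic A}

theorem equiv_conj (e : GaloisRepAdic.Equiv ρ ρ') (σ : GQ) :
    ρ'.ρ σ = e.toLinearEquiv.conj (ρ.ρ σ) := by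
  apply LinearMap.ext
  intro x
  rw [LinearEquiv.conj_apply_apply, e.map_apply, LinearEquiv.apply_symm_apply]

theorem isUnramifiedAt_of_isEquiv (h : ρ.IsEquiv ρ') {q : ℕ} (hq : ρ.IsUnramifiedAt q) :
    ρ'.IsUnramifiedAt q := by
  obtain ⟨e⟩ := h
  intro P hP σ hσ
  rw [equiv_conj e, hq P hP σ hσ]
  exact LinearEquiv.conj_id _

theorem isUnipotent_of_isEquiv (h : ρ.IsEquiv ρ') {q : ℕ} (hq : ρ.IsUnipotentOnInertiaAt q) :
    ρ'.IsUnipotentOnInertiaAt q := by
  obtain ⟨e⟩ := h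
  intro P hP σ hσ
  rw [equiv_conj e, LinearEquiv.charpoly_conj]
  exact hq P hP σ hσ

theorem detIsCyclotomic_of_isEquiv (h : ρ.IsEquiv ρ') {p : ℕ} (hp : ρ.DetIsCyclotomic p) :
    ρ'.DetIsCyclotomic p := by
  obtain ⟨e⟩ := h
  refine ⟨hp.1, fun n σ a hσ => ?_⟩
  rw [equiv_conj e, LinearEquiv.conj_apply, LinearMap.comp_assoc, LinearMap.det_conj]
  exact hp.2 n σ a hσ

/-- transport of a line -/
theorem line_of_equiv (e : GaloisRepAdic.Equiv ρ ρ') {L : Submodule A ρ.V}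
    (hL : ∃ b : Module.Basis (Fin 2) A ρ.V, L = A ∙ b 0) :
    ∃ b : Module.Basis (Fin 2) A ρ'.V, L.map (e.toLinearEquiv : ρ.V →ₗ[A] ρ'.V) = A ∙ b 0 := by
  obtain ⟨b, hb⟩ := hL
  refine ⟨b.map e.toLinearEquiv, ?_⟩
  rw [hb, Submodule.map_span, Set.image_singleton]
  rfl

theorem isOrdinaryAt_of_isEquiv (h : ρ.IsEquiv ρ') {p : ℕ} (hp : ρ.IsOrdinaryAt p) :
    ρ'.IsOrdinaryAt p := by
  obtain ⟨e⟩ := h
  intro P hP
  obtain ⟨L, hb, hD, hI⟩ := hp P hP
  refine ⟨_, line_of_equiv e hb, ?_, ?_⟩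
  · rintro σ hσ _ ⟨v, hv, rfl⟩
    exact ⟨ρ.ρ σ v, hD σ hσ v hv, e.map_apply σ v⟩
  · intro σ hσ v
    obtain ⟨v, rfl⟩ := e.toLinearEquiv.surjective v
    refine ⟨ρ.ρ σ v - v, hI σ hσ v, ?_⟩
    rw [map_sub]
    congr 1
    exact e.map_apply σ v

theorem isStrictOrdinaryAt_of_isEquiv (h : ρ.IsEquiv ρ') {p : ℕ} (hp : ρ.IsStrictOrdinaryAt p) :
    ρ'.IsStrictOrdinaryAt p := by
  obtain ⟨e⟩ := h
  refine ⟨hp.1, fun P hP => ?_⟩
  obtain ⟨L, hb, hD, hI, hxz⟩ := hp.2 P hP
  refine ⟨_, line_of_equiv e hb, ?_, ?_, ?_⟩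
  · rintro σ hσ _ ⟨v, hv, rfl⟩
    exact ⟨ρ.ρ σ v, hD σ hσ v hv, e.map_apply σ v⟩
  · intro σ hσ v
    obtain ⟨v, rfl⟩ := e.toLinearEquiv.surjective v
    refine ⟨ρ.ρ σ v - v, hI σ hσ v, ?_⟩
    rw [map_sub]
    congr 1
    exact e.map_apply σ v
  · intro σ hσ
    obtain ⟨x, z, h1, h2, h3⟩ := hxz σ hσ
    refine ⟨x, z, ?_, ?_, h3⟩
    · rintro _ ⟨w, hw, rfl⟩
      have := h1 w hw
      change ρ'.ρ σ (e.toLinearEquiv w) = x • e.toLinearEquiv w
      rw [← e.map_apply, this, map_smul]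
    · intro v
      obtain ⟨v, rfl⟩ := e.toLinearEquiv.surjective v
      refine ⟨ρ.ρ σ v - z • v, h2 v, ?_⟩
      change e.toLinearEquiv (ρ.ρ σ v - z • v) = _
      rw [map_sub, map_smul, e.map_apply]

/-- `HasHopf` for the levels of equivalent representations -/
theorem hasHopf_of_isEquiv (e : GaloisRepAdic.Equiv ρ ρ') {ℓ : ℕ} {I : Ideal A}
    (hI : HasHopf ℓ (levAct ρ I)) : HasHopf ℓ (levAct ρ' I) := by
  have h1 : (I • (⊤ : Submodule A ρ'.V)) ≤
      (I • (⊤ : Submodule A ρ.V)).comap (e.toLinearEquiv.symm : ρ'.V →ₗ[A] ρ.V) := by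
    rw [← Submodule.map_le_iff_le_comap, Submodule.map_smul'']
    exact Submodule.smul_mono le_rfl le_top
  let f : (ρ'.V ⧸ (I • (⊤ : Submodule A ρ'.V))) →ₗ[A] (ρ.V ⧸ (I • (⊤ : Submodule A ρ.V))) :=
    Submodule.mapQ _ _ (e.toLinearEquiv.symm : ρ'.V →ₗ[A] ρ.V) h1
  have hf : Function.Injective f := by
    rw [injective_iff_map_eq_zero]
    intro x hx
    obtain ⟨v, rfl⟩ := Submodule.Quotient.mk_surjective _ x
    change Submodule.Quotient.mk (e.toLinearEquiv.symm v) = 0 at hx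
    rw [Submodule.Quotient.mk_eq_zero] at hx ⊢
    have h2 : e.toLinearEquiv (e.toLinearEquiv.symm v) ∈
        (I • (⊤ : Submodule A ρ.V)).map (e.toLinearEquiv : ρ.V →ₗ[A] ρ'.V) :=
      Submodule.mem_map_of_mem hx
    rw [Submodule.map_smul'', LinearEquiv.apply_symm_apply] at h2
    exact Submodule.smul_mono le_rfl le_top h2
  refine HasHopf.of_injective hI f.toAddMonoidHom (fun σ x => ?_) hf
  obtain ⟨v, rfl⟩ := Submodule.Quotient.mk_surjective _ x
  change f (levAct ρ' I σ (Submodule.Quotient.mk v)) = levAct ρ I σ (f (Submodule.Quotient.mk v))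
  rw [levAct_mk]
  exact congrArg Submodule.Quotient.mk (e.symm.map_apply σ v)

theorem isFlatAt_of_isEquiv (h : ρ.IsEquiv ρ') {p : ℕ} (hp : ρ.IsFlatAt p) : ρ'.IsFlatAt p := by
  obtain ⟨e⟩ := h
  rw [isFlatAt_iff] at hp ⊢
  exact ⟨hp.1, fun I hI => hasHopf_of_isEquiv e (hp.2 I hI)⟩

end Equiv

section BaseChange

variable {A B : Type} [CommRing A] [IsLocalRing A] [CommRing B] [IsLocalRing B]
  {ρ : GaloisRepAdic A} (φ : A →+* B) (hφ : IsLocalHom φ)

include hφ in
theorem natCast_mem_of_isLocalHom {p : ℕ} (hp : (p : A) ∈ maximalIdeal A) :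
    (p : B) ∈ maximalIdeal B := by
  rw [← map_natCast φ, mem_maximalIdeal]
  exact map_nonunit φ (p : A) hp

theorem isUnramifiedAt_baseChangeAlong {q : ℕ} (hq : ρ.IsUnramifiedAt q) :
    (ρ.baseChangeAlong φ hφ).IsUnramifiedAt q := by
  intro P hP σ hσ
  let _ : Algebra A B := φ.toAlgebra
  change (ρ.ρ σ).baseChange B = 1
  rw [hq P hP σ hσ, LinearMap.baseChange_one]

theorem isUnipotent_baseChangeAlong {q : ℕ} (hq : ρ.IsUnipotentOnInertiaAt q) :
    (ρ.baseChangeAlong φ hφ).IsUnipotentOnInertiaAt q := by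
  intro P hP σ hσ
  let _ : Algebra A B := φ.toAlgebra
  change ((ρ.ρ σ).baseChange B).charpoly = _
  rw [LinearMap.charpoly_baseChange, hq P hP σ hσ]
  simp

theorem detIsCyclotomic_baseChangeAlong {p : ℕ} (hp : ρ.DetIsCyclotomic p) :
    (ρ.baseChangeAlong φ hφ).DetIsCyclotomic p := by
  refine ⟨natCast_mem_of_isLocalHom φ hφ hp.1, fun n σ a hσ => ?_⟩
  let _ : Algebra A B := φ.toAlgebra
  change LinearMap.det ((ρ.ρ σ).baseChange B) - _ ∈ _
  rw [LinearMap.det_baseChange]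
  have h1 := Ideal.mem_map_of_mem φ (hp.2 n σ a hσ)
  rw [Ideal.map_span, Set.image_singleton, map_natCast, map_sub, map_natCast] at h1
  exact h1

section Line

variable [Algebra A B] {V : Type} [AddCommGroup V] [Module A V]

theorem line_baseChange {L : Submodule A V} (hL : ∃ b : Module.Basis (Fin 2) A V, L = A ∙ b 0) :
    ∃ b : Module.Basis (Fin 2) B (B ⊗[A] V), L.baseChange B = B ∙ b 0 := by
  obtain ⟨b, hb⟩ := hL
  refine ⟨b.baseChange B, ?_⟩
  rw [hb, Submodule.baseChange_span, Set.image_singleton, Module.Basis.baseChange_apply]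
  rfl

/-- `f v - z v ∈ L` after base change -/
theorem sub_smul_mem_baseChange {L : Submodule A V} {f : V →ₗ[A] V} {z : A}
    (h : ∀ v, f v - z • v ∈ L) (v : B ⊗[A] V) :
    f.baseChange B v - algebraMap A B z • v ∈ L.baseChange B := by
  induction v using TensorProduct.induction_on with
  | zero => rw [map_zero, smul_zero, sub_zero]; exact zero_mem _
  | tmul b v =>
    have h1 : f.baseChange B (b ⊗ₜ v) - algebraMap A B z • (b ⊗ₜ[A] v) =
        b ⊗ₜ[A] (f v - z • v) := by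
      rw [LinearMap.baseChange_tmul, TensorProduct.tmul_sub, TensorProduct.tmul_smul,
        algebraMap_smul]
    rw [h1]
    exact Submodule.tmul_mem_baseChange_of_mem b (h v)
  | add x y hx hy =>
    have h1 : f.baseChange B (x + y) - algebraMap A B z • (x + y) =
        (f.baseChange B x - algebraMap A B z • x) + (f.baseChange B y - algebraMap A B z • y) := by
      rw [map_add, smul_add]; abel
    rw [h1]
    exact add_mem hx hy

theorem sub_mem_baseChange {L : Submodule A V} {f : V →ₗ[A] V}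
    (h : ∀ v, f v - v ∈ L) (v : B ⊗[A] V) : f.baseChange B v - v ∈ L.baseChange B := by
  have h1 : ∀ v, f v - (1 : A) • v ∈ L := fun v => by rw [one_smul]; exact h v
  have h2 := sub_smul_mem_baseChange (B := B) h1 v
  rwa [map_one, one_smul] at h2

theorem map_mem_baseChange {L : Submodule A V} {f : V →ₗ[A] V} (h : ∀ v ∈ L, f v ∈ L)
    (v : B ⊗[A] V) (hv : v ∈ L.baseChange B) : f.baseChange B v ∈ L.baseChange B := by
  rw [Submodule.baseChange_eq_span] at hv
  induction hv using Submodule.span_induction with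
  | mem x hx =>
    obtain ⟨w, hw, rfl⟩ := hx
    change f.baseChange B ((1 : B) ⊗ₜ[A] w) ∈ _
    rw [LinearMap.baseChange_tmul]
    exact Submodule.tmul_mem_baseChange_of_mem 1 (h w hw)
  | zero => rw [map_zero]; exact zero_mem _
  | add x y _ _ hx hy => rw [map_add]; exact add_mem hx hy
  | smul b x _ hx => rw [map_smul]; exact Submodule.smul_mem _ b hx

theorem eq_smul_baseChange {L : Submodule A V} {f : V →ₗ[A] V} {z : A}
    (h : ∀ v ∈ L, f v = z • v) (v : B ⊗[A] V) (hv : v ∈ L.baseChange B) :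
    f.baseChange B v = algebraMap A B z • v := by
  rw [Submodule.baseChange_eq_span] at hv
  induction hv using Submodule.span_induction with
  | mem x hx =>
    obtain ⟨w, hw, rfl⟩ := hx
    change f.baseChange B ((1 : B) ⊗ₜ[A] w) = algebraMap A B z • ((1 : B) ⊗ₜ[A] w)
    rw [LinearMap.baseChange_tmul, h w hw, TensorProduct.tmul_smul, algebraMap_smul]
  | zero => rw [map_zero, smul_zero]
  | add x y _ _ hx hy => rw [map_add, hx, hy, smul_add]
  | smul b x _ hx => rw [map_smul, hx, smul_comm]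

end Line

theorem isOrdinaryAt_baseChangeAlong {p : ℕ} (hp : ρ.IsOrdinaryAt p) :
    (ρ.baseChangeAlong φ hφ).IsOrdinaryAt p := by
  intro P hP
  let _ : Algebra A B := φ.toAlgebra
  obtain ⟨L, hb, hD, hI⟩ := hp P hP
  refine ⟨L.baseChange B, line_baseChange hb, fun σ hσ v hv => ?_, fun σ hσ v => ?_⟩
  · exact map_mem_baseChange (hD σ hσ) v hv
  · exact sub_mem_baseChange (hI σ hσ) v

theorem isStrictOrdinaryAt_baseChangeAlong {p : ℕ} (hp : ρ.IsStrictOrdinaryAt p) :
    (ρ.baseChangeAlong φ hφ).IsStrictOrdinaryAt p := by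
  refine ⟨natCast_mem_of_isLocalHom φ hφ hp.1, fun P hP => ?_⟩
  let _ : Algebra A B := φ.toAlgebra
  obtain ⟨L, hb, hD, hI, hxz⟩ := hp.2 P hP
  refine ⟨L.baseChange B, line_baseChange hb, fun σ hσ v hv => ?_, fun σ hσ v => ?_,
    fun σ hσ => ?_⟩
  · exact map_mem_baseChange (hD σ hσ) v hv
  · exact sub_mem_baseChange (hI σ hσ) v
  · obtain ⟨x, z, h1, h2, h3⟩ := hxz σ hσ
    refine ⟨φ x, φ z, fun w hw => eq_smul_baseChange h1 w hw,
      fun v => sub_smul_mem_baseChange h2 v, fun n a hna => ?_⟩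
    have h4 := Ideal.mem_map_of_mem φ (h3 n a hna)
    rw [Ideal.map_span, Set.image_singleton, map_natCast, map_sub, map_mul, map_natCast] at h4
    exact h4

/-- the diagonal action on functions -/
def piAct (ι : Type*) {M : Type*} [AddCommGroup M] (act : GQ →* AddMonoid.End M) :
    GQ →* AddMonoid.End (ι → M) where
  toFun σ := AddMonoidHom.mk' (fun y i => act σ (y i)) (fun y z => by
    funext i
    rw [Pi.add_apply, map_add]
    rfl)
  map_one' := by
    apply AddMonoidHom.ext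
    intro y
    funext i
    change act 1 (y i) = y i
    rw [map_one]
    rfl
  map_mul' σ τ := by
    apply AddMonoidHom.ext
    intro y
    funext i
    change act (σ * τ) (y i) = act σ (act τ (y i))
    rw [map_mul]
    rfl

/-- flatness of the levels after base change -/
theorem hasHopf_baseChangeAlong {ℓ : ℕ}
    (hρ : ∀ I : Ideal A, Finite (A ⧸ I) → HasHopf ℓ (levAct ρ I)) (J : Ideal B) [Finite (B ⧸ J)] :
    HasHopf ℓ (levAct (ρ.baseChangeAlong φ hφ) J) := by
  classical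
  let _ : Algebra A B := φ.toAlgebra
  let I : Ideal A := J.comap φ
  have hfin : Finite (A ⧸ I) := by
    refine Finite.of_injective (Ideal.quotientMap J φ le_rfl) ?_
    exact Ideal.quotientMap_injective
  have h1 : HasHopf ℓ (levAct ρ I) := hρ I hfin
  let W := (ρ.baseChangeAlong φ hφ).V ⧸ (J • (⊤ : Submodule B (ρ.baseChangeAlong φ hφ).V))
  let f : B → ρ.V →ₛₗ[φ] W := fun b =>
    { toFun := fun v => Submodule.Quotient.mk (b ⊗ₜ[A] v : B ⊗[A] ρ.V)
      map_add' := fun v w => by rw [TensorProduct.tmul_add]; rfl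
      map_smul' := fun a v => by
        rw [TensorProduct.tmul_smul, ← algebraMap_smul B a (b ⊗ₜ[A] v : B ⊗[A] ρ.V)]
        rfl }
  have hf : ∀ b, (I • (⊤ : Submodule A ρ.V)) ≤ LinearMap.ker (f b) := by
    intro b
    rw [Submodule.smul_le]
    intro a ha v _
    rw [LinearMap.mem_ker, LinearMap.map_smulₛₗ]
    obtain ⟨w, hw⟩ := Submodule.Quotient.mk_surjective _ (f b v)
    rw [← hw, ← Submodule.Quotient.mk_smul, Submodule.Quotient.mk_eq_zero]
    exact Submodule.smul_mem_smul ha Submodule.mem_top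
  let g : B → (ρ.V ⧸ (I • (⊤ : Submodule A ρ.V))) →ₛₗ[φ] W := fun b =>
    Submodule.liftQ _ (f b) (hf b)
  let s : B ⧸ J → B := fun x => (Ideal.Quotient.mk_surjective x).choose
  have hs : ∀ x, Ideal.Quotient.mk J (s x) = x := fun x =>
    (Ideal.Quotient.mk_surjective x).choose_spec
  have : Fintype (B ⧸ J) := Fintype.ofFinite _
  let Φ : ((B ⧸ J) → (ρ.V ⧸ (I • (⊤ : Submodule A ρ.V)))) →+ W :=
    ∑ x : B ⧸ J, (g (s x)).toAddMonoidHom.comp (Pi.evalAddMonoidHom _ x)
  have hΦ : ∀ y, Φ y = ∑ x : B ⧸ J, g (s x) (y x) := by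
    intro y
    change (∑ x : B ⧸ J, (g (s x)).toAddMonoidHom.comp (Pi.evalAddMonoidHom _ x)) y = _
    rw [AddMonoidHom.finsetSum_apply]
    rfl
  have h2 : HasHopf ℓ (piAct (B ⧸ J) (levAct ρ I)) := by
    refine HasHopf.of_family (ι := B ⧸ J) (N := fun _ => ρ.V ⧸ (I • (⊤ : Submodule A ρ.V)))
      (fun _ => h1) (fun x => Pi.evalAddMonoidHom _ x) (fun _ _ _ => rfl) fun y hy => ?_
    funext x
    exact hy x
  have hgact : ∀ (b : B) (σ : GQ) (v : ρ.V ⧸ (I • (⊤ : Submodule A ρ.V))),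
      g b (levAct ρ I σ v) = levAct (ρ.baseChangeAlong φ hφ) J σ (g b v) := by
    intro b σ v
    obtain ⟨v, rfl⟩ := Submodule.Quotient.mk_surjective _ v
    rw [levAct_mk]
    change Submodule.Quotient.mk (b ⊗ₜ[A] (ρ.ρ σ v) : B ⊗[A] ρ.V) =
      Submodule.Quotient.mk ((ρ.ρ σ).baseChange B (b ⊗ₜ[A] v))
    rw [LinearMap.baseChange_tmul]
  refine HasHopf.of_surjective h2 Φ (fun σ y => ?_) ?_
  · rw [hΦ, hΦ, map_sum]
    refine Finset.sum_congr rfl fun x _ => ?_
    exact hgact _ _ _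
  · intro w
    obtain ⟨t, rfl⟩ := Submodule.Quotient.mk_surjective _ w
    change ∃ a, Φ a = Submodule.Quotient.mk (t : B ⊗[A] ρ.V)
    have hrange : ∀ t : B ⊗[A] ρ.V, (Submodule.Quotient.mk t : W) ∈ Φ.range := by
      intro t
      induction t using TensorProduct.induction_on with
      | zero => exact zero_mem _
      | tmul b v =>
        refine ⟨Pi.single (Ideal.Quotient.mk J b) (Submodule.Quotient.mk v), ?_⟩
        rw [hΦ, Finset.sum_eq_single (Ideal.Quotient.mk J b)]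
        · rw [Pi.single_eq_same]
          change Submodule.Quotient.mk (s (Ideal.Quotient.mk J b) ⊗ₜ[A] v : B ⊗[A] ρ.V) = _
          have h3 : s (Ideal.Quotient.mk J b) - b ∈ J := by
            rw [← Ideal.Quotient.mk_eq_mk_iff_sub_mem, hs]
          have h4 : (s (Ideal.Quotient.mk J b) ⊗ₜ[A] v - b ⊗ₜ[A] v : B ⊗[A] ρ.V) =
              (s (Ideal.Quotient.mk J b) - b) • ((1 : B) ⊗ₜ[A] v) := by
            rw [← TensorProduct.sub_tmul, TensorProduct.smul_tmul', smul_eq_mul, mul_one]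
          have h5 : (s (Ideal.Quotient.mk J b) - b) • ((1 : B) ⊗ₜ[A] v : B ⊗[A] ρ.V) ∈
              J • (⊤ : Submodule B (B ⊗[A] ρ.V)) :=
            Submodule.smul_mem_smul h3 Submodule.mem_top
          rw [← h4] at h5
          exact (Submodule.Quotient.eq
            (J • (⊤ : Submodule B (ρ.baseChangeAlong φ hφ).V))).mpr h5
        · intro x _ hx
          rw [Pi.single_eq_of_ne hx, map_zero]
        · intro h; exact absurd (Finset.mem_univ _) h
      | add x y hx hy => exact add_mem hx hy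
    exact hrange t

theorem isFlatAt_baseChangeAlong {p : ℕ} [Finite (ResidueField B)] (hp : ρ.IsFlatAt p) :
    (ρ.baseChangeAlong φ hφ).IsFlatAt p := by
  rw [isFlatAt_iff] at hp ⊢
  exact ⟨inferInstance, fun J hJ => hasHopf_baseChangeAlong φ hφ hp.2 J⟩

end BaseChange

section Conditions

variable {𝒪 A B : Type} [CommRing 𝒪] [CommRing A] [IsLocalRing A] [CommRing B] [IsLocalRing B]
  [Algebra 𝒪 A] [Algebra 𝒪 B] {p : ℕ} {S : Finset ℕ}

theorem flatCondition_of_isEquiv {ρ ρ' : GaloisRepAdic A} (e : ρ.IsEquiv ρ')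
    (h : GaloisRep.flatCondition 𝒪 p S ρ) : GaloisRep.flatCondition 𝒪 p S ρ' :=
  ⟨detIsCyclotomic_of_isEquiv e h.1, isFlatAt_of_isEquiv e h.2.1,
    fun q hq hqS => isUnramifiedAt_of_isEquiv e (h.2.2 q hq hqS)⟩

theorem flatCondition_baseChangeAlong [Finite (ResidueField B)] {ρ : GaloisRepAdic A} (φ : A →+* B)
    (hφ : IsLocalHom φ) (h : GaloisRep.flatCondition 𝒪 p S ρ) :
    GaloisRep.flatCondition 𝒪 p S (ρ.baseChangeAlong φ hφ) :=
  ⟨detIsCyclotomic_baseChangeAlong φ hφ h.1, isFlatAt_baseChangeAlong φ hφ h.2.1,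
    fun q hq hqS => isUnramifiedAt_baseChangeAlong φ hφ (h.2.2 q hq hqS)⟩

theorem strictOrdinaryCondition_of_isEquiv {ρ ρ' : GaloisRepAdic A} (e : ρ.IsEquiv ρ')
    (h : GaloisRep.strictOrdinaryCondition 𝒪 p S ρ) : GaloisRep.strictOrdinaryCondition 𝒪 p S ρ' :=
  ⟨detIsCyclotomic_of_isEquiv e h.1, isStrictOrdinaryAt_of_isEquiv e h.2.1,
    fun q hq hqS => isUnramifiedAt_of_isEquiv e (h.2.2 q hq hqS)⟩

theorem strictOrdinaryCondition_baseChangeAlong {ρ : GaloisRepAdic A} (φ : A →+* B)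
    (hφ : IsLocalHom φ) (h : GaloisRep.strictOrdinaryCondition 𝒪 p S ρ) :
    GaloisRep.strictOrdinaryCondition 𝒪 p S (ρ.baseChangeAlong φ hφ) :=
  ⟨detIsCyclotomic_baseChangeAlong φ hφ h.1, isStrictOrdinaryAt_baseChangeAlong φ hφ h.2.1,
    fun q hq hqS => isUnramifiedAt_baseChangeAlong φ hφ (h.2.2 q hq hqS)⟩

end Conditions

end Fermat.Agent.H19
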