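import Mathlib
import Fermat.Prelude.Def_ModularForm_HeckeOperatorForms

set_option autoImplicit false
set_option linter.unusedSectionVars false

/-!
# The strict Hecke bound `|a_q| < q + 1` in weight 2
-/

noncomputable section

namespace Fermat.Agent.H19

open UpperHalfPlane Filter Topology ModularForm ModularGroup Matrix.SpecialLinearGroup
open CongruenceSubgroup
open scoped MatrixGroups Modular ModularForm

/-- A continuous nonnegative function on `ℍ`, invariant under a finite index subgroup and tending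
to zero at all cusps attains its maximum. -/
theorem exists_max_of_cuspidal {P : ℍ → ℝ} (hP : Continuous P)
    (hzero : ∀ g : SL(2, ℤ), Tendsto (fun τ => P (g • τ)) atImInfty (𝓝 0))
    {Γ : Subgroup SL(2, ℤ)} [Finite (SL(2, ℤ) ⧸ Γ)] (hinv : ∀ g ∈ Γ, ∀ τ, P (g • τ) = P τ)
    {τ1 : ℍ} (h1 : 0 < P τ1) : ∃ τ0, ∀ τ, P τ ≤ P τ0 := by
  classical
  let X := SL(2, ℤ) ⧸ Γ
  have hy : ∀ x : X, ∃ y : ℝ, ∀ τ : ℍ, y ≤ τ.im → P ((Quotient.out x)⁻¹ • τ) < P τ1 := by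
    intro x
    have h2 := (hzero (Quotient.out x)⁻¹).eventually (gt_mem_nhds h1)
    rw [atImInfty, eventually_comap, eventually_atTop] at h2
    obtain ⟨y, hy⟩ := h2
    exact ⟨y, fun τ hτ => hy _ hτ τ rfl⟩
  choose y hy using hy
  have : Nonempty X := ⟨((1 : SL(2, ℤ)) : SL(2, ℤ) ⧸ Γ)⟩
  obtain ⟨x1, hx1⟩ := Finite.exists_max y
  let K := truncatedFundamentalDomain (y x1)
  have hcont : ∀ x : X, Continuous (fun τ : ℍ => P ((Quotient.out x)⁻¹ • τ)) := by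
    intro x
    simp only [sl_moeb]
    fun_prop
  have hred : ∀ τ : ℍ, ∃ (x : X) (κ : ℍ), κ ∈ 𝒟 ∧ P τ = P ((Quotient.out x)⁻¹ • κ) := by
    intro τ
    obtain ⟨g, hg⟩ := exists_smul_mem_fd τ
    refine ⟨(g : SL(2, ℤ) ⧸ Γ), g • τ, hg, ?_⟩
    have h2 : (Quotient.out (g : SL(2, ℤ) ⧸ Γ))⁻¹ * g ∈ Γ :=
      QuotientGroup.eq.mp (QuotientGroup.out_eq' _)
    rw [← mul_smul, hinv _ h2]
  have hsmall : ∀ (x : X) (κ : ℍ), κ ∈ 𝒟 → κ ∉ K → P ((Quotient.out x)⁻¹ • κ) < P τ1 := by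
    intro x κ hκ hκK
    refine hy x κ ((hx1 x).trans ?_)
    by_contra hlt
    push Not at hlt
    exact hκK ⟨hκ, hlt.le⟩
  have hKne : K.Nonempty := by
    obtain ⟨x, κ, hκ, h2⟩ := hred τ1
    by_contra hem
    have h3 := hsmall x κ hκ (fun h => hem ⟨κ, h⟩)
    rw [← h2] at h3
    exact lt_irrefl _ h3
  have hmax : ∀ x : X, ∃ κ ∈ K, IsMaxOn (fun τ : ℍ => P ((Quotient.out x)⁻¹ • τ)) K κ := fun x =>
    (isCompact_truncatedFundamentalDomain (y x1)).exists_isMaxOn hKne (hcont x).continuousOn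
  choose κ hκ hκmax using hmax
  obtain ⟨x0, hx0⟩ := Finite.exists_max (fun x : X => P ((Quotient.out x)⁻¹ • κ x))
  have hle1 : P τ1 ≤ P ((Quotient.out x0)⁻¹ • κ x0) := by
    obtain ⟨x, k, hk, h2⟩ := hred τ1
    by_cases hkK : k ∈ K
    · rw [h2]
      exact (hκmax x hkK).trans (hx0 x)
    · have h3 := hsmall x k hk hkK
      rw [← h2] at h3
      exact absurd h3 (lt_irrefl _)
  refine ⟨(Quotient.out x0)⁻¹ • κ x0, fun τ => ?_⟩
  obtain ⟨x, k, hk, h2⟩ := hred τ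
  by_cases hkK : k ∈ K
  · rw [h2]
    exact (hκmax x hkK).trans (hx0 x)
  · rw [h2]
    exact (hsmall x k hk hkK).le.trans hle1

/-- The core of the argument. -/
theorem lt_of_max {ι : Type*} [Finite ι] {h : ι → ℍ → ℝ} {H : ℝ} (hH : 0 < H)
    (hle : ∀ i τ, h i τ ≤ H) {i0 : ι} {τ0 : ℍ} (h0 : h i0 τ0 = H)
    (hdec : ∀ i, Tendsto (h i) atImInfty (𝓝 0)) (s : ι → ι) {q : ℕ} (hq : 1 < q) {A : ℝ}
    (hrel : ∀ i τ, A * h i τ ≤ q * H + h (s i) (heckeDiagMatrix q • τ)) : A < q + 1 := by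
  by_contra hA
  push Not at hA
  have hq0 : q ≠ 0 := by omega
  have hstep : ∀ i τ, h i τ = H → h (s i) (heckeDiagMatrix q • τ) = H := by
    intro i τ hi
    refine le_antisymm (hle _ _) ?_
    have h1 := hrel i τ
    rw [hi] at h1
    have h2 : ((q : ℝ) + 1) * H ≤ A * H := mul_le_mul_of_nonneg_right hA hH.le
    linarith
  have hiter : ∀ n : ℕ, ∃ (i : ι) (τ : ℍ), h i τ = H ∧ τ.im = (q : ℝ) ^ n * τ0.im := by
    intro n
    induction n with
    | zero => exact ⟨i0, τ0, h0, by simp⟩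
    | succ n ih =>
      obtain ⟨i, τ, h1, h2⟩ := ih
      refine ⟨s i, heckeDiagMatrix q • τ, hstep i τ h1, ?_⟩
      have h3 := congrArg Complex.im (coe_heckeDiagMatrix_smul hq0 τ)
      rw [UpperHalfPlane.coe_im] at h3
      rw [h3, pow_succ]
      simp only [Complex.mul_im, Complex.natCast_re, Complex.natCast_im, zero_mul, add_zero,
        UpperHalfPlane.coe_im, h2]
      ring
  have hy : ∀ i, ∃ y : ℝ, ∀ τ : ℍ, y ≤ τ.im → h i τ < H := by
    intro i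
    have h2 := (hdec i).eventually (gt_mem_nhds hH)
    rw [atImInfty, eventually_comap, eventually_atTop] at h2
    obtain ⟨y, hy⟩ := h2
    exact ⟨y, fun τ hτ => hy _ hτ τ rfl⟩
  choose y hy using hy
  have : Nonempty ι := ⟨i0⟩
  obtain ⟨i1, hi1⟩ := Finite.exists_max y
  obtain ⟨n, hn⟩ := pow_unbounded_of_one_lt (y i1 / τ0.im) (by exact_mod_cast hq : (1 : ℝ) < q)
  obtain ⟨i, τ, h1, h2⟩ := hiter n
  have h3 : y i ≤ τ.im := by
    rw [h2]
    rw [div_lt_iff₀ τ0.im_pos] at hn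
    exact (hi1 i).trans hn.le
  exact absurd h1 (hy i τ h3).ne

/-- the invariant size of a weight two form -/
def sz (f : ℍ → ℂ) (τ : ℍ) : ℝ := ‖f τ‖ * τ.im

theorem sz_nonneg (f : ℍ → ℂ) (τ : ℍ) : 0 ≤ sz f τ := mul_nonneg (norm_nonneg _) τ.im_pos.le

theorem sz_sq (f : ℍ → ℂ) (τ : ℍ) : sz f τ ^ 2 = ‖petersson 2 f f τ‖ := by
  rw [sz, petersson, norm_mul, norm_mul, Complex.norm_conj, norm_zpow, Complex.norm_real,
    Real.norm_of_nonneg τ.im_pos.le, mul_pow]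
  norm_cast
  ring

theorem sz_eq (f : ℍ → ℂ) (τ : ℍ) : sz f τ = Real.sqrt ‖petersson 2 f f τ‖ := by
  rw [← sz_sq, Real.sqrt_sq (sz_nonneg f τ)]

theorem rel_heckeT {f : ℍ → ℂ} {q : ℕ} (hq : q ≠ 0) {a : ℂ}
    (ha : ∀ τ, heckeT 2 q f τ = a * f τ) {H : ℝ} (hH : ∀ τ, sz f τ ≤ H) (τ : ℍ) :
    ‖a‖ * sz f τ ≤ q * H + sz f (heckeDiagMatrix q • τ) := by
  have hq' : (0 : ℝ) < q := by exact_mod_cast Nat.pos_of_ne_zero hq
  have h1 : ‖a‖ * sz f τ = ‖heckeT 2 q f τ‖ * τ.im := by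
    rw [ha, norm_mul, sz, mul_assoc]
  rw [h1, heckeT_apply 2 hq]
  have him1 : ∀ j : ℕ, (heckeMatrix q j • τ).im = τ.im / q := by
    intro j
    have h3 := congrArg Complex.im (coe_heckeMatrix_smul hq j τ)
    rw [UpperHalfPlane.coe_im] at h3
    rw [h3]
    simp
  have him2 : (heckeDiagMatrix q • τ).im = q * τ.im := by
    have h3 := congrArg Complex.im (coe_heckeDiagMatrix_smul hq τ)
    rw [UpperHalfPlane.coe_im] at h3
    rw [h3]
    simp
  have h2 : ‖(q : ℂ)⁻¹ * ∑ j ∈ Finset.range q, f (heckeMatrix q j • τ)‖ * τ.im ≤ q * H := by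
    rw [norm_mul, norm_inv, Complex.norm_natCast]
    calc (q : ℝ)⁻¹ * ‖∑ j ∈ Finset.range q, f (heckeMatrix q j • τ)‖ * τ.im
        ≤ (q : ℝ)⁻¹ * (∑ j ∈ Finset.range q, ‖f (heckeMatrix q j • τ)‖) * τ.im := by
          have := τ.im_pos
          gcongr
          exact norm_sum_le _ _
      _ = ∑ j ∈ Finset.range q, sz f (heckeMatrix q j • τ) := by
          rw [Finset.mul_sum, Finset.sum_mul]
          refine Finset.sum_congr rfl fun j _ => ?_
          rw [sz, him1]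
          ring
      _ ≤ ∑ j ∈ Finset.range q, H := Finset.sum_le_sum fun j _ => hH _
      _ = q * H := by rw [Finset.sum_const, Finset.card_range, nsmul_eq_mul]
  have h3 : ‖(q : ℂ) ^ ((2 : ℤ) - 1) * f (heckeDiagMatrix q • τ)‖ * τ.im =
      sz f (heckeDiagMatrix q • τ) := by
    have : (2 : ℤ) - 1 = 1 := by norm_num
    rw [this, zpow_one, norm_mul, Complex.norm_natCast, sz, him2]
    ring
  calc _ ≤ (‖(q : ℂ)⁻¹ * ∑ j ∈ Finset.range q, f (heckeMatrix q j • τ)‖ +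
        ‖(q : ℂ) ^ ((2 : ℤ) - 1) * f (heckeDiagMatrix q • τ)‖) * τ.im :=
          mul_le_mul_of_nonneg_right (norm_add_le _ _) τ.im_pos.le
    _ ≤ _ := by rw [add_mul, h3]; linarith

section Cusp

variable {N : ℕ} [NeZero N]

open ConjAct Pointwise in
theorem isZeroAtImInfty_petersson {Γ : Subgroup (GL (Fin 2) ℝ)} [Γ.IsArithmetic] (f : CuspForm Γ 2)
    (g : SL(2, ℤ)) : Tendsto (fun τ => ‖petersson 2 f f (g • τ)‖) atImInfty (𝓝 0) := by
  rw [← tendsto_zero_iff_norm_tendsto_zero]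
  simp_rw [← UpperHalfPlane.petersson_slash_SL]
  have : ((ConjAct.toConjAct (g : GL (Fin 2) ℝ)⁻¹) • Γ).IsArithmetic := by
    simpa [(show Rat.castHom ℝ = algebraMap ℚ ℝ by rfl), map_inv, map_mapGL]
      using! Subgroup.IsArithmetic.conj Γ (mapGL ℚ g)⁻¹
  exact (CuspFormClass.zero_at_infty <| CuspForm.translate f g).petersson_isZeroAtImInfty_left 2 _
    (ModularForm.translate f g)

/-- **Strict Hecke bound** in weight two. -/
theorem norm_lt_of_heckeT {f : CuspForm (Gamma0 N) 2} (hf : f ≠ 0) {q : ℕ} (hq : 1 < q) {a : ℂ}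
    (ha : ∀ τ, heckeT 2 q f τ = a * f τ) : ‖a‖ < q + 1 := by
  have hne : ∃ τ1, f τ1 ≠ 0 := by
    by_contra hcon
    push Not at hcon
    exact hf (DFunLike.ext _ _ hcon)
  obtain ⟨τ1, hτ1⟩ := hne
  have hpos : 0 < ‖petersson 2 f f τ1‖ := by
    rw [← sz_sq]
    exact pow_pos (mul_pos (norm_pos_iff.mpr hτ1) τ1.im_pos) 2
  have hfin : Finite (SL(2, ℤ) ⧸ Gamma0 N) := inferInstance
  obtain ⟨τ0, hτ0⟩ := exists_max_of_cuspidal (P := fun τ => ‖petersson 2 f f τ‖)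
    (by fun_prop) (fun g => isZeroAtImInfty_petersson f g) (Γ := Gamma0 N)
    (fun g hg τ => SlashInvariantFormClass.norm_petersson_smul
      (Subgroup.mem_map_of_mem (mapGL ℝ) hg)) hpos
  have hmax : ∀ τ, sz f τ ≤ sz f τ0 := by
    intro τ
    rw [sz_eq, sz_eq]
    exact Real.sqrt_le_sqrt (hτ0 τ)
  have hH : 0 < sz f τ0 :=
    lt_of_lt_of_le (mul_pos (norm_pos_iff.mpr hτ1) τ1.im_pos) (hmax τ1)
  refine lt_of_max (ι := Unit) (h := fun _ => sz f) hH (fun _ τ => hmax τ) (i0 := ()) rfl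
    (fun _ => ?_) (fun _ => ()) hq (A := ‖a‖) (fun _ τ => rel_heckeT (by omega) ha hmax τ)
  have h1 := (Real.continuous_sqrt.tendsto 0).comp (isZeroAtImInfty_petersson f 1)
  rw [Real.sqrt_zero] at h1
  refine h1.congr fun τ => ?_
  rw [Function.comp_apply, one_smul, sz_eq]

end Cusp

end Fermat.Agent.H19
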