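import Mathlib
import Fermat.Agent.H02F.HopfDef
import Fermat.Agent.H51.QbarGalois

set_option autoImplicit false
set_option linter.unusedSectionVars false

/-!
# Hopf orders: linear algebra

`R = ℤ_(ℓ)`, `M` a finite Galois module, equivariant functions `M → ℚ̄`.
-/

noncomputable section

namespace Fermat.Agent.H19

open Fermat.Agent.H02F TensorProduct

section Subring

variable (R : Subring ℚ)

theorem inv_den_mem {q : ℚ} (hq : q ∈ R) : ((q.den : ℚ))⁻¹ ∈ R := by
  have hcop : IsCoprime (q.num) (q.den : ℤ) := by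
    rw [Int.isCoprime_iff_gcd_eq_one]
    exact q.reduced
  obtain ⟨u, v, huv⟩ := hcop
  have hden : (q.den : ℚ) ≠ 0 := by exact_mod_cast q.den_nz
  have : ((q.den : ℚ))⁻¹ = u * q + v := by
    have h1 : (u : ℚ) * q.num + v * q.den = 1 := by exact_mod_cast huv
    have h2 : q * q.den = q.num := Rat.mul_den_eq_num q
    rw [← h2] at h1
    field_simp
    linear_combination -h1
  rw [this]
  exact R.add_mem (R.mul_mem (intCast_mem R u) hq) (intCast_mem R v)

/-- every subring of `ℚ` is a PID -/
theorem isPrincipalIdealRing_subring : IsPrincipalIdealRing R := by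
  refine ⟨fun I => ?_⟩
  let J := I.comap (Int.castRingHom R)
  obtain ⟨d, hd⟩ := (IsPrincipalIdealRing.principal J).principal
  refine ⟨(d : R), le_antisymm ?_ ?_⟩
  · intro q hq
    have hden : ((q : ℚ).den : ℚ) ≠ 0 := by exact_mod_cast (q : ℚ).den_nz
    have h1 : ((q : ℚ).num : R) ∈ I := by
      have : ((q : ℚ).num : R) = ((q : ℚ).den : R) * q := by
        apply Subtype.ext
        push_cast
        rw [mul_comm]
        exact (Rat.mul_den_eq_num (q : ℚ)).symm
      rw [this]
      exact I.mul_mem_left _ hq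
    have h2 : (q : ℚ).num ∈ J := h1
    rw [hd, Submodule.mem_span_singleton] at h2
    obtain ⟨c, hc⟩ := h2
    rw [smul_eq_mul] at hc
    rw [Submodule.mem_span_singleton]
    refine ⟨(c : R) * ⟨_, inv_den_mem R q.2⟩, ?_⟩
    apply Subtype.ext
    have h3 : (q : ℚ) * (q : ℚ).den = (q : ℚ).num := Rat.mul_den_eq_num _
    have h4 : ((q : ℚ).num : ℚ) = c * d := by rw [← hc]; push_cast; ring
    change ((c : ℤ) : ℚ) * (((q : ℚ).den : ℚ))⁻¹ * ((d : ℤ) : ℚ) = q
    field_simp
    rw [mul_comm, mul_comm ((q : ℚ).den : ℚ), h3, h4, mul_comm]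
  · rw [Submodule.span_singleton_le_iff_mem]
    have : d ∈ J := by rw [hd]; exact Submodule.mem_span_singleton_self d
    exact this

theorem isFractionRing_subring : IsFractionRing R ℚ := by
  refine IsFractionRing.of_field _ _ fun z => ?_
  refine ⟨⟨z.num, intCast_mem R _⟩, ⟨(z.den : ℤ), intCast_mem R _⟩, ?_⟩
  change z = ((z.num : ℤ) : ℚ) / (((z.den : ℤ)) : ℚ)
  rw [Int.cast_natCast, Rat.num_div_den]

end Subring

/-- `ℤ_(ℓ)` -/
abbrev RL (ℓ : ℕ) : Subring ℚ := GaloisRep.ratLocalizedAt ℓ

instance instPID (ℓ : ℕ) : IsPrincipalIdealRing (RL ℓ) := isPrincipalIdealRing_subring _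

instance instFrac (ℓ : ℕ) : IsFractionRing (RL ℓ) ℚ := isFractionRing_subring _

section Equivariant

variable {M : Type*} [AddCommGroup M]

/-- equivariant functions -/
def IsEq (act : GQ →* AddMonoid.End M) (φ : M → Qb) : Prop :=
  ∀ (σ : GQ) (m : M), φ (act σ m) = σ (φ m)

variable {act : GQ →* AddMonoid.End M}

theorem act_inv_act (σ : GQ) (m : M) : act σ (act σ⁻¹ m) = m := by
  have : act σ (act σ⁻¹ m) = (act σ * act σ⁻¹) m := rfl
  rw [this, ← map_mul, mul_inv_cancel, map_one]
  rfl

theorem act_act_inv (σ : GQ) (m : M) : act σ⁻¹ (act σ m) = m := by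
  have : act σ⁻¹ (act σ m) = (act σ⁻¹ * act σ) m := rfl
  rw [this, ← map_mul, inv_mul_cancel, map_one]
  rfl

theorem fixed_mem_range {x : Qb} (hx : ∀ σ : GQ, σ x = x) : ∃ q : ℚ, algebraMap ℚ Qb q = x :=
  Fermat.Agent.H51.rational_of_fixed hx

/-- `ℚ`-independent equivariant functions are `ℚ̄`-independent -/
theorem linInd {ι : Type*} {b : ι → M → Qb} (hb : ∀ i, IsEq act (b i))
    (h : LinearIndependent ℚ b) : LinearIndependent Qb b := by
  classical
  rw [linearIndependent_iff']
  intro s
  induction s using Finset.induction_on with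
  | empty => intro g _ i hi; simp at hi
  | insert a s ha ih =>
    intro g hg
    -- twisting a relation
    have twist : ∀ (g : ι → Qb), ∑ i ∈ insert a s, g i • b i = 0 → ∀ σ : GQ,
        ∑ i ∈ insert a s, σ (g i) • b i = 0 := by
      intro g hg σ
      funext m
      have h1 := congrFun hg (act σ⁻¹ m)
      rw [Finset.sum_apply, Pi.zero_apply] at h1 ⊢
      have h2 := congrArg σ h1
      rw [map_sum, map_zero] at h2
      rw [← h2]
      refine Finset.sum_congr rfl fun i _ => ?_
      rw [Pi.smul_apply, Pi.smul_apply, smul_eq_mul, smul_eq_mul, map_mul, ← hb i σ, act_inv_act]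
    by_cases hga : g a = 0
    · have h1 : ∑ i ∈ s, g i • b i = 0 := by
        rw [Finset.sum_insert ha, hga, zero_smul, zero_add] at hg
        exact hg
      intro i hi
      rcases Finset.mem_insert.mp hi with rfl | hi
      · exact hga
      · exact ih g h1 i hi
    · exfalso
      set g' : ι → Qb := fun i => (g a)⁻¹ * g i with hg'
      have h1 : ∑ i ∈ insert a s, g' i • b i = 0 := by
        have : ∑ i ∈ insert a s, g' i • b i = (g a)⁻¹ • ∑ i ∈ insert a s, g i • b i := by
          rw [Finset.smul_sum]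
          refine Finset.sum_congr rfl fun i _ => ?_
          rw [hg', smul_smul]
        rw [this, hg, smul_zero]
      have hga' : g' a = 1 := inv_mul_cancel₀ hga
      have hfix : ∀ i ∈ insert a s, ∀ σ : GQ, σ (g' i) = g' i := by
        intro i hi σ
        rcases Finset.mem_insert.mp hi with rfl | hi
        · rw [hga', map_one]
        have h2 := twist g' h1 σ
        have h3 : ∑ i ∈ s, (σ (g' i) - g' i) • b i = 0 := by
          have : ∑ i ∈ insert a s, (σ (g' i) - g' i) • b i = 0 := by
            simp_rw [sub_smul, Finset.sum_sub_distrib]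
            rw [h1, h2, sub_zero]
          rw [Finset.sum_insert ha, hga', map_one, sub_self, zero_smul, zero_add] at this
          exact this
        exact sub_eq_zero.mp (ih _ h3 i hi)
      have hex : ∀ i : ι, ∃ q : ℚ, i ∈ insert a s → algebraMap ℚ Qb q = g' i := by
        intro i
        by_cases hi : i ∈ insert a s
        · obtain ⟨q, hq⟩ := fixed_mem_range (hfix i hi)
          exact ⟨q, fun _ => hq⟩
        · exact ⟨0, fun h => absurd h hi⟩
      choose q hq using hex
      have h4 : ∑ i ∈ insert a s, q i • b i = 0 := by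
        rw [← h1]
        refine Finset.sum_congr rfl fun i hi => ?_
        rw [← hq i hi, algebraMap_smul]
      have h5 := (linearIndependent_iff'.mp h) _ q h4 a (Finset.mem_insert_self _ _)
      have h6 := hq a (Finset.mem_insert_self _ _)
      rw [h5, map_zero, hga'] at h6
      exact zero_ne_one h6

/-- A subset closed under multiplication separating points spans all functions. -/
theorem span_eq_top {X : Type*} [Finite X] {R : Type*} [CommRing R] [Algebra R Qb]
    (H : Subalgebra R (X → Qb))
    (hsep : ∀ x y : X, x ≠ y → ∃ φ ∈ H, φ x ≠ φ y) :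
    Submodule.span Qb (H : Set (X → Qb)) = ⊤ := by
  classical
  have := Fintype.ofFinite X
  have hS : Submodule.span Qb (H : Set (X → Qb)) =
      Subalgebra.toSubmodule (Algebra.adjoin Qb (H : Set (X → Qb))) := by
    rw [Algebra.adjoin_eq_span]
    congr 1
    exact (congrArg (fun s : Submonoid (X → Qb) => (s : Set (X → Qb)))
      (Submonoid.closure_eq H.toSubmonoid)).symm
  set S := Algebra.adjoin Qb (H : Set (X → Qb)) with hSdef
  have hsub : ∀ φ ∈ H, φ ∈ S := fun φ hφ => Algebra.subset_adjoin hφ
  have hind : ∀ x : X, (Pi.single x 1 : X → Qb) ∈ S := by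
    intro x
    have hy : ∀ y : X, ∃ ψ : X → Qb, ψ ∈ S ∧ (y ≠ x → ψ x = 1 ∧ ψ y = 0) := by
      intro y
      by_cases hxy : y = x
      · exact ⟨1, S.one_mem, fun h => absurd hxy h⟩
      · obtain ⟨φ, hφ, hne⟩ := hsep x y (Ne.symm hxy)
        refine ⟨(φ x - φ y)⁻¹ • (φ - algebraMap Qb (X → Qb) (φ y)), ?_, fun _ => ⟨?_, ?_⟩⟩
        · exact S.smul_mem (S.sub_mem (hsub φ hφ) (S.algebraMap_mem _)) _
        · simp only [Pi.smul_apply, Pi.sub_apply, Pi.algebraMap_apply, smul_eq_mul]
          exact inv_mul_cancel₀ (sub_ne_zero.mpr hne)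
        · simp
    choose ψ hψS hψ using hy
    have hprod : (Pi.single x 1 : X → Qb) = ∏ y ∈ Finset.univ.erase x, ψ y := by
      funext z
      rw [Finset.prod_apply]
      rcases eq_or_ne z x with rfl | hz
      · rw [Pi.single_eq_same]
        symm
        apply Finset.prod_eq_one
        intro y hy
        exact (hψ y (Finset.ne_of_mem_erase hy)).1
      · rw [Pi.single_eq_of_ne hz]
        symm
        apply Finset.prod_eq_zero (Finset.mem_erase.mpr ⟨hz, Finset.mem_univ z⟩)
        exact (hψ z hz).2
    rw [hprod]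
    exact S.prod_mem fun y _ => hψS y
  rw [hS, eq_top_iff]
  intro φ _
  have hφ : φ = ∑ x, φ x • (Pi.single x 1 : X → Qb) := by
    funext z
    rw [Finset.sum_apply, Finset.sum_eq_single z]
    · simp
    · intro y _ hy
      rw [Pi.smul_apply, Pi.single_eq_of_ne hy.symm, smul_zero]
    · intro h; exact absurd (Finset.mem_univ z) h
  rw [hφ]
  exact Submodule.sum_mem _ fun x _ => Submodule.smul_mem _ _ (hind x)

end Equivariant

section Tensor

/-- injectivity of `H ⊗ V → (X × Y → ℚ̄)` -/
theorem injective_lift {R : Type*} [CommSemiring R] [Algebra R Qb] {ι : Type*} {X Y : Type*}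
    {H V : Type*} [AddCommMonoid H] [Module R H] [AddCommMonoid V] [Module R V]
    (b : Module.Basis ι R H) (f : H →ₗ[R] (X → Qb)) (hf : LinearIndependent Qb (fun i => f (b i)))
    (g : V →ₗ[R] (Y → Qb)) (hg : Function.Injective g)
    (t : H ⊗[R] V)
    (ht : ∀ x y, TensorProduct.lift ((LinearMap.mul R Qb).compl₁₂ ((LinearMap.proj x).comp f)
      ((LinearMap.proj y).comp g)) t = 0) : t = 0 := by
  classical
  obtain ⟨c, rfl⟩ := TensorProduct.eq_repr_basis_left b t
  have h1 : ∀ i, c i = 0 := by
    intro i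
    apply hg
    rw [map_zero]
    funext y
    have h2 : c.sum (fun i v => (g v y) • f (b i)) = 0 := by
      funext x
      have h3 := ht x y
      rw [Finsupp.sum, map_sum] at h3
      rw [Finsupp.sum, Finset.sum_apply, Pi.zero_apply, ← h3]
      refine Finset.sum_congr rfl fun i _ => ?_
      simp [mul_comm]
    rw [Finsupp.sum] at h2
    by_cases hi : i ∈ c.support
    · exact linearIndependent_iff'.mp hf _ (fun i => g (c i) y) h2 i hi
    · rw [Finsupp.notMem_support_iff.mp hi, map_zero]
  have : c = 0 := Finsupp.ext h1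
  rw [this, Finsupp.sum_zero_index]

end Tensor

end Fermat.Agent.H19
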