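import Fermat.Agent.H19.HopfB

set_option autoImplicit false
set_option linter.unusedSectionVars false

/-!
# Hopf orders: the Hopf algebra structure
-/

noncomputable section

namespace Fermat.Agent.H19

open Fermat.Agent.H02F TensorProduct

variable {ℓ : ℕ} {M : Type*} [AddCommGroup M] {act : GQ →* AddMonoid.End M}
  {H : Subalgebra (RL ℓ) (M → Qb)} (hH : IsHopfOrder ℓ act H)

include hH

theorem const_mem (r : RL ℓ) : (fun _ : M => algebraMap (RL ℓ) Qb r) ∈ H := H.algebraMap_mem r

theorem nsmul_mem (φ : M → Qb) (hφ : φ ∈ H) (n : ℕ) : (fun m => φ (n • m)) ∈ H := by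
  induction n generalizing φ with
  | zero =>
    obtain ⟨r, hr⟩ := counit_mem hH ⟨φ, hφ⟩
    have : (fun m : M => φ (0 • m)) = fun _ => algebraMap (RL ℓ) Qb r := by
      funext m
      rw [zero_smul, hr]
    rw [this]
    exact const_mem hH r
  | succ n ih =>
    obtain ⟨k, a, b, ha, hb, hab⟩ := hH.comul φ hφ
    have : (fun m : M => φ ((n + 1) • m)) = ∑ i, (fun m => a i (n • m)) * b i := by
      funext m
      rw [succ_nsmul, hab, Finset.sum_apply]
      rfl
    rw [this]
    exact sum_mem fun i _ => mul_mem (ih _ (ha i)) (hb i)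

theorem neg_mem' [Finite M] (φ : M → Qb) (hφ : φ ∈ H) : (fun m => φ (-m)) ∈ H := by
  have hpos : 0 < Nat.card M := Nat.card_pos
  have : (fun m : M => φ (-m)) = fun m => φ ((Nat.card M - 1) • m) := by
    funext m
    congr 1
    have h1 : (Nat.card M - 1 + 1) • m = 0 := by
      rw [Nat.sub_add_cancel hpos]
      exact card_nsmul_eq_zero'
    rw [succ_nsmul] at h1
    exact (eq_neg_of_add_eq_zero_left h1).symm
  rw [this]
  exact nsmul_mem hH φ hφ _

/-- antipode as a linear map -/
def antiA [Finite M] : H →ₗ[RL ℓ] H where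
  toFun φ := ⟨fun m => φ.1 (-m), neg_mem' hH φ.1 φ.2⟩
  map_add' _ _ := rfl
  map_smul' _ _ := rfl

@[simp] theorem antiA_apply [Finite M] (φ : H) (m : M) : (antiA hH φ).1 m = φ.1 (-m) := rfl

omit hH in
theorem mu3_assoc (s : H ⊗[RL ℓ] H) (c : H) (p : M × M × M) :
      mu3 H (Algebra.TensorProduct.assoc (RL ℓ) (RL ℓ) (RL ℓ) H H H (s ⊗ₜ c)) p =
        mu2 H s (p.1, p.2.1) * c.1 p.2.2 := by
  induction s with
  | zero =>
    rw [TensorProduct.zero_tmul, map_zero, map_zero, map_zero]
    simp
  | tmul a b =>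
    rw [Algebra.TensorProduct.assoc_tmul, mu3_tmul, mu2_tmul, mu2_tmul]
    ring
  | add a b ha hb =>
    rw [TensorProduct.add_tmul, map_add, map_add, Pi.add_apply, ha, hb, map_add, Pi.add_apply]
    ring

theorem mu3_assoc_map (t : H ⊗[RL ℓ] H) (p : M × M × M) :
      mu3 H (Algebra.TensorProduct.assoc (RL ℓ) (RL ℓ) (RL ℓ) H H H
        (Algebra.TensorProduct.map (comulA hH) (.id (RL ℓ) H) t)) p =
        mu2 H t (p.1 + p.2.1, p.2.2) := by
  induction t with
  | zero => simp
  | tmul a b =>
    rw [Algebra.TensorProduct.map_tmul, mu3_assoc, mu2_comulA_apply, mu2_tmul]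
    rfl
  | add a b ha hb =>
    have h1 := map_add (Algebra.TensorProduct.map (comulA hH) (.id (RL ℓ) H)) a b
    have h2 := map_add (mu2 H) a b
    rw [h1, h2, map_add, map_add, Pi.add_apply, ha, hb, Pi.add_apply]

theorem mu3_map (t : H ⊗[RL ℓ] H) (p : M × M × M) :
      mu3 H (Algebra.TensorProduct.map (.id (RL ℓ) H) (comulA hH) t) p =
        mu2 H t (p.1, p.2.1 + p.2.2) := by
  induction t with
  | zero => simp
  | tmul a b =>
    rw [Algebra.TensorProduct.map_tmul, mu3_tmul, mu2_comulA_apply, mu2_tmul]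
    rfl
  | add a b ha hb =>
    have h1 := map_add (Algebra.TensorProduct.map (.id (RL ℓ) H) (comulA hH)) a b
    have h2 := map_add (mu2 H) a b
    have h3 := map_add (mu3 H) (Algebra.TensorProduct.map (.id (RL ℓ) H) (comulA hH) a)
      (Algebra.TensorProduct.map (.id (RL ℓ) H) (comulA hH) b)
    rw [h1, h2, h3, Pi.add_apply, ha, hb, Pi.add_apply]

theorem coassocA_apply (φ : H) : (Algebra.TensorProduct.assoc (RL ℓ) (RL ℓ) (RL ℓ) H H H
        (Algebra.TensorProduct.map (comulA hH) (.id (RL ℓ) H) (comulA hH φ))) =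
      Algebra.TensorProduct.map (.id (RL ℓ) H) (comulA hH) (comulA hH φ) := by
  apply mu3_injective hH
  funext p
  have h1 := mu3_assoc_map hH (comulA hH φ) p
  have h2 := mu3_map hH (comulA hH φ) p
  rw [mu2_comulA_apply] at h1 h2
  rw [h1, h2, add_assoc]

theorem coassocA : (Algebra.TensorProduct.assoc (RL ℓ) (RL ℓ) (RL ℓ) H H H).toAlgHom.comp
      ((Algebra.TensorProduct.map (comulA hH) (.id (RL ℓ) H)).comp (comulA hH))
      = (Algebra.TensorProduct.map (.id (RL ℓ) H) (comulA hH)).comp (comulA hH) :=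
  AlgHom.ext fun φ => coassocA_apply hH φ

theorem rTensorA : (Algebra.TensorProduct.map (counitA hH) (.id (RL ℓ) H)).comp (comulA hH)
      = (Algebra.TensorProduct.lid (RL ℓ) H).symm := by
  have e1 : ∀ (t : H ⊗[RL ℓ] H) (m : M),
      (Algebra.TensorProduct.lid (RL ℓ) H
        (Algebra.TensorProduct.map (counitA hH) (.id (RL ℓ) H) t)).1 m = mu2 H t (0, m) := by
    intro t m
    induction t with
    | zero => simp
    | tmul a b =>
      rw [Algebra.TensorProduct.map_tmul, Algebra.TensorProduct.lid_tmul, mu2_tmul]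
      change (counitA hH a) • (b.1 m) = _
      rw [Algebra.smul_def, algebraMap_counitA]
    | add a b ha hb =>
      rw [map_add, map_add, map_add, Pi.add_apply, ← ha, ← hb]
      rfl
  apply AlgHom.ext
  intro φ
  apply (Algebra.TensorProduct.lid (RL ℓ) H).injective
  apply Subtype.ext
  funext m
  refine Eq.trans (e1 (comulA hH φ) m) ?_
  rw [mu2_comulA_apply]
  change φ.1 (0 + m) = _
  rw [zero_add]
  exact (congrArg (fun z : H => z.1 m)
    ((Algebra.TensorProduct.lid (RL ℓ) H).apply_symm_apply φ)).symm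

theorem lTensorA : (Algebra.TensorProduct.map (.id (RL ℓ) H) (counitA hH)).comp (comulA hH)
      = (Algebra.TensorProduct.rid (RL ℓ) (RL ℓ) H).symm := by
  have e1 : ∀ (t : H ⊗[RL ℓ] H) (m : M),
      (Algebra.TensorProduct.rid (RL ℓ) (RL ℓ) H
        (Algebra.TensorProduct.map (.id (RL ℓ) H) (counitA hH) t)).1 m = mu2 H t (m, 0) := by
    intro t m
    induction t with
    | zero => simp
    | tmul a b =>
      rw [Algebra.TensorProduct.map_tmul, Algebra.TensorProduct.rid_tmul, mu2_tmul]
      change (counitA hH b) • (a.1 m) = _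
      rw [Algebra.smul_def, algebraMap_counitA, mul_comm]
    | add a b ha hb =>
      rw [map_add, map_add, map_add, Pi.add_apply, ← ha, ← hb]
      rfl
  apply AlgHom.ext
  intro φ
  apply (Algebra.TensorProduct.rid (RL ℓ) (RL ℓ) H).injective
  apply Subtype.ext
  funext m
  refine Eq.trans (e1 (comulA hH φ) m) ?_
  rw [mu2_comulA_apply]
  change φ.1 (m + 0) = _
  rw [add_zero]
  exact (congrArg (fun z : H => z.1 m)
    ((Algebra.TensorProduct.rid (RL ℓ) (RL ℓ) H).apply_symm_apply φ)).symm

/-- the bialgebra structure -/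
@[reducible] def bialgA : Bialgebra (RL ℓ) H :=
  Bialgebra.ofAlgHom (comulA hH) (counitA hH) (coassocA hH) (rTensorA hH) (lTensorA hH)

/-- the Hopf algebra structure -/
@[reducible] def hopfA [Finite M] : HopfAlgebra (RL ℓ) H :=
  letI := bialgA hH
  { antipode := antiA hH
    mul_antipode_rTensor_comul := by
      have e1 : ∀ (t : H ⊗[RL ℓ] H) (m : M),
          (LinearMap.mul' (RL ℓ) H ((antiA hH).rTensor H t)).1 m = mu2 H t (-m, m) := by
        intro t m
        induction t with
        | zero => simp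
        | tmul a b =>
          rw [LinearMap.rTensor_tmul, LinearMap.mul'_apply, mu2_tmul]
          rfl
        | add a b ha hb =>
          rw [map_add, map_add, map_add, Pi.add_apply, ← ha, ← hb]
          rfl
      apply LinearMap.ext
      intro φ
      apply Subtype.ext
      funext m
      refine Eq.trans (e1 (comulA hH φ) m) ?_
      rw [mu2_comulA_apply]
      change φ.1 (-m + m) = algebraMap (RL ℓ) Qb (counitA hH φ)
      rw [neg_add_cancel, algebraMap_counitA]
    mul_antipode_lTensor_comul := by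
      have e1 : ∀ (t : H ⊗[RL ℓ] H) (m : M),
          (LinearMap.mul' (RL ℓ) H ((antiA hH).lTensor H t)).1 m = mu2 H t (m, -m) := by
        intro t m
        induction t with
        | zero => simp
        | tmul a b =>
          rw [LinearMap.lTensor_tmul, LinearMap.mul'_apply, mu2_tmul]
          rfl
        | add a b ha hb =>
          rw [map_add, map_add, map_add, Pi.add_apply, ← ha, ← hb]
          rfl
      apply LinearMap.ext
      intro φ
      apply Subtype.ext
      funext m
      refine Eq.trans (e1 (comulA hH φ) m) ?_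
      rw [mu2_comulA_apply]
      change φ.1 (m + -m) = algebraMap (RL ℓ) Qb (counitA hH φ)
      rw [add_neg_cancel, algebraMap_counitA] }

theorem cocommA [Finite M] : letI := hopfA hH; Coalgebra.IsCocomm (RL ℓ) H := by
  letI := hopfA hH
  refine ⟨?_⟩
  have e1 : ∀ (t : H ⊗[RL ℓ] H) (p : M × M),
      mu2 H (TensorProduct.comm (RL ℓ) H H t) p = mu2 H t (p.2, p.1) := by
    intro t p
    induction t with
    | zero => simp
    | tmul a b =>
      rw [TensorProduct.comm_tmul, mu2_tmul, mu2_tmul, mul_comm]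
    | add a b ha hb =>
      rw [map_add, map_add, map_add, Pi.add_apply, Pi.add_apply, ← ha, ← hb]
  apply LinearMap.ext
  intro φ
  apply mu2_injective hH
  funext p
  refine Eq.trans (e1 (comulA hH φ) p) ?_
  refine Eq.trans (mu2_comulA_apply hH φ (p.2, p.1)) ?_
  refine Eq.trans ?_ (mu2_comulA_apply hH φ p).symm
  change φ.1 (p.2 + p.1) = φ.1 (p.1 + p.2)
  rw [add_comm]

/-- evaluation homomorphisms are exactly the points -/
theorem exists_eq_evA [Finite M] (f : H →ₐ[RL ℓ] Qb) : ∃ x : M, f = evA H x := by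
  classical
  have := Fintype.ofFinite M
  by_contra hcon
  push Not at hcon
  have h1 : ∀ x : M, ∃ φ : H, f φ ≠ φ.1 x := by
    intro x
    by_contra h
    push Not at h
    exact hcon x (AlgHom.ext h)
  choose φ hφ using h1
  -- the two algebra maps
  let Φ : H ⊗[RL ℓ] Qb →ₐ[RL ℓ] (M → Qb) :=
    Algebra.TensorProduct.lift H.val
      ((Algebra.ofId Qb (M → Qb)).restrictScalars (RL ℓ)) (fun _ _ => Commute.all _ _)
  let Ψ : H ⊗[RL ℓ] Qb →ₐ[RL ℓ] Qb :=
    Algebra.TensorProduct.lift f (AlgHom.id (RL ℓ) Qb) (fun _ _ => Commute.all _ _)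
  have hΦ : ∀ (a : H) (c : Qb) (x : M), Φ (a ⊗ₜ c) x = a.1 x * c := by
    intro a c x
    simp [Φ, Algebra.ofId_apply]
  have hΨ : ∀ (a : H) (c : Qb), Ψ (a ⊗ₜ c) = f a * c := by
    intro a c
    simp [Ψ]
  have hΦinj : Function.Injective Φ := by
    rw [injective_iff_map_eq_zero]
    intro t ht
    let g : Qb →ₗ[RL ℓ] (Unit → Qb) := LinearMap.pi (fun _ => LinearMap.id)
    have hg : Function.Injective g := fun a b h => congrFun h ()
    refine injective_lift (basisH hH) (Subalgebra.toSubmodule H).subtype (linInd_basisH hH)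
      g hg t (fun x y => ?_)
    have h2 := congrFun ht x
    rw [Pi.zero_apply] at h2
    rw [← h2]
    clear ht h2
    induction t with
    | zero => simp
    | tmul a b => rw [hΦ]; rfl
    | add a b ha hb => rw [map_add, map_add, ha, hb, Pi.add_apply]
  set G : H ⊗[RL ℓ] Qb := ∏ x : M, (φ x ⊗ₜ (1 : Qb) - (1 : H) ⊗ₜ ((φ x).1 x)) with hG
  have hG0 : G = 0 := by
    apply hΦinj
    rw [map_zero, hG, map_prod]
    funext x
    rw [Finset.prod_apply, Pi.zero_apply]
    apply Finset.prod_eq_zero (Finset.mem_univ x)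
    rw [map_sub, Pi.sub_apply, hΦ, hΦ]
    simp
  have hG1 : Ψ G = ∏ x : M, (f (φ x) - (φ x).1 x) := by
    rw [hG, map_prod]
    refine Finset.prod_congr rfl fun x _ => ?_
    rw [map_sub, hΨ, hΨ, map_one, mul_one, one_mul]
  rw [hG0, map_zero] at hG1
  exact Finset.prod_ne_zero_iff.mpr (fun x _ => sub_ne_zero.mpr (hφ x)) hG1.symm

theorem evA_injective : Function.Injective (evA H) := by
  intro x y h
  by_contra hne
  obtain ⟨φ, hφ, hφne⟩ := hH.sep x y hne
  exact hφne (congrArg (fun f : H →ₐ[RL ℓ] Qb => f ⟨φ, hφ⟩) h)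

/-- the points of `H` -/
def pointsA [Finite M] : M ≃ (H →ₐ[RL ℓ] Qb) :=
  Equiv.ofBijective (evA H) ⟨evA_injective hH, fun f => by
    obtain ⟨x, hx⟩ := exists_eq_evA hH f
    exact ⟨x, hx.symm⟩⟩

@[simp] theorem pointsA_apply [Finite M] (x : M) : pointsA hH x = evA H x := rfl

end Fermat.Agent.H19
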