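import Fermat.Agent.H19.HopfC

set_option autoImplicit false
set_option linter.unusedSectionVars false

/-!
# Hopf orders: conversion to the format of S19 / `IsFlatAt`
-/

noncomputable section

namespace Fermat.Agent.H19

open Fermat.Agent.H02F TensorProduct

theorem exists_hopfAlgebra {ℓ : ℕ} {M : Type} [AddCommGroup M] [Finite M]
    {act : GQ →* AddMonoid.End M} {H : Subalgebra (GaloisRep.ratLocalizedAt ℓ) (M → Qb)}
    (hH : IsHopfOrder ℓ act H) :
    ∃ (H' : Type) (_ : CommRing H') (_ : HopfAlgebra (GaloisRep.ratLocalizedAt ℓ) H'),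
      Module.Finite (GaloisRep.ratLocalizedAt ℓ) H' ∧ Module.Flat (GaloisRep.ratLocalizedAt ℓ) H' ∧
      Coalgebra.IsCocomm (GaloisRep.ratLocalizedAt ℓ) H' ∧
      ∃ e : WithConv (H' →ₐ[GaloisRep.ratLocalizedAt ℓ] AlgebraicClosure ℚ) ≃ M,
        (∀ f g, e (f * g) = e f + e g) ∧
        ∀ (σ : AlgebraicClosure ℚ ≃ₐ[ℚ] AlgebraicClosure ℚ)
          (f g : WithConv (H' →ₐ[GaloisRep.ratLocalizedAt ℓ] AlgebraicClosure ℚ)),
          (∀ h : H', g h = σ (f h)) → e g = act σ (e f) := by
  let inst := hopfA hH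
  have hfin := finite_H hH
  have hfree := free_H hH
  refine ⟨H, inferInstance, inst, hfin, Module.Flat.of_free, cocommA hH, ?_⟩
  let e : WithConv (H →ₐ[GaloisRep.ratLocalizedAt ℓ] AlgebraicClosure ℚ) ≃ M :=
    { toFun := fun f => (pointsA hH).symm f.ofConv
      invFun := fun x => WithConv.toConv (pointsA hH x)
      left_inv := fun f => by
        change WithConv.toConv (pointsA hH ((pointsA hH).symm f.ofConv)) = f
        rw [Equiv.apply_symm_apply]
      right_inv := fun x => (pointsA hH).symm_apply_apply x }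
  refine ⟨e, ?_, ?_⟩
  · intro f g
    obtain ⟨x, rfl⟩ := e.symm.surjective f
    obtain ⟨y, rfl⟩ := e.symm.surjective g
    rw [Equiv.apply_symm_apply, Equiv.apply_symm_apply, ← Equiv.eq_symm_apply]
    apply WithConv.ofConv_injective
    apply AlgHom.ext
    intro φ
    have e1 : ∀ t : H ⊗[RL ℓ] H, LinearMap.mul' (RL ℓ) Qb
        (TensorProduct.map (evA H x).toLinearMap (evA H y).toLinearMap t) = mu2 H t (x, y) := by
      intro t
      induction t with
      | zero => simp
      | tmul a b => rw [mu2_tmul]; rfl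
      | add a b ha hb =>
        have h1 := map_add (mu2 H) a b
        rw [map_add, map_add, h1, ha, hb, Pi.add_apply]
    have e2 := e1 (comulA hH φ)
    rw [mu2_comulA_apply] at e2
    exact e2
  · intro σ f g hfg
    obtain ⟨x, rfl⟩ := e.symm.surjective f
    rw [Equiv.apply_symm_apply, ← Equiv.eq_symm_apply]
    apply WithConv.ofConv_injective
    apply AlgHom.ext
    intro φ
    refine (hfg φ).trans ?_
    exact (hH.equiv φ.1 φ.2 σ x).symm

end Fermat.Agent.H19
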