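import Fermat.Agent.H19.HopfD

set_option autoImplicit false
set_option linter.unusedSectionVars false

/-!
# Hopf orders: submodules, products
-/

noncomputable section

namespace Fermat.Agent.H19

open Fermat.Agent.H02F TensorProduct

/-- pullback of functions -/
def pull (ℓ : ℕ) {M M' : Type*} (p : M' → M) : (M → Qb) →ₐ[RL ℓ] (M' → Qb) :=
  AlgHom.pi (fun m : M' => Pi.evalAlgHom (RL ℓ) (fun _ : M => Qb) (p m))

@[simp] theorem pull_apply (ℓ : ℕ) {M M' : Type*} (p : M' → M) (φ : M → Qb) (m : M') :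
    pull ℓ p φ m = φ (p m) := rfl

section Pre

variable {ℓ : ℕ} {M : Type*} [AddCommGroup M]

/-- Hopf orders without the separation property -/
structure PreHopf (act : GQ →* AddMonoid.End M) (H : Subalgebra (RL ℓ) (M → Qb)) : Prop where
  fg : (Subalgebra.toSubmodule H).FG
  equiv : ∀ φ ∈ H, ∀ (σ : GQ) (m : M), φ (act σ m) = σ (φ m)
  comul : ∀ φ ∈ H, (fun p : M × M => φ (p.1 + p.2)) ∈ (mu2 H).range

theorem mem_range_mu2 {H : Subalgebra (RL ℓ) (M → Qb)} {f : M × M → Qb} :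
    f ∈ (mu2 H).range ↔ ∃ (n : ℕ) (a b : Fin n → M → Qb), (∀ i, a i ∈ H) ∧ (∀ i, b i ∈ H) ∧
      ∀ p : M × M, f p = ∑ i, a i p.1 * b i p.2 := by
  constructor
  · rintro ⟨t, rfl⟩
    obtain ⟨S, rfl⟩ := TensorProduct.exists_finset t
    obtain ⟨n, ⟨e⟩⟩ := Finite.exists_equiv_fin S
    refine ⟨n, fun i => (e.symm i).1.1, fun i => (e.symm i).1.2, fun i => (e.symm i).1.1.2,
      fun i => (e.symm i).1.2.2, fun p => ?_⟩
    change mu2 H _ p = _
    rw [map_sum, Finset.sum_apply, ← Finset.sum_coe_sort S, ← Equiv.sum_comp e.symm]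
    exact Finset.sum_congr rfl fun i _ => mu2_tmul _ _ _
  · rintro ⟨n, a, b, ha, hb, hab⟩
    refine ⟨∑ i, (⟨a i, ha i⟩ : H) ⊗ₜ[RL ℓ] (⟨b i, hb i⟩ : H), ?_⟩
    funext p
    change mu2 H _ p = _
    rw [map_sum, Finset.sum_apply, hab]
    simp

theorem mu2_range_mono {H K : Subalgebra (RL ℓ) (M → Qb)} (h : H ≤ K) :
    (mu2 H).range ≤ (mu2 K).range := by
  intro f hf
  rw [mem_range_mu2] at hf ⊢
  obtain ⟨n, a, b, ha, hb, hab⟩ := hf
  exact ⟨n, a, b, fun i => h (ha i), fun i => h (hb i), hab⟩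

variable {act : GQ →* AddMonoid.End M}

theorem preHopf_of {H : Subalgebra (RL ℓ) (M → Qb)} (hH : IsHopfOrder ℓ act H) :
    PreHopf act H where
  fg := hH.fg
  equiv := hH.equiv
  comul φ hφ := addA_mem hH ⟨φ, hφ⟩

theorem PreHopf.isHopfOrder {H : Subalgebra (RL ℓ) (M → Qb)} (hH : PreHopf act H)
    (hsep : ∀ x y : M, x ≠ y → ∃ φ ∈ H, φ x ≠ φ y) : IsHopfOrder ℓ act H where
  fg := hH.fg
  equiv := hH.equiv
  sep := hsep
  comul φ hφ := by
    obtain ⟨n, a, b, ha, hb, hab⟩ := mem_range_mu2.mp (hH.comul φ hφ)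
    exact ⟨n, a, b, ha, hb, fun x y => hab (x, y)⟩

/-- equivariant functions form a subalgebra -/
def eqSub (ℓ : ℕ) (act : GQ →* AddMonoid.End M) : Subalgebra (RL ℓ) (M → Qb) where
  carrier := {φ | ∀ (σ : GQ) (m : M), φ (act σ m) = σ (φ m)}
  mul_mem' {a b} ha hb σ m := by
    rw [Pi.mul_apply, Pi.mul_apply, ha, hb, map_mul]
  one_mem' σ m := by simp
  add_mem' {a b} ha hb σ m := by
    rw [Pi.add_apply, Pi.add_apply, ha, hb, map_add]
  zero_mem' σ m := by simp
  algebraMap_mem' r σ m := by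
    rw [Pi.algebraMap_apply, IsScalarTower.algebraMap_apply (RL ℓ) ℚ Qb]
    exact (σ.commutes _).symm

theorem PreHopf.sup {H K : Subalgebra (RL ℓ) (M → Qb)} (hH : PreHopf act H)
    (hK : PreHopf act K) : PreHopf act (H ⊔ K) where
  fg := by
    rw [← Subalgebra.mul_toSubmodule]
    exact hH.fg.mul hK.fg
  equiv := by
    have : H ⊔ K ≤ eqSub ℓ act := sup_le hH.equiv hK.equiv
    exact this
  comul := by
    have h1 : H ⊔ K ≤ (mu2 (H ⊔ K)).range.comap (pull ℓ (fun p : M × M => p.1 + p.2)) := by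
      apply sup_le
      · intro φ hφ
        exact mu2_range_mono le_sup_left (hH.comul φ hφ)
      · intro φ hφ
        exact mu2_range_mono le_sup_right (hK.comul φ hφ)
    exact h1

theorem preHopf_bot : PreHopf act (⊥ : Subalgebra (RL ℓ) (M → Qb)) where
  fg := by
    rw [Algebra.toSubmodule_bot, Submodule.one_eq_span]
    exact ⟨{1}, by simp⟩
  equiv := by
    have : (⊥ : Subalgebra (RL ℓ) (M → Qb)) ≤ eqSub ℓ act := bot_le
    exact this
  comul := by
    have h1 : (⊥ : Subalgebra (RL ℓ) (M → Qb)) ≤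
        (mu2 (⊥ : Subalgebra (RL ℓ) (M → Qb))).range.comap
          (pull ℓ (fun p : M × M => p.1 + p.2)) := bot_le
    exact h1

theorem preHopf_iSup {ι : Type*} (s : Finset ι) (H : ι → Subalgebra (RL ℓ) (M → Qb))
    (hH : ∀ i, PreHopf act (H i)) : PreHopf act (⨆ i ∈ s, H i) := by
  classical
  induction s using Finset.induction_on with
  | empty => simpa using preHopf_bot
  | insert a s ha ih =>
    rw [Finset.iSup_insert]
    exact (hH a).sup ih

variable {M' : Type*} [AddCommGroup M'] {act' : GQ →* AddMonoid.End M'}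

theorem PreHopf.map {H : Subalgebra (RL ℓ) (M → Qb)} (hH : PreHopf act H) (p : M' →+ M)
    (hp : ∀ σ m, p (act' σ m) = act σ (p m)) : PreHopf act' (H.map (pull ℓ p)) where
  fg := by
    rw [Subalgebra.map_toSubmodule]
    exact hH.fg.map _
  equiv := by
    rintro _ ⟨φ, hφ, rfl⟩ σ m
    change φ (p (act' σ m)) = σ (φ (p m))
    rw [hp, hH.equiv φ hφ]
  comul := by
    rintro _ ⟨φ, hφ, rfl⟩
    obtain ⟨n, a, b, ha, hb, hab⟩ := mem_range_mu2.mp (hH.comul φ hφ)
    refine mem_range_mu2.mpr ⟨n, fun i => pull ℓ p (a i), fun i => pull ℓ p (b i),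
      fun i => ⟨a i, ha i, rfl⟩, fun i => ⟨b i, hb i, rfl⟩, fun q => ?_⟩
    change φ (p (q.1 + q.2)) = ∑ i, a i (p q.1) * b i (p q.2)
    rw [map_add]
    exact hab (p q.1, p q.2)

end Pre

/-- existence of a Hopf order -/
def HasHopf (ℓ : ℕ) {M : Type*} [AddCommGroup M] (act : GQ →* AddMonoid.End M) : Prop :=
  ∃ H : Subalgebra (GaloisRep.ratLocalizedAt ℓ) (M → Qb), IsHopfOrder ℓ act H

theorem HasHopf.of_family {ℓ : ℕ} {M : Type*} [AddCommGroup M] {act : GQ →* AddMonoid.End M}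
    {ι : Type*} [Finite ι] {N : ι → Type*} [∀ i, AddCommGroup (N i)]
    {actN : ∀ i, GQ →* AddMonoid.End (N i)} (h : ∀ i, HasHopf ℓ (actN i))
    (p : ∀ i, M →+ N i) (hp : ∀ i σ m, p i (act σ m) = actN i σ (p i m))
    (hinj : ∀ m, (∀ i, p i m = 0) → m = 0) : HasHopf ℓ act := by
  classical
  have := Fintype.ofFinite ι
  choose H hH using h
  refine ⟨⨆ i ∈ (Finset.univ : Finset ι), (H i).map (pull ℓ (p i)),
    (preHopf_iSup _ _ fun i => (preHopf_of (hH i)).map (p i) (hp i)).isHopfOrder ?_⟩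
  intro x y hxy
  have : ∃ i, p i x ≠ p i y := by
    by_contra hcon
    push Not at hcon
    apply hxy
    rw [← sub_eq_zero]
    apply hinj
    intro i
    rw [map_sub, hcon, sub_self]
  obtain ⟨i, hi⟩ := this
  obtain ⟨φ, hφ, hne⟩ := (hH i).sep _ _ hi
  refine ⟨pull ℓ (p i) φ, ?_, hne⟩
  have h1 : (H i).map (pull ℓ (p i)) ≤ ⨆ i ∈ (Finset.univ : Finset ι), (H i).map (pull ℓ (p i)) :=
    le_iSup₂_of_le i (Finset.mem_univ i) le_rfl
  exact h1 ⟨φ, hφ, rfl⟩

/-- submodules -/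
theorem HasHopf.of_injective {ℓ : ℕ} {M M' : Type*} [AddCommGroup M] [AddCommGroup M']
    {act : GQ →* AddMonoid.End M} {act' : GQ →* AddMonoid.End M'} (h : HasHopf ℓ act)
    (p : M' →+ M) (hp : ∀ σ m, p (act' σ m) = act σ (p m)) (hinj : Function.Injective p) :
    HasHopf ℓ act' :=
  HasHopf.of_family (ι := Unit) (N := fun _ => M) (fun _ => h) (fun _ => p) (fun _ => hp)
    fun m hm => hinj (by rw [hm (), map_zero])

end Fermat.Agent.H19
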