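import Fermat.Agent.H19.HopfE

set_option autoImplicit false
set_option linter.unusedSectionVars false

/-!
# Hopf orders: quotients
-/

noncomputable section

namespace Fermat.Agent.H19

open Fermat.Agent.H02F TensorProduct

section

variable {ℓ : ℕ} {M : Type*} [AddCommGroup M] [Finite M] {act : GQ →* AddMonoid.End M}
  {H : Subalgebra (RL ℓ) (M → Qb)} (hH : IsHopfOrder ℓ act H)

include hH

/-- `H` is a lattice in all functions -/
def basisQb : Module.Basis (Fin (Module.finrank (RL ℓ) H)) Qb (M → Qb) :=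
  Module.Basis.mk (linInd_basisH hH) (by
    rw [← span_eq_top H hH.sep, Submodule.span_le]
    intro φ hφ
    have h1 : (⟨φ, hφ⟩ : H) ∈ Submodule.span (RL ℓ) (Set.range (basisH hH)) := by
      rw [(basisH hH).span_eq]; trivial
    have h2 : φ ∈ Submodule.map (Subalgebra.toSubmodule H).subtype
        (Submodule.span (RL ℓ) (Set.range (basisH hH))) := ⟨_, h1, rfl⟩
    rw [Submodule.map_span, ← Set.range_comp] at h2
    exact Submodule.span_le_restrictScalars (RL ℓ) Qb _ h2)

@[simp] theorem basisQb_apply (i) : basisQb hH i = (basisH hH i : M → Qb) := by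
  simp [basisQb]

theorem exists_nsmul_mem {φ : M → Qb} (hφ : IsEq act φ) : ∃ n : ℕ, n ≠ 0 ∧ n • φ ∈ H := by
  classical
  set B := basisQb hH with hB
  have hrep : ∑ i, B.repr φ i • (basisH hH i : M → Qb) = φ := by
    conv_rhs => rw [← B.sum_repr φ]
    refine Finset.sum_congr rfl fun i _ => ?_
    rw [hB, basisQb_apply]
  have hfix : ∀ i, ∀ σ : GQ, σ (B.repr φ i) = B.repr φ i := by
    intro i σ
    have h1 : ∑ i, σ (B.repr φ i) • (basisH hH i : M → Qb) = φ := by
      funext m
      have h2 := congrArg σ (congrFun hrep (act σ⁻¹ m))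
      rw [Finset.sum_apply, map_sum, ← hφ σ, act_inv_act] at h2
      rw [← h2, Finset.sum_apply]
      refine Finset.sum_congr rfl fun i _ => ?_
      rw [Pi.smul_apply, Pi.smul_apply, smul_eq_mul, smul_eq_mul, map_mul,
        ← hH.equiv _ (basisH hH i).2 σ, act_inv_act]
    have h3 : ∑ i, (σ (B.repr φ i) - B.repr φ i) • (basisH hH i : M → Qb) = 0 := by
      simp_rw [sub_smul, Finset.sum_sub_distrib]
      rw [h1, hrep, sub_self]
    exact sub_eq_zero.mp (Fintype.linearIndependent_iff.mp (linInd_basisH hH) _ h3 i)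
  choose q hq using fun i => fixed_mem_range (hfix i)
  refine ⟨∏ i, (q i).den, Finset.prod_ne_zero_iff.mpr fun i _ => (q i).den_nz, ?_⟩
  have h4 : (∏ i, (q i).den) • φ = ∑ i, ((∏ i, (q i).den : ℕ) * q i) • (basisH hH i : M → Qb) := by
    conv_lhs => rw [← hrep]
    rw [Finset.smul_sum]
    refine Finset.sum_congr rfl fun i _ => ?_
    rw [← hq i, algebraMap_smul, ← Nat.cast_smul_eq_nsmul ℚ, smul_smul]
  rw [h4]
  refine sum_mem fun i _ => ?_
  have h5 : ((∏ i, (q i).den : ℕ) : ℚ) * q i =
      (((∏ j ∈ Finset.univ.erase i, (q j).den : ℕ) * (q i).num : ℤ) : ℚ) := by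
    rw [← Finset.mul_prod_erase Finset.univ _ (Finset.mem_univ i)]
    push_cast
    have := Rat.mul_den_eq_num (q i)
    rw [← this]
    ring
  rw [h5]
  have h6 : ((((∏ j ∈ Finset.univ.erase i, (q j).den : ℕ) * (q i).num : ℤ) : ℚ)) •
      (basisH hH i : M → Qb) =
      ((((∏ j ∈ Finset.univ.erase i, (q j).den : ℕ) * (q i).num : ℤ))) •
      (basisH hH i : M → Qb) := Int.cast_smul_eq_zsmul ℚ _ _
  rw [h6]
  exact zsmul_mem (basisH hH i).2 _

variable {M₂ : Type*} [AddCommGroup M₂] [Finite M₂] {act₂ : GQ →* AddMonoid.End M₂}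

/-- trace along the fibres of `π` -/
theorem exists_trace (π : M →+ M₂) (hπ : ∀ σ m, π (act σ m) = act₂ σ (π m))
    (hsurj : Function.Surjective π) {x y : M₂} (hxy : x ≠ y) :
    ∃ ψ : M₂ → Qb, IsEq act₂ ψ ∧ ψ x ≠ ψ y := by
  classical
  have := Fintype.ofFinite M
  let tr : (M → Qb) →ₗ[Qb] (M₂ → Qb) :=
    { toFun := fun φ z => ∑ m : M, if π m = z then φ m else 0
      map_add' := fun φ ψ => by
        funext z
        simp only [Pi.add_apply]
        rw [← Finset.sum_add_distrib]
        refine Finset.sum_congr rfl fun m _ => ?_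
        split_ifs <;> simp
      map_smul' := fun c φ => by
        funext z
        simp only [Pi.smul_apply, RingHom.id_apply, smul_eq_mul]
        rw [Finset.mul_sum]
        refine Finset.sum_congr rfl fun m _ => ?_
        split_ifs <;> simp }
  have htr : ∀ φ z, tr φ z = ∑ m : M, if π m = z then φ m else 0 := fun _ _ => rfl
  by_contra hcon
  push Not at hcon
  -- the trace of an equivariant function is equivariant
  have heq : ∀ φ ∈ H, IsEq act₂ (tr φ) := by
    intro φ hφ σ z
    let e : M ≃ M :=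
      { toFun := act σ
        invFun := act σ⁻¹
        left_inv := act_act_inv σ
        right_inv := act_inv_act σ }
    rw [htr, htr, map_sum, ← Equiv.sum_comp e]
    refine Finset.sum_congr rfl fun m _ => ?_
    change (if π (act σ m) = act₂ σ z then φ (act σ m) else 0) = _
    rw [hπ, hH.equiv φ hφ]
    have : act₂ σ (π m) = act₂ σ z ↔ π m = z := by
      constructor
      · intro h
        have := congrArg (act₂ σ⁻¹) h
        rwa [act_act_inv, act_act_inv] at this
      · intro h; rw [h]
    by_cases h : π m = z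
    · rw [if_pos h, if_pos (this.mpr h)]
    · rw [if_neg h, if_neg (fun h' => h (this.mp h')), map_zero]
  have hzero : ∀ φ ∈ H, tr φ x = tr φ y := fun φ hφ => hcon _ (heq φ hφ)
  -- hence for all functions
  have hall : ∀ φ : M → Qb, tr φ x = tr φ y := by
    intro φ
    have hmem : φ ∈ Submodule.span Qb (H : Set (M → Qb)) := by
      rw [span_eq_top H hH.sep]; trivial
    induction hmem using Submodule.span_induction with
    | mem φ hφ => exact hzero φ hφ
    | zero => simp
    | add φ ψ _ _ h1 h2 => rw [map_add, Pi.add_apply, Pi.add_apply, h1, h2]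
    | smul c φ _ h1 => rw [map_smul, Pi.smul_apply, Pi.smul_apply, h1]
  obtain ⟨m₀, hm₀⟩ := hsurj x
  have h1 := hall (Pi.single m₀ 1)
  rw [htr, htr] at h1
  rw [Finset.sum_eq_single m₀, Finset.sum_eq_zero] at h1
  · rw [if_pos hm₀, Pi.single_eq_same] at h1
    exact one_ne_zero h1
  · intro m _
    by_cases h : m = m₀
    · rw [h, if_neg]
      rw [hm₀]; exact hxy
    · rw [Pi.single_eq_of_ne h]; simp
  · intro m _ hm
    rw [Pi.single_eq_of_ne hm]; simp
  · intro h; exact absurd (Finset.mem_univ _) h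

end

end Fermat.Agent.H19
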