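import Fermat.Agent.TW.LH4

/-!
# Hopf orders over inertia: Herbrand inequality
-/

set_option autoImplicit false
set_option linter.unusedSectionVars false

namespace Fermat.Agent.TW

open Fermat.Agent.CC NVal

section te

variable {A : ValuationSubring Qb} {p : ℕ} {w : Qb → ℝ}

/-- there are infinitely many Teichmüller units -/
theorem PL.te_infinite (P : PL p A w) : {c : Qb | Te p c ∧ c ≠ 0}.Infinite := by
  classical
  intro hfin
  obtain ⟨n, hn⟩ : ∃ n, n = hfin.toFinset.card := ⟨_, rfl⟩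
  have hp2 := P.prime.two_le
  have hm : ¬ p ∣ n * p + 1 := by
    intro h
    have h1 := (Nat.dvd_add_right (Dvd.intro_left n rfl)).1 h
    exact P.prime.one_lt.ne' (Nat.dvd_one.1 h1)
  have i1 : NeZero (n * p + 1) := ⟨Nat.succ_ne_zero _⟩
  have i2 : NeZero ((n * p + 1 : ℕ) : Qb) := ⟨Nat.cast_ne_zero.2 (Nat.succ_ne_zero _)⟩
  have hcard : Nat.card (rootsOfUnity (n * p + 1) Qb) = n * p + 1 :=
    HasEnoughRootsOfUnity.natCard_rootsOfUnity Qb _
  have hle : Nat.card (rootsOfUnity (n * p + 1) Qb) ≤ Nat.card hfin.toFinset := by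
    refine Nat.card_le_card_of_injective
      (fun ζ => ⟨((ζ : Qbˣ) : Qb), ?_⟩) fun ζ ξ h => ?_
    · rw [Set.Finite.mem_toFinset]
      have h1 := ζ.2
      rw [mem_rootsOfUnity, Units.ext_iff, Units.val_pow_eq_pow_val, Units.val_one] at h1
      exact ⟨Or.inr ⟨_, hm, h1⟩, Units.ne_zero _⟩
    · have h1 : ((ζ : Qbˣ) : Qb) = ((ξ : Qbˣ) : Qb) := congrArg Subtype.val h
      exact Subtype.ext (Units.ext h1)
  rw [hcard, Nat.card_eq_fintype_card, Fintype.card_coe, ← hn] at hle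
  nlinarith

/-- differences of Teichmüller representatives are units -/
theorem PL.te_sub (P : PL p A w) {c d : Qb} (hc : Te p c) (hd : Te p d) (hcd : c ≠ d) :
    w (c - d) = 0 := by
  by_cases hc0 : c = 0
  · subst hc0
    rw [zero_sub, P.nv.w_neg]
    exact P.te_w hd (Ne.symm hcd)
  by_cases hd0 : d = 0
  · subst hd0
    rw [sub_zero]
    exact P.te_w hc hc0
  obtain ⟨m, hm, h1⟩ := hc.resolve_left hc0
  obtain ⟨m', hm', h2⟩ := hd.resolve_left hd0
  have hmm : ¬ p ∣ m * m' := fun h => (P.prime.dvd_mul.1 h).elim hm hm'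
  have h3 : Bl w 0 (c - d) := P.nv.sub (P.te_Bl hc) (P.te_Bl hd)
  have h4 : ¬ Bs w 0 (c - d) := fun h => hcd (P.te_unique hmm
    (by rw [pow_mul, h1, one_pow]) (by rw [mul_comm, pow_mul, h2, one_pow]) h)
  refine le_antisymm ?_ (h3.resolve_left (sub_ne_zero.2 hcd))
  by_contra hlt
  exact h4 (Or.inr (not_le.1 hlt))

theorem Bs_unit_mul (P : PL p A w) {c x : Qb} {r : ℝ} (hc0 : c ≠ 0) (hc : w c = 0)
    (h : Bs w r (c * x)) : Bs w r x := by
  have h1 := Bs_div P.nv hc0 h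
  rwa [mul_div_cancel_left₀ _ hc0, hc, sub_zero] at h1

end te

variable {A : ValuationSubring Qb} {p : ℕ} {w : Qb → ℝ} {M : Type*} [AddCommGroup M]
  {act : A.inertiaSubgroupIn ℚ →* AddMonoid.End M} {H : Subalgebra (RI A) (M → Qb)}

theorem te_smul_mem (P : PL p A w) {c : Qb} (hc : Te p c) {φ : M → Qb} (hφ : φ ∈ H) :
    c • φ ∈ H := by
  have h1 : c ∈ RI A := ⟨P.nv.mem_iff.2 (P.te_Bl hc), fun σ hσ => P.te_fixed hc hσ⟩
  have h2 := H.smul_mem hφ (⟨c, h1⟩ : RI A)
  rwa [RI_smul_eq] at h2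

/-- one function realizing the distances of `z + n`, `n ∈ S` -/
theorem LH.exists_generic (hH : LH A act H) (P : PL p A w) {r : ℝ} (z : M) (S : Finset M)
    (hS : ∀ n ∈ S, ¬ TDS w H r n) : ∃ f ∈ H, ∀ n ∈ S, ¬ Bs w r (f (z + n) - f z) := by
  classical
  induction S using Finset.induction_on with
  | empty => exact ⟨1, H.one_mem, fun n hn => absurd hn (Finset.notMem_empty n)⟩
  | insert n0 S hn0 ih =>
    obtain ⟨f, hf, h1⟩ := ih fun n hn => hS n (Finset.mem_insert_of_mem hn)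
    by_cases hb : Bs w r (f (z + n0) - f z)
    swap
    · refine ⟨f, hf, fun n hn => ?_⟩
      rcases Finset.mem_insert.1 hn with rfl | hn
      · exact hb
      · exact h1 n hn
    obtain ⟨φ, hφ, h2⟩ : ∃ φ ∈ H, ¬ Bs w r (φ (z + n0) - φ z) := by
      by_contra hno
      push Not at hno
      exact hS n0 (Finset.mem_insert_self _ _) (TDS.of_trans hH P z hno)
    -- choose the constant
    have hbad : (⋃ n ∈ S, {c : Qb | (Te p c ∧ c ≠ 0) ∧
        Bs w r (f (z + n) - f z + c * (φ (z + n) - φ z))}).Finite := by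
      refine Set.Finite.biUnion (Finset.finite_toSet S) fun n hn => ?_
      refine Set.Subsingleton.finite ?_
      rintro c ⟨⟨hc, hc0⟩, hc1⟩ d ⟨⟨hd, hd0⟩, hd1⟩
      by_contra hcd
      have h3 := Bs_sub P.nv hc1 hd1
      have h4 : f (z + n) - f z + c * (φ (z + n) - φ z) -
          (f (z + n) - f z + d * (φ (z + n) - φ z)) = (c - d) * (φ (z + n) - φ z) := by ring
      rw [h4] at h3
      have h5 := Bs_unit_mul P (sub_ne_zero.2 hcd) (P.te_sub hc hd hcd) h3
      have h6 := Bs_sub P.nv hc1 (Bs_mul_left P.nv (P.te_Bl hc) h5)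
      rw [add_sub_cancel_right] at h6
      exact h1 n hn h6
    obtain ⟨c, ⟨hc, hc0⟩, hc1⟩ := (P.te_infinite.sdiff hbad).nonempty
    refine ⟨f + c • φ, H.add_mem hf (te_smul_mem P hc hφ), fun n hn => ?_⟩
    have h3 : (f + c • φ) (z + n) - (f + c • φ) z =
        f (z + n) - f z + c * (φ (z + n) - φ z) := by
      simp only [Pi.add_apply, Pi.smul_apply, smul_eq_mul]
      ring
    rw [h3]
    rcases Finset.mem_insert.1 hn with rfl | hn
    · intro h4
      have h5 := Bs_sub P.nv h4 hb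
      rw [add_sub_cancel_left] at h5
      exact h2 (Bs_unit_mul P hc0 (P.te_w hc hc0) h5)
    · intro h4
      exact hc1 (Set.mem_biUnion (Finset.mem_coe.2 hn) ⟨⟨hc, hc0⟩, h4⟩)

/-- **Herbrand inequality** -/
theorem herbrand (hH : LH A act H) (P : PL p A w) [Finite M] {J J1 : Subgroup GQ} (hJ : J1 ≤ J)
    {e e1 : ℕ} {π ϖ : Qb} (U : UF p A w J e π) (U1 : UF p A w J1 e1 ϖ) {r : ℝ} (z : M)
    (N B1 : AddSubgroup M) (hN : ∀ n ∈ N, n ≠ 0 → ¬ TDS w H r n)
    (hz : ∀ s (hs : s ∈ J), act ⟨s, U.le hs⟩ z - z ∈ N)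
    (hfix : ∀ s (hs : s ∈ J), ∀ n ∈ N, act ⟨s, U.le hs⟩ n = n)
    (hB : ∀ y, y ∈ B1 ↔ ∃ s, ∃ hs : s ∈ J1, act ⟨s, U1.le hs⟩ z - z = y) {g : GQ} (hg : g ∈ J)
    (hgB : act ⟨g, U.le hg⟩ z - z ∉ B1) :
    g ϖ ≠ ϖ ∧ w (g ϖ - ϖ) ≤ Nat.card B1 * r := by
  classical
  have : Fintype M := Fintype.ofFinite M
  have hBN : ∀ y ∈ B1, y ∈ N := by
    intro y hy
    obtain ⟨s, hs, rfl⟩ := (hB y).1 hy
    exact hz s (hJ hs)
  obtain ⟨f, hf, hgen⟩ := hH.exists_generic P (r := r) z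
    (Finset.univ.filter fun n => n ∈ N ∧ n ≠ 0) (fun n hn => by
      rw [Finset.mem_filter] at hn
      exact hN n hn.2.1 hn.2.2)
  have hgen' : ∀ n ∈ N, n ≠ 0 → f z - f (z + n) ≠ 0 ∧ w (f z - f (z + n)) ≤ r := by
    intro n hn hn0
    have h1 := hgen n (Finset.mem_filter.2 ⟨Finset.mem_univ _, hn, hn0⟩)
    have h2 : f z - f (z + n) ≠ 0 := by
      intro h
      exact h1 (Or.inl (by rw [← neg_sub, h, neg_zero]))
    refine ⟨h2, ?_⟩
    by_contra h3
    refine h1 (Or.inr ?_)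
    rw [← neg_sub, P.nv.w_neg]
    exact not_le.1 h3
  have hfA : ∀ x, f x ∈ A := fun x => P.nv.mem_iff.2 (hH.mem_A P hf x)
  obtain ⟨b, hb⟩ : ∃ b, b = act ⟨g, U.le hg⟩ z - z := ⟨_, rfl⟩
  rw [← hb] at hgB
  -- the polynomial
  obtain ⟨F, hF⟩ : ∃ F : Polynomial Qb,
    F = ∏ y : B1, (Polynomial.X - Polynomial.C (f (z + y))) := ⟨_, rfl⟩
  have hact : ∀ s (hs : s ∈ J), ∀ y ∈ B1, s (f (z + y)) =
      f (z + (act ⟨s, U.le hs⟩ z - z + y)) := by
    intro s hs y hy
    rw [← hH.equiv f hf ⟨s, U.le hs⟩ (z + y), map_add, hfix s hs y (hBN y hy)]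
    congr 1
    abel
  have hFmap : ∀ s (hs : s ∈ J), F.map (s : Qb →+* Qb) =
      ∏ y : B1, (Polynomial.X - Polynomial.C (f (z + (act ⟨s, U.le hs⟩ z - z + y)))) := by
    intro s hs
    rw [hF, Polynomial.map_prod]
    refine Finset.prod_congr rfl fun y _ => ?_
    rw [Polynomial.map_sub, Polynomial.map_X, Polynomial.map_C]
    congr 2
    exact hact s hs y y.2
  have hFA : ∀ i, F.coeff i ∈ A := by
    intro i
    have h1 : F = (∏ y : B1, (Polynomial.X - Polynomial.C (⟨f (z + y), hfA _⟩ : A))).map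
        (algebraMap A Qb) := by
      rw [hF, Polynomial.map_prod]
      refine Finset.prod_congr rfl fun y _ => ?_
      rw [Polynomial.map_sub, Polynomial.map_X, Polynomial.map_C]
      rfl
    rw [h1, Polynomial.coeff_map]
    exact SetLike.coe_mem _
  have hFfix : ∀ i, ∀ s ∈ J1, s (F.coeff i) = F.coeff i := by
    intro i s hs
    have h1 : F.map (s : Qb →+* Qb) = F := by
      rw [hFmap s (hJ hs), hF]
      have h2 : act ⟨s, U.le (hJ hs)⟩ z - z ∈ B1 := (hB _).2 ⟨s, hs, rfl⟩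
      exact Fintype.prod_equiv (Equiv.addLeft (⟨_, h2⟩ : B1)) _ _ fun y => rfl
    conv_rhs => rw [← h1, Polynomial.coeff_map]
    rfl
  have hzero : F.eval (f z) = 0 := by
    rw [hF, Polynomial.eval_prod]
    refine Finset.prod_eq_zero (Finset.mem_univ (0 : B1)) ?_
    rw [Polynomial.eval_sub, Polynomial.eval_X, Polynomial.eval_C, ZeroMemClass.coe_zero,
      add_zero, sub_self]
  have hval : (F.map (g : Qb →+* Qb)).eval (f z) = ∏ y : B1, (f z - f (z + (b + y))) := by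
    rw [hFmap g hg, Polynomial.eval_prod, ← hb]
    refine Finset.prod_congr rfl fun y _ => ?_
    rw [Polynomial.eval_sub, Polynomial.eval_X, Polynomial.eval_C]
  have hby : ∀ y : B1, (b + y : M) ∈ N ∧ (b + y : M) ≠ 0 := by
    intro y
    refine ⟨N.add_mem ?_ (hBN y y.2), fun h => hgB ?_⟩
    · rw [hb]; exact hz g hg
    · rw [eq_neg_of_add_eq_zero_left h]
      exact B1.neg_mem y.2
  have hne : ∏ y : B1, (f z - f (z + (b + y))) ≠ 0 :=
    Finset.prod_ne_zero_iff.2 fun y _ => (hgen' _ (hby y).1 (hby y).2).1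
  have hle : w (∏ y : B1, (f z - f (z + (b + y)))) ≤ Nat.card B1 * r := by
    rw [P.nv.w_prod _ _ fun y _ => (hgen' _ (hby y).1 (hby y).2).1]
    refine (Finset.sum_le_card_nsmul _ _ r fun y _ => (hgen' _ (hby y).1 (hby y).2).2).trans ?_
    rw [nsmul_eq_mul, Finset.card_univ, Nat.card_eq_fintype_card]
  have key : ∀ c, Bl w c (g ϖ - ϖ) → c ≤ Nat.card B1 * r := by
    intro c hc
    have h1 : Bl w c (∏ y : B1, (f z - f (z + (b + y)))) := by
      have h2 : ∏ y : B1, (f z - f (z + (b + y))) =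
          (F.map (g : Qb →+* Qb) - F).eval (f z) := by
        rw [Polynomial.eval_sub, hzero, sub_zero, hval]
      rw [h2, Polynomial.eval_eq_sum, Polynomial.sum_def]
      refine P.nv.sum _ _ fun i _ => P.nv.mul_right ?_ ?_
      · rw [Polynomial.coeff_sub, Polynomial.coeff_map]
        exact U1.sub_gen P (U.le hg) hc (hFfix i) (P.nv.mem_iff.1 (hFA i))
      · have := P.nv.pow (hH.mem_A P hf z) i
        rwa [mul_zero] at this
    exact (h1.resolve_left hne).trans hle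
  refine ⟨fun h => ?_, key _ (Or.inr le_rfl)⟩
  have := key (Nat.card B1 * r + 1) (Or.inl (by rw [h, sub_self]))
  linarith

end Fermat.Agent.TW
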