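import Fermat.Agent.H19.LHE

/-!
# Hopf orders over inertia: Gauss sums
-/

set_option autoImplicit false
set_option linter.unusedSectionVars false

namespace Fermat.Agent.TW

open Fermat.Agent.CC NVal

section te

variable {A : ValuationSubring Qb} {p : ℕ} {w : Qb → ℝ}

/-- Teichmüller representatives with the same residue are equal -/
theorem PL.te_rsd_inj (P : PL p A w) {c d : Qb} (hc : Te p c) (hd : Te p d)
    (h : rsd A c = rsd A d) : c = d := by
  by_contra hcd
  rw [P.rsd_eq_iff (P.te_Bl hc) (P.te_Bl hd)] at h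
  have h1 := h.resolve_left (sub_ne_zero.2 hcd)
  rw [P.te_sub hc hd hcd] at h1
  exact lt_irrefl _ h1

theorem PL.te_lift (P : PL p A w) (a : IsLocalRing.ResidueField A) :
    ∃ r, Te p r ∧ rsd A r = a := P.rsd_surj a

/-- lifts of powers -/
theorem PL.te_pow_eq_one (P : PL p A w) {r : Qb} (hr : Te p r) {n : ℕ}
    (h : rsd A r ^ n = 1) : r ^ n = 1 := by
  refine P.te_rsd_inj (P.te_pow hr n) (Or.inr ⟨1, P.prime.not_dvd_one, by simp⟩) ?_
  rw [P.rsd_pow (P.te_Bl hr), h, P.rsd_one]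

end te

section gauss

variable {A : ValuationSubring Qb} {p : ℕ} {w : Qb → ℝ} {K : Type} [Field K]

/-- the Gauss sum operator -/
noncomputable def gop [Fintype K] (T : K → Qb) : (K → Qb) →ₗ[Qb] (K → Qb) where
  toFun f x := ∑ u, (T u)⁻¹ * f (x + u)
  map_add' f g := by
    funext x
    simp only [Pi.add_apply, mul_add, Finset.sum_add_distrib]
  map_smul' c f := by
    funext x
    simp only [Pi.smul_apply, smul_eq_mul, RingHom.id_apply, Finset.mul_sum]
    exact Finset.sum_congr rfl fun i _ => by ring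

theorem gop_apply [Fintype K] (T : K → Qb) (f : K → Qb) (x : K) :
    gop T f x = ∑ u, (T u)⁻¹ * f (x + u) := rfl

theorem gop_ti [Fintype K] (T : K → Qb) : TI (gop T) := by
  intro f x
  rw [gop_apply, gop_apply]
  simp only [zero_add]

/-- expansion of `ζ ^ k` -/
theorem zeta_expand (P : PL p A w) {ζ : Qb} (hζ : IsPrimitiveRoot ζ p) (k : ℕ) :
    Bl w (2 / (p - 1)) (ζ ^ k - 1 - k * (ζ - 1)) := by
  have hw : Bl w (1 / ((p : ℝ) - 1)) (ζ - 1) := by
    have h1 := P.nv.neg (Or.inr (P.nv.w_one_sub P.prime hζ).ge)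
    rwa [neg_sub] at h1
  have hζ0 : Bl w 0 ζ := Or.inr (P.nv.w_eq_zero_of_pow P.prime.ne_zero hζ.pow_eq_one).ge
  have hint : ∀ k : ℕ, Bl w (1 / ((p : ℝ) - 1)) (ζ ^ k - 1) := by
    intro k
    rw [← geom_sum_mul]
    refine P.nv.mul_left (P.nv.sum _ _ fun i _ => ?_) hw
    have := P.nv.pow hζ0 i
    rwa [mul_zero] at this
  induction k with
  | zero => left; simp
  | succ k ih =>
    have e1 : ζ ^ (k + 1) - 1 - ((k + 1 : ℕ) : Qb) * (ζ - 1) =
        (ζ ^ k - 1 - k * (ζ - 1)) + (ζ ^ k - 1) * (ζ - 1) := by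
      push_cast
      ring
    rw [e1]
    refine P.nv.add ih ?_
    have h1 := P.nv.mul (hint k) hw
    have e2 : 1 / ((p : ℝ) - 1) + 1 / (p - 1) = 2 / (p - 1) := by ring
    rwa [e2] at h1

theorem gauss (P : PL p A w) (hp2 : p ≠ 2) (hK : Nat.card K = p ^ 2)
    (tau : K →+* IsLocalRing.ResidueField A) {π : Qb} (hπ : π ^ (p ^ 2 - 1) = p)
    {act : A.inertiaSubgroupIn ℚ →* AddMonoid.End K}
    (hact : ∀ s z, tau (act s z) = rsd A ((s : GQ) π / π) * tau z)
    {H : Subalgebra (RI A) (K → Qb)} (hH : LH A act H) {z : K} (hz : z ≠ 0) :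
    ¬ TDS w H (1 / (p ^ 2 - 1)) z := by
  classical
  intro htds
  have hf : Fact p.Prime := ⟨P.prime⟩
  have hp3 : 3 ≤ p := by
    have := P.prime.two_le
    omega
  have hp3' : (3 : ℝ) ≤ p := by exact_mod_cast hp3
  have hpp : 1 ≤ p ^ 2 := Nat.one_le_pow _ _ P.prime.pos
  have hfinK : Finite K := Nat.finite_of_card_ne_zero (by rw [hK]; exact pow_ne_zero _ P.prime.ne_zero)
  have hft : Fintype K := Fintype.ofFinite K
  have hcard : Fintype.card K = p ^ 2 := by rw [← Nat.card_eq_fintype_card, hK]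
  have hinj : Function.Injective tau := tau.injective
  have hcp := P.charP
  have hcpK : CharP K p := RingHom.charP tau hinj p
  obtain ⟨e, he⟩ : ∃ e, e = p ^ 2 - 1 := ⟨_, rfl⟩
  rw [← he] at hπ
  have hecast : (e : ℝ) = (p : ℝ) ^ 2 - 1 := by
    rw [he, Nat.cast_sub hpp]
    push_cast
    ring
  have hne : ¬ p ∣ e := by
    intro h
    have h1 : p ∣ p ^ 2 := dvd_pow_self p two_ne_zero
    have h2 : p ∣ p ^ 2 - e := Nat.dvd_sub h1 h
    rw [he, Nat.sub_sub_self hpp] at h2
    exact P.prime.one_lt.ne' (Nat.dvd_one.1 h2)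
  have hπ0 : π ≠ 0 := P.tame_ne hne hπ
  have he0 : e ≠ 0 := by rintro rfl; exact hne (dvd_zero _)
  obtain ⟨U, -, -⟩ := P.uf_tame hne hπ
  -- all points are close to zero
  have hKpow : ∀ u : K, u ≠ 0 → u ^ e = 1 := by
    intro u hu
    have := FiniteField.pow_card_sub_one_eq_one u hu
    rwa [hcard, ← he] at this
  have hall : ∀ z' : K, TDS w H (1 / e) z' := by
    intro z'
    by_cases hz' : z' = 0
    · rw [hz']; exact TDS_zero _
    obtain ⟨r, hr, hr1⟩ := P.te_lift (tau (z' / z))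
    have hr2 : r ^ e = 1 := by
      refine P.te_pow_eq_one hr ?_
      rw [hr1, ← map_pow, hKpow _ (div_ne_zero hz' hz), map_one]
    obtain ⟨σ, hσ, hσ1⟩ := P.theta_surj hne hπ hr2
    have h1 : act ⟨σ, hσ⟩ z = z' := by
      apply hinj
      rw [hact]
      change rsd A (σ π / π) * tau z = tau z'
      rw [hσ1, mul_div_cancel_right₀ _ hπ0, hr1, ← map_mul, div_mul_cancel₀ _ hz]
    rw [← h1]
    refine hH.act_tds P ⟨σ, hσ⟩ ?_
    rw [hecast]
    exact htds
  have hfixJ : ∀ (u : K) (s) (hs : s ∈ Jt A π), act ⟨s, U.le hs⟩ u = u := by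
    intro u s hs
    apply hinj
    rw [hact]
    change rsd A (s π / π) * tau u = tau u
    rw [hs.2, div_self hπ0, P.rsd_one, one_mul]
  have htd : ∀ u : K, TD w H (2 / e) u := by
    intro u
    have h1 := hH.td_of_fix P U (hfixJ u) (m := 1) (by rw [Int.cast_one]; exact hall u)
    have h2 : (((1 : ℤ) + 1 : ℤ) : ℝ) = 2 := by norm_num
    rwa [h2] at h1
  -- Teichmüller character
  choose T hT hT1 using fun u : K => P.te_lift (tau u)
  have hTmul : ∀ u v, T (u * v) = T u * T v := by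
    intro u v
    refine P.te_rsd_inj (hT _) (P.te_mul (hT _) (hT _)) ?_
    rw [hT1, P.rsd_mul (P.te_Bl (hT _)) (P.te_Bl (hT _)), hT1, hT1, map_mul]
  have hT0 : T 0 = 0 := by
    refine P.te_rsd_inj (hT _) (Or.inl rfl) ?_
    rw [hT1, map_zero, P.rsd_zero]
  have hTne : ∀ u, u ≠ 0 → T u ≠ 0 := by
    intro u hu h
    have h1 := hT1 u
    rw [h, P.rsd_zero] at h1
    exact hu (hinj (by rw [← h1, map_zero]))
  have hTinv : ∀ u, Bl w 0 (T u)⁻¹ := by
    intro u
    by_cases hu : u = 0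
    · rw [hu, hT0, inv_zero]; exact NVal.zero _
    · right
      rw [P.nv.log.inv (hTne u hu), P.te_w (hT u) (hTne u hu), neg_zero]
  have hTfix : ∀ u, ∀ σ ∈ A.inertiaSubgroupIn ℚ, σ (T u) = T u := fun u σ hσ =>
    P.te_fixed (hT u) hσ
  -- orthogonality
  have hsum0 : ∑ u, (T u)⁻¹ = 0 := by
    obtain ⟨a, ha0, ha1⟩ : ∃ a : K, a ≠ 0 ∧ a ≠ 1 := by
      by_contra hno
      push Not at hno
      have h1 : (Finset.univ : Finset K) ⊆ {0, 1} := by
        intro a _
        rw [Finset.mem_insert, Finset.mem_singleton]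
        by_cases h : a = 0
        · exact Or.inl h
        · exact Or.inr (hno a h)
      have h2 := (Finset.card_le_card h1).trans Finset.card_le_two
      rw [Finset.card_univ, hcard] at h2
      nlinarith
    have h1 : ∑ u, (T u)⁻¹ = (T a)⁻¹ * ∑ u, (T u)⁻¹ := by
      rw [Finset.mul_sum]
      refine Fintype.sum_equiv (Equiv.mulLeft₀ a⁻¹ (inv_ne_zero ha0)) _ _ fun u => ?_
      rw [← mul_inv, ← hTmul, Equiv.mulLeft₀_apply, mul_inv_cancel_left₀ ha0]
    have h2 : (1 - (T a)⁻¹) * ∑ u, (T u)⁻¹ = 0 := by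
      rw [sub_mul, one_mul, ← h1, sub_self]
    refine (mul_eq_zero.1 h2).resolve_left fun h3 => ?_
    have h4 : T a = 1 := by
      rw [sub_eq_zero] at h3
      rw [← inv_inv (T a), ← h3, inv_one]
    have h5 := hT1 a
    rw [h4, P.rsd_one] at h5
    exact ha1 (hinj (by rw [← h5, map_one]))
  -- the equivariance of the operator
  have hbij : ∀ s : A.inertiaSubgroupIn ℚ, Function.Bijective (act s) := by
    intro s
    have h1 : Function.Injective (act s) := by
      intro u v h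
      have h2 := congrArg tau h
      rw [hact, hact] at h2
      refine hinj (mul_left_cancel₀ ?_ h2)
      intro h3
      have h4 : Te p ((s : GQ) π / π) := P.theta_te hne hπ s
      rw [P.rsd_eq_zero_iff (P.te_Bl h4)] at h3
      have h5 : (s : GQ) π / π ≠ 0 := div_ne_zero ((map_ne_zero _).2 hπ0) hπ0
      have h6 := h3.resolve_left h5
      rw [P.te_w h4 h5] at h6
      exact lt_irrefl _ h6
    exact Finite.injective_iff_bijective.1 h1
  have hTact : ∀ (s : A.inertiaSubgroupIn ℚ) u, T (act s u) = ((s : GQ) π / π) * T u := by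
    intro s u
    have h4 : Te p ((s : GQ) π / π) := P.theta_te hne hπ s
    refine P.te_rsd_inj (hT _) (P.te_mul h4 (hT _)) ?_
    rw [hT1, P.rsd_mul (P.te_Bl h4) (P.te_Bl (hT _)), hT1, hact]
  have hop : ∀ φ ∈ H, Bl w (1 + 1 / e) (gop T φ 0) := by
    intro φ hφ
    have he1 : (0 : ℝ) < e := Nat.cast_pos.2 (Nat.pos_of_ne_zero he0)
    have h1 : Bl w (2 / e) (gop T φ 0) := by
      have h2 : gop T φ 0 = ∑ u, (T u)⁻¹ * (φ u - φ 0) := by
        rw [gop_apply]
        simp only [zero_add, mul_sub, Finset.sum_sub_distrib]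
        rw [← Finset.sum_mul, hsum0, zero_mul, sub_zero]
      rw [h2]
      exact P.nv.sum _ _ fun u _ => P.nv.mul_left (hTinv u) (htd u φ hφ)
    by_cases h0 : gop T φ 0 = 0
    · exact Or.inl h0
    right
    have h1' := h1.resolve_left h0
    have hwπ := P.tame_w hne hπ
    have h2 : ∀ σ ∈ A.inertiaSubgroupIn ℚ, σ (gop T φ 0 / π) = gop T φ 0 / π := by
      intro σ hσ
      have h3 : σ (gop T φ 0) = (σ π / π) * gop T φ 0 := by
        rw [gop_apply, map_sum, Finset.mul_sum]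
        refine Fintype.sum_equiv (Equiv.ofBijective _ (hbij ⟨σ, hσ⟩)) _ _ fun u => ?_
        rw [Equiv.ofBijective_apply, map_mul, map_inv₀, hTfix u σ hσ, hTact, zero_add, zero_add,
          ← hH.equiv φ hφ ⟨σ, hσ⟩ u]
        change (T u)⁻¹ * _ = σ π / π * ((σ π / π * T u)⁻¹ * _)
        have h5 : σ π / π ≠ 0 := div_ne_zero ((map_ne_zero _).2 hπ0) hπ0
        rw [mul_inv, ← mul_assoc, ← mul_assoc, mul_inv_cancel₀ h5, one_mul]
      have h5 : σ π ≠ 0 := (map_ne_zero _).2 hπ0
      rw [map_div₀, h3]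
      field_simp
    obtain ⟨n, hn⟩ := P.int_of_fixed (div_ne_zero h0 hπ0) h2
    rw [P.nv.w_div h0 hπ0, hwπ] at hn
    have h3 : (0 : ℝ) < n := by
      rw [← hn]
      have h4 : (0 : ℝ) < 1 / e := by positivity
      have h5 : (2 : ℝ) / e = 1 / e + 1 / e := by ring
      linarith
    have h4 : (1 : ℝ) ≤ n := by
      have : (0 : ℤ) < n := by exact_mod_cast h3
      exact_mod_cast this
    linarith
  -- the Gauss sums
  obtain ⟨ζ, hζ⟩ : ∃ ζ : Qb, IsPrimitiveRoot ζ p := by
    have i1 : NeZero p := ⟨P.prime.ne_zero⟩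
    have i2 : NeZero ((p : ℕ) : Qb) := ⟨P.p_ne_zero⟩
    exact HasEnoughRootsOfUnity.exists_primitiveRoot Qb p
  obtain ⟨x, C⟩ := exists_CY P.prime hζ
  have hmain : ∀ l : K →+ ZMod p,
      ∑ u, tau u⁻¹ * (((l u).val : ℕ) : IsLocalRing.ResidueField A) = 0 := by
    intro l
    obtain ⟨G, hG⟩ : ∃ G : Qb, G = ∑ u, (T u)⁻¹ * zp ζ (l u) := ⟨_, rfl⟩
    have h1 : Bl w (1 + 1 / e) G := by
      refine hH.meas P (gop_ti T) hop (ψ := fun y => zp ζ (l y))
        (Function.ne_iff.2 ⟨0, C.zp_ne _⟩) ?_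
      funext y
      rw [gop_apply, Pi.smul_apply, smul_eq_mul, hG, Finset.sum_mul]
      refine Finset.sum_congr rfl fun u _ => ?_
      rw [map_add, C.zp_add]
      ring
    obtain ⟨lam, hlam⟩ : ∃ lam, lam = ζ - 1 := ⟨_, rfl⟩
    have hlam0 : lam ≠ 0 := by
      rw [hlam]; exact sub_ne_zero.2 (hζ.ne_one P.prime.one_lt)
    have hwlam : w lam = 1 / ((p : ℝ) - 1) := by
      rw [hlam, ← neg_sub, P.nv.w_neg]
      exact P.nv.w_one_sub P.prime hζ
    have hp1 : (0 : ℝ) < (p : ℝ) - 1 := by linarith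
    have hhalf : 1 / ((p : ℝ) - 1) ≤ 1 / 2 := by
      rw [div_le_div_iff₀ hp1 (by norm_num)]
      linarith
    have hpos : 0 < 1 / ((p : ℝ) - 1) := by positivity
    have h2 : Bl w (2 / (p - 1)) (G - lam * ∑ u, (T u)⁻¹ * ((l u).val : Qb)) := by
      have e1 : G - lam * ∑ u, (T u)⁻¹ * ((l u).val : Qb) =
          ∑ u, (T u)⁻¹ * (ζ ^ (l u).val - 1 - (l u).val * (ζ - 1)) := by
        have e2 : ∑ u, (T u)⁻¹ * (ζ ^ (l u).val - 1 - (l u).val * (ζ - 1)) =
            ∑ u, (T u)⁻¹ * ζ ^ (l u).val - ∑ u, (T u)⁻¹ -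
              lam * ∑ u, (T u)⁻¹ * ((l u).val : Qb) := by
          rw [Finset.mul_sum, ← Finset.sum_sub_distrib, ← Finset.sum_sub_distrib]
          refine Finset.sum_congr rfl fun u _ => ?_
          rw [hlam]
          ring
        rw [e2, hsum0, sub_zero, hG]
        rfl
      rw [e1]
      exact P.nv.sum _ _ fun u _ => P.nv.mul_left (hTinv u) (zeta_expand P hζ _)
    have h3 : Bs w 0 (∑ u, (T u)⁻¹ * ((l u).val : Qb)) := by
      have h4 : Bs w (1 / ((p : ℝ) - 1)) (lam * ∑ u, (T u)⁻¹ * ((l u).val : Qb)) := by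
        have h5 : Bs w (1 / ((p : ℝ) - 1)) G := Bs_of h1 (by
          have : (0 : ℝ) ≤ 1 / e := by positivity
          linarith)
        have h6 : Bs w (1 / ((p : ℝ) - 1)) (G - lam * ∑ u, (T u)⁻¹ * ((l u).val : Qb)) :=
          Bs_of h2 (by
            have : 2 / ((p : ℝ) - 1) = 1 / (p - 1) + 1 / (p - 1) := by ring
            linarith)
        have h7 := Bs_sub P.nv h5 h6
        rwa [sub_sub_cancel] at h7
      have h8 := Bs_div P.nv hlam0 h4
      rwa [mul_div_cancel_left₀ _ hlam0, hwlam, sub_self] at h8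
    have hb : ∀ u, Bl w 0 ((T u)⁻¹ * ((l u).val : Qb)) := fun u =>
      P.nv.mul_left (hTinv u) (P.nv.natCast _)
    have h9 : ∀ s : Finset K, rsd A (∑ u ∈ s, (T u)⁻¹ * ((l u).val : Qb)) =
        ∑ u ∈ s, tau u⁻¹ * (((l u).val : ℕ) : IsLocalRing.ResidueField A) := by
      intro s
      induction s using Finset.induction_on with
      | empty => rw [Finset.sum_empty, Finset.sum_empty, P.rsd_zero]
      | insert a s ha ih =>
        rw [Finset.sum_insert ha, Finset.sum_insert ha,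
          P.rsd_add (hb a) (P.nv.sum _ _ fun u _ => hb u), ih,
          P.rsd_mul (hTinv a) (P.nv.natCast _), P.rsd_natCast]
        congr 2
        by_cases ha0 : a = 0
        · rw [ha0, hT0, inv_zero, inv_zero, map_zero, P.rsd_zero]
        · have h10 : T a⁻¹ = (T a)⁻¹ := by
            apply eq_inv_of_mul_eq_one_left
            rw [← hTmul, inv_mul_cancel₀ ha0]
            refine P.te_rsd_inj (hT _) (Or.inr ⟨1, P.prime.not_dvd_one, by simp⟩) ?_
            rw [hT1, map_one, P.rsd_one]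
          rw [← h10, hT1]
    rw [← h9 Finset.univ]
    exact (P.rsd_eq_zero_iff (P.nv.sum _ _ fun u _ => hb u)).2 h3
  -- duality
  have := ZMod.algebra K p
  let b := Module.finBasis (ZMod p) K
  have hexp : ∀ u : K, tau u = ∑ i, ((((b.coord i) u).val : ℕ) : IsLocalRing.ResidueField A) *
      tau (b i) := by
    intro u
    conv_lhs => rw [← b.sum_repr u, map_sum]
    refine Finset.sum_congr rfl fun i _ => ?_
    rw [Module.Basis.coord_apply, Algebra.smul_def, map_mul]
    congr 1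
    have h1 : algebraMap (ZMod p) K (b.repr u i) = (((b.repr u i).val : ℕ) : K) := by
      conv_lhs => rw [← ZMod.natCast_zmod_val (b.repr u i), map_natCast]
    rw [h1, map_natCast]
  have hfin : ∑ u : K, tau u⁻¹ * tau u = 0 := by
    have h1 : ∀ u ∈ (Finset.univ : Finset K), tau u⁻¹ * tau u =
        ∑ i, tau (b i) * (tau u⁻¹ * ((((b.coord i) u).val : ℕ) :
          IsLocalRing.ResidueField A)) := by
      intro u _
      conv_lhs => rw [hexp u, Finset.mul_sum]
      exact Finset.sum_congr rfl fun i _ => by ring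
    rw [Finset.sum_congr rfl h1, Finset.sum_comm]
    refine Finset.sum_eq_zero fun i _ => ?_
    rw [← Finset.mul_sum]
    have h2 := hmain (b.coord i).toAddMonoidHom
    have h3 : ∑ u, tau u⁻¹ * ((((b.coord i).toAddMonoidHom u).val : ℕ) :
        IsLocalRing.ResidueField A) = ∑ u, tau u⁻¹ * ((((b.coord i) u).val : ℕ) :
        IsLocalRing.ResidueField A) := rfl
    rw [← h3, h2, mul_zero]
  have hone : ∀ u ∈ (Finset.univ.erase 0 : Finset K), tau u⁻¹ * tau u = 1 := by
    intro u hu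
    rw [← map_mul, inv_mul_cancel₀ (Finset.ne_of_mem_erase hu), map_one]
  rw [← Finset.add_sum_erase _ _ (Finset.mem_univ (0 : K)), Finset.sum_congr rfl hone,
    inv_zero, map_zero, zero_mul, zero_add, Finset.sum_const, Finset.card_erase_of_mem
    (Finset.mem_univ _), Finset.card_univ, hcard, ← he, nsmul_eq_mul, mul_one] at hfin
  exact hne ((CharP.cast_eq_zero_iff _ p e).1 hfin)

end gauss

end Fermat.Agent.TW
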