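import Mathlib
import Fermat.Agent.H19.NewTrace
import Fermat.Agent.H25.GeoPf

/-!
# Newforms congruent to an elliptic curve: the trace of Frobenius at the Steinberg primes, final form
-/

set_option autoImplicit false
set_option linter.unusedSectionVars false

namespace Fermat.Agent.H19

open IsLocalRing CongruenceSubgroup Polynomial
open Fermat.Agent.H25 Fermat.Agent.H25.PT Fermat.Agent.Ell Fermat.Agent.H08 Fermat.Agent.H09
open WeierstrassCurve WeierstrassCurve.Affine WeierstrassCurve.Affine.Point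
open Fermat.Agent.CC Fermat.Agent.TW
open ModularFormClass (qCoeff)

/-- **newforms congruent to an elliptic curve: trace of Frobenius at the Steinberg primes** -/
theorem newform_trace_sq {W : WeierstrassCurve ℤ} (hΔ : W.Δ ≠ 0) {p : ℕ} [hp : Fact p.Prime]
    (_hp2 : p ≠ 2) (hirr : W.ModRepIsIrreducible p) {L : ℕ} [NeZero L]
    {g : CuspForm (Gamma0 L) 2} (hg : g.IsNewform) {𝔪 : Ideal (integralClosure ℤ ℂ)}
    (h𝔪 : 𝔪.IsMaximal) (hp𝔪 : (p : integralClosure ℤ ℂ) ∈ 𝔪) (bad : Finset ℕ)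
    (hcong : ∀ ℓ, ℓ.Prime → ℓ ∉ bad → ∃ a : integralClosure ℤ ℂ, (a : ℂ) = qCoeff g ℓ ∧
      a - ((W.apOfModel ℓ : ℤ) : integralClosure ℤ ℂ) ∈ 𝔪) {q : ℕ} (hq : q.Prime) (hqp : q ≠ p)
    (hqL : q ∣ L) (hqq : ¬ q ^ 2 ∣ L) {A : ValuationSubring Qb} (hA : A.LiesOverPrime q) {φ : GQ}
    (hφ : A.IsFrobeniusAt φ q) :
    (PadicInt.toZMod (LinearMap.trace ℤ_[p] (Ell.TT (WQ W) p) (Ell.rr (WQ W) p φ))) ^ 2 =
      ((q : ZMod p) + 1) ^ 2 :=
  newform_trace_sq_of_geo hΔ (geo_all hp.out) hirr hg h𝔪 hp𝔪 bad hcong hq hqp hqL hqq hA hφ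

end Fermat.Agent.H19
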