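import Mathlib
import Fermat.Agent.H19.NewTrace
import Fermat.Agent.H12.LL.RDW2

/-!
# Newforms congruent to an elliptic curve: unramified primes
-/

set_option autoImplicit false
set_option linter.unusedSectionVars false
set_option linter.style.haveILetI false

namespace Fermat.Agent.H19

open IsLocalRing CongruenceSubgroup Polynomial
open Fermat.Agent.H25 Fermat.Agent.H25.PT Fermat.Agent.Ell Fermat.Agent.H08 Fermat.Agent.H09
open WeierstrassCurve WeierstrassCurve.Affine WeierstrassCurve.Affine.Point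
open Fermat.Agent.CC Fermat.Agent.TW Fermat.Agent.H12.LL
open ModularFormClass (qCoeff)

theorem newform_unrAt_of_geo {W : WeierstrassCurve ℤ} (hΔ : W.Δ ≠ 0) {p : ℕ}
    [hp : Fact p.Prime] (hp2 : p ≠ 2) (G : Geo p) (hirr : W.ModRepIsIrreducible p) {L : ℕ}
    [NeZero L] {g : CuspForm (Gamma0 L) 2} (hg : g.IsNewform) {𝔪 : Ideal (integralClosure ℤ ℂ)}
    (h𝔪 : 𝔪.IsMaximal) (hp𝔪 : (p : integralClosure ℤ ℂ) ∈ 𝔪) (bad : Finset ℕ)
    (hcong : ∀ ℓ, ℓ.Prime → ℓ ∉ bad → ∃ a : integralClosure ℤ ℂ, (a : ℂ) = qCoeff g ℓ ∧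
      a - ((W.apOfModel ℓ : ℤ) : integralClosure ℤ ℂ) ∈ 𝔪) {q : ℕ} (hq : q.Prime) (hqp : q ≠ p)
    (hqL : ¬ q ∣ L) : UnrAt W p q := by
  obtain ⟨O, i1, i2, i3, i4, i5, i6, hpO, τ, R, j, hR⟩ :=
    exists_NRep_match hΔ G hirr hg h𝔪 hp𝔪 bad hcong
  haveI hloc : IsLocalHom (algebraMap ℤ_[p] ℤ_[p]) := by
    constructor
    intro a ha
    exact ha
  haveI := charP_res p ℤ_[p]
  intro A hA σ hσ
  have h1 : ∀ h : GQ, PadicInt.toZMod ((zRep W hΔ p).trace (σ * h)) =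
      PadicInt.toZMod ((zRep W hΔ p).trace h) := by
    intro h
    apply j.injective
    rw [← hR, ← hR]
    congr 1
    change LinearMap.trace R.Q R.ρ.V (R.ρ.ρ (σ * h)) = LinearMap.trace R.Q R.ρ.V (R.ρ.ρ h)
    rw [map_mul, R.unr q hq hqL hqp A hA σ hσ, one_mul]
  obtain ⟨D, hD⟩ : ∃ D, D = RDW hΔ hirr hp2 ℤ_[p] := ⟨_, rfl⟩
  have h2 : ∀ h : GQ, D.tbar (σ * h) = D.tbar h := by
    intro h
    rw [hD, RDW_tbar, RDW_tbar]
    refine (ringHom_padic (redk p ℤ_[p]) _).trans (Eq.trans ?_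
      (ringHom_padic (redk p ℤ_[p]) _).symm)
    exact congrArg _ (h1 h)
  have h3 : D.rbar σ - 1 = 0 := by
    refine Fermat.Agent.H25.TR.eq_zero_of_trace_mul (h2 := D.h2k) (hc := D.cc) (ht := D.ps)
      (htc := D.tc) (hu := mul_inv_cancel₀ D.ent) (hM := D.rbar_eq) fun h => ?_
    rw [sub_mul, Matrix.trace_sub, one_mul, ← map_mul, D.trace_rbar, D.trace_rbar, h2, sub_self]
  have h4 : D.rbar σ = 1 := sub_eq_zero.mp h3
  rw [hD] at h4
  exact (RDW_rbar_eq_one_iff hΔ hirr hp2 σ).mp h4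

end Fermat.Agent.H19
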