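import Mathlib
import Fermat.Agent.H19.NewUnr
import Fermat.Agent.H25.GeoPf

/-!
# Newforms congruent to an elliptic curve: unramified primes, final form
-/

set_option autoImplicit false
set_option linter.unusedSectionVars false

namespace Fermat.Agent.H19

open IsLocalRing CongruenceSubgroup Polynomial
open Fermat.Agent.H25 Fermat.Agent.H25.PT
open Fermat.Agent.CC Fermat.Agent.TW Fermat.Agent.H12.LL
open ModularFormClass (qCoeff)

/-- **newforms congruent to an elliptic curve: unramified primes** -/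
theorem newform_unrAt {W : WeierstrassCurve ℤ} (hΔ : W.Δ ≠ 0) {p : ℕ}
    [hp : Fact p.Prime] (hp2 : p ≠ 2) (hirr : W.ModRepIsIrreducible p) {L : ℕ}
    [NeZero L] {g : CuspForm (Gamma0 L) 2} (hg : g.IsNewform) {𝔪 : Ideal (integralClosure ℤ ℂ)}
    (h𝔪 : 𝔪.IsMaximal) (hp𝔪 : (p : integralClosure ℤ ℂ) ∈ 𝔪) (bad : Finset ℕ)
    (hcong : ∀ ℓ, ℓ.Prime → ℓ ∉ bad → ∃ a : integralClosure ℤ ℂ, (a : ℂ) = qCoeff g ℓ ∧
      a - ((W.apOfModel ℓ : ℤ) : integralClosure ℤ ℂ) ∈ 𝔪) {q : ℕ} (hq : q.Prime) (hqp : q ≠ p)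
    (hqL : ¬ q ∣ L) : UnrAt W p q :=
  newform_unrAt_of_geo hΔ hp2 (geo_all hp.out) hirr hg h𝔪 hp𝔪 bad hcong hq hqp hqL

end Fermat.Agent.H19
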