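import Fermat.Agent.H19.HopfF

set_option autoImplicit false
set_option linter.unusedSectionVars false

/-!
# The discriminant of a Hopf order is a `|M|`-th power

Consequence: at a prime `ℓ` a Galois module of even order whose sign character is ramified of odd
discriminant valuation at `ℓ` has no Hopf order.
-/

noncomputable section

namespace Fermat.Agent.H19

open Fermat.Agent.H02F TensorProduct

variable {ℓ : ℕ} {M : Type*} [AddCommGroup M] [Fintype M] [DecidableEq M]
  {act : GQ →* AddMonoid.End M} {H : Subalgebra (RL ℓ) (M → Qb)} (hH : IsHopfOrder ℓ act H)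

include hH

theorem card_basisH : Fintype.card (Fin (Module.finrank (RL ℓ) H)) = Fintype.card M := by
  have h1 := Module.finrank_eq_card_basis (basisQb hH)
  rw [Module.finrank_fintype_fun_eq_card] at h1
  exact h1.symm

/-- basis indexed by `M` -/
def bM : Module.Basis M (RL ℓ) H :=
  (basisH hH).reindex (Fintype.equivOfCardEq (card_basisH hH))

/-- the matrix of values -/
def BM : Matrix M M Qb := Matrix.of fun x y => (bM hH x).1 y

theorem isUnit_det_BM : IsUnit (BM hH).det := by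
  rw [← Matrix.isUnit_iff_isUnit_det, ← Matrix.linearIndependent_rows_iff_isUnit]
  exact linInd_coe hH (bM hH).linearIndependent

/-- the inverse matrix -/
def BI : Matrix M M Qb := (BM hH)⁻¹

theorem BM_mul_BI : BM hH * BI hH = 1 := Matrix.mul_nonsing_inv _ (isUnit_det_BM hH)

theorem BI_mul_BM : BI hH * BM hH = 1 := Matrix.nonsing_inv_mul _ (isUnit_det_BM hH)

theorem BM_apply (x y : M) : BM hH x y = (bM hH x).1 y := rfl

theorem expand (φ : H) (y : M) :
    φ.1 y = ∑ i, algebraMap (RL ℓ) Qb ((bM hH).repr φ i) * BM hH i y := by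
  have h1 := (bM hH).sum_repr φ
  have h2 := congrArg (fun z : H => z.1 y) h1
  rw [← h2]
  change (evA H y) (∑ i, (bM hH).repr φ i • bM hH i) = _
  rw [map_sum]
  refine Finset.sum_congr rfl fun i _ => ?_
  rw [map_smul, Algebra.smul_def]
  rfl

theorem repr_eq (φ : H) (i : M) :
    algebraMap (RL ℓ) Qb ((bM hH).repr φ i) = ∑ y, φ.1 y * BI hH y i := by
  have h1 : ∀ j, ∑ y, BM hH j y * BI hH y i = if j = i then 1 else 0 := fun j => by
    rw [← Matrix.mul_apply, BM_mul_BI, Matrix.one_apply]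
  calc algebraMap (RL ℓ) Qb ((bM hH).repr φ i)
      = ∑ j, algebraMap (RL ℓ) Qb ((bM hH).repr φ j) * ∑ y, BM hH j y * BI hH y i := by
        simp_rw [h1]
        simp
    _ = ∑ y, φ.1 y * BI hH y i := by
        simp_rw [expand hH φ, Finset.mul_sum, Finset.sum_mul]
        rw [Finset.sum_comm]
        refine Finset.sum_congr rfl fun y _ => Finset.sum_congr rfl fun j _ => ?_
        ring

theorem exists_gamma : ∃ γ : M → M → M → RL ℓ, ∀ i x y,
    BM hH i (x + y) = ∑ j, ∑ l, algebraMap (RL ℓ) Qb (γ i j l) * BM hH j x * BM hH l y := by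
  have key : ∀ i, ∃ g : M → M → RL ℓ, ∀ x y,
      BM hH i (x + y) = ∑ j, ∑ l, algebraMap (RL ℓ) Qb (g j l) * BM hH j x * BM hH l y := by
    intro i
    obtain ⟨n, a, b, ha, hb, hab⟩ := hH.comul _ (bM hH i).2
    refine ⟨fun j l => ∑ k, (bM hH).repr ⟨a k, ha k⟩ j * (bM hH).repr ⟨b k, hb k⟩ l,
      fun x y => ?_⟩
    rw [BM_apply, hab]
    have ea : ∀ k, a k x = ∑ j, algebraMap (RL ℓ) Qb ((bM hH).repr ⟨a k, ha k⟩ j) * BM hH j x :=
      fun k => expand hH ⟨a k, ha k⟩ x
    have eb : ∀ k, b k y = ∑ j, algebraMap (RL ℓ) Qb ((bM hH).repr ⟨b k, hb k⟩ j) * BM hH j y :=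
      fun k => expand hH ⟨b k, hb k⟩ y
    simp_rw [ea, eb, Finset.sum_mul_sum, map_sum, map_mul, Finset.sum_mul]
    rw [Finset.sum_comm]
    refine Finset.sum_congr rfl fun j _ => ?_
    rw [Finset.sum_comm]
    refine Finset.sum_congr rfl fun l _ => Finset.sum_congr rfl fun k _ => ?_
    ring
  choose γ hγ using key
  exact ⟨γ, hγ⟩

/-- the trace of an element of `H` -/
theorem trace_mem (φ : H) : ∃ r : RL ℓ, algebraMap (RL ℓ) Qb r = ∑ y, φ.1 y := by
  have h1 : ∀ σ : GQ, σ (∑ y, φ.1 y) = ∑ y, φ.1 y := by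
    intro σ
    rw [map_sum]
    have e1 : ∀ y, σ (φ.1 y) = φ.1 (act σ y) := fun y => (hH.equiv _ φ.2 σ y).symm
    simp_rw [e1]
    let ε : M ≃ M := ⟨act σ, act σ⁻¹, act_act_inv σ, act_inv_act σ⟩
    exact Equiv.sum_comp ε φ.1
  obtain ⟨q, hq⟩ := fixed_mem_range h1
  have := finite_H hH
  have h2 : IsIntegral (RL ℓ) φ := Algebra.IsIntegral.isIntegral φ
  have h3 : IsIntegral (RL ℓ) (∑ y, φ.1 y) := by
    refine IsIntegral.sum _ fun y _ => ?_
    exact h2.map (evA H y)
  rw [← hq] at h3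
  have h4 : IsIntegral (RL ℓ) q :=
    (isIntegral_algHom_iff ((IsScalarTower.toAlgHom ℚ ℚ Qb).restrictScalars (RL ℓ))
      (algebraMap ℚ Qb).injective).mp h3
  obtain ⟨r, hr⟩ := IsIntegrallyClosed.isIntegral_iff.mp h4
  refine ⟨r, ?_⟩
  rw [← hq, ← hr, ← IsScalarTower.algebraMap_apply]

/-- the key identity -/
theorem BI_add {γ : M → M → M → RL ℓ} (hγ : ∀ i x y,
    BM hH i (x + y) = ∑ j, ∑ l, algebraMap (RL ℓ) Qb (γ i j l) * BM hH j x * BM hH l y)
    (x y k : M) : BI hH (x + y) k =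
      ∑ i, BI hH x i * ∑ l, algebraMap (RL ℓ) Qb (γ i k l) * BM hH l (-y) := by
  have h1 : ∀ j, ∑ z, BM hH j z * BI hH z k = if j = k then 1 else 0 := fun j => by
    rw [← Matrix.mul_apply, BM_mul_BI, Matrix.one_apply]
  have h2 : ∀ z, ∑ i, BI hH x i * BM hH i z = if x = z then 1 else 0 := fun z => by
    rw [← Matrix.mul_apply, BI_mul_BM, Matrix.one_apply]
  have h3 : ∀ i, ∑ l, algebraMap (RL ℓ) Qb (γ i k l) * BM hH l (-y) =
      ∑ z, BI hH z k * BM hH i (z + -y) := by
    intro i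
    simp_rw [hγ]
    calc ∑ l, algebraMap (RL ℓ) Qb (γ i k l) * BM hH l (-y)
        = ∑ j, (∑ z, BM hH j z * BI hH z k) *
            ∑ l, algebraMap (RL ℓ) Qb (γ i j l) * BM hH l (-y) := by
          simp_rw [h1]
          simp
      _ = _ := by
          simp_rw [Finset.sum_mul, Finset.mul_sum]
          rw [Finset.sum_comm]
          refine Finset.sum_congr rfl fun z _ => Finset.sum_congr rfl fun j _ =>
            Finset.sum_congr rfl fun l _ => ?_
          ring
  simp_rw [h3, Finset.mul_sum]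
  rw [Finset.sum_comm]
  have h4 : ∀ z, ∑ i, BI hH x i * (BI hH z k * BM hH i (z + -y)) =
      BI hH z k * if x = z + -y then 1 else 0 := by
    intro z
    rw [← h2, Finset.mul_sum]
    refine Finset.sum_congr rfl fun i _ => ?_
    ring
  simp_rw [h4]
  rw [Finset.sum_eq_single (x + y)]
  · simp
  · intro z _ hz
    rw [if_neg, mul_zero]
    intro h
    exact hz (by rw [h]; abel)
  · intro h; exact absurd (Finset.mem_univ _) h

/-- the trace `H → R` -/
def traceL : H →ₗ[RL ℓ] RL ℓ where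
  toFun φ := Classical.choose (trace_mem hH φ)
  map_add' φ ψ := by
    apply algebraMap_RL_injective ℓ
    rw [map_add, Classical.choose_spec (trace_mem hH (φ + ψ)),
      Classical.choose_spec (trace_mem hH φ), Classical.choose_spec (trace_mem hH ψ),
      ← Finset.sum_add_distrib]
    rfl
  map_smul' r φ := by
    apply algebraMap_RL_injective ℓ
    rw [RingHom.id_apply, smul_eq_mul, map_mul, Classical.choose_spec (trace_mem hH (r • φ)),
      Classical.choose_spec (trace_mem hH φ), Finset.mul_sum]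
    refine Finset.sum_congr rfl fun y _ => ?_
    change r • φ.1 y = _
    rw [Algebra.smul_def]

theorem traceL_apply (φ : H) : algebraMap (RL ℓ) Qb (traceL hH φ) = ∑ y, φ.1 y :=
  Classical.choose_spec (trace_mem hH φ)

/-- **The discriminant of a Hopf order is a `|M|`-th power up to units.** -/
theorem exists_disc : ∃ (t : RL ℓ) (u : (RL ℓ)ˣ), t ≠ 0 ∧
    (BM hH).det ^ 2 = algebraMap (RL ℓ) Qb (t ^ Fintype.card M * u) := by
  obtain ⟨γ, hγ⟩ := exists_gamma hH
  obtain ⟨t, ht⟩ := (IsPrincipalIdealRing.principal (LinearMap.range (traceL hH))).principal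
  have htm : t ∈ LinearMap.range (traceL hH) := by
    rw [ht]; exact Submodule.mem_span_singleton_self t
  obtain ⟨h₀, hh₀⟩ := htm
  have hdvd : ∀ φ : H, ∃ r : RL ℓ, traceL hH φ = r * t := by
    intro φ
    have h1 : traceL hH φ ∈ LinearMap.range (traceL hH) := ⟨φ, rfl⟩
    rw [ht, Submodule.mem_span_singleton] at h1
    obtain ⟨r, hr⟩ := h1
    exact ⟨r, hr.symm⟩
  have ht0 : t ≠ 0 := by
    rintro rfl
    obtain ⟨r, hr⟩ := hdvd 1
    have h1 := traceL_apply hH 1
    rw [hr, mul_zero, map_zero] at h1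
    have h2 : ∑ y : M, (1 : H).1 y = (Fintype.card M : Qb) := by
      change ∑ y : M, (1 : Qb) = _
      simp
    rw [h2] at h1
    have h3 : (Fintype.card M : Qb) ≠ 0 := by
      exact_mod_cast Fintype.card_ne_zero
    exact h3 h1.symm
  -- claim 1
  have c1 : ∀ k, ∃ r : RL ℓ, algebraMap (RL ℓ) Qb r = algebraMap (RL ℓ) Qb t * BI hH 0 k := by
    intro k
    let G : M → H := fun i => ∑ l, γ i k l • bM hH l
    have hG : ∀ i y, (G i).1 y = ∑ l, algebraMap (RL ℓ) Qb (γ i k l) * BM hH l y := by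
      intro i y
      change evA H y (∑ l, γ i k l • bM hH l) = _
      rw [map_sum]
      refine Finset.sum_congr rfl fun l _ => ?_
      rw [map_smul, Algebra.smul_def]
      rfl
    refine ⟨∑ i, (bM hH).repr (G i * h₀) i, ?_⟩
    rw [map_sum]
    simp_rw [repr_eq hH]
    rw [Finset.sum_comm]
    have h1 : ∀ y, ∑ i, (G i * h₀ : H).1 y * BI hH y i = h₀.1 y * BI hH 0 k := by
      intro y
      have h2 := BI_add hH hγ y (-y) k
      rw [add_neg_cancel] at h2
      rw [h2, Finset.mul_sum]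
      refine Finset.sum_congr rfl fun i _ => ?_
      change (G i).1 y * h₀.1 y * BI hH y i = _
      rw [hG, neg_neg]
      ring
    simp_rw [h1]
    rw [← Finset.sum_mul, ← traceL_apply hH, hh₀]
  choose r hr using c1
  -- claim 2
  let w : M → H := fun k => ∑ i, ∑ l, (r i * γ i k l) • antiA hH (bM hH l)
  have hw : ∀ k y, (w k).1 y = algebraMap (RL ℓ) Qb t * BI hH y k := by
    intro k y
    have h2 := BI_add hH hγ 0 y k
    rw [zero_add] at h2
    rw [h2, Finset.mul_sum]
    change evA H y (∑ i, ∑ l, (r i * γ i k l) • antiA hH (bM hH l)) = _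
    rw [map_sum]
    refine Finset.sum_congr rfl fun i _ => ?_
    rw [map_sum, ← mul_assoc, ← hr, Finset.mul_sum]
    refine Finset.sum_congr rfl fun l _ => ?_
    rw [map_smul, Algebra.smul_def, map_mul, evA_apply, antiA_apply, BM_apply, mul_assoc]
  let W : Matrix M M (RL ℓ) := Matrix.of fun k m => (bM hH).repr (w k) m
  have hW : W.map (algebraMap (RL ℓ) Qb) =
      (algebraMap (RL ℓ) Qb t) • ((BI hH).transpose * BI hH) := by
    ext k m
    rw [Matrix.map_apply, Matrix.smul_apply, Matrix.mul_apply, smul_eq_mul, Finset.mul_sum]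
    change algebraMap (RL ℓ) Qb ((bM hH).repr (w k) m) = _
    rw [repr_eq hH]
    refine Finset.sum_congr rfl fun y _ => ?_
    rw [hw, Matrix.transpose_apply, mul_assoc]
  choose z hz using fun k m => hdvd (bM hH k * bM hH m)
  let Z : Matrix M M (RL ℓ) := Matrix.of z
  have hZ : (algebraMap (RL ℓ) Qb t) • Z.map (algebraMap (RL ℓ) Qb) =
      BM hH * (BM hH).transpose := by
    ext k m
    rw [Matrix.smul_apply, Matrix.map_apply, Matrix.mul_apply, smul_eq_mul]
    change algebraMap (RL ℓ) Qb t * algebraMap (RL ℓ) Qb (z k m) = _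
    rw [mul_comm, ← map_mul, ← hz, traceL_apply]
    rfl
  have ht0' : algebraMap (RL ℓ) Qb t ≠ 0 := by
    rw [map_ne_zero_iff _ (algebraMap_RL_injective ℓ)]
    exact ht0
  have hWZ' : W.map (algebraMap (RL ℓ) Qb) * Z.map (algebraMap (RL ℓ) Qb) = 1 := by
    have h1 : W.map (algebraMap (RL ℓ) Qb) *
        ((algebraMap (RL ℓ) Qb t) • Z.map (algebraMap (RL ℓ) Qb)) =
        (algebraMap (RL ℓ) Qb t) • (1 : Matrix M M Qb) := by
      rw [hZ, hW, Matrix.smul_mul, Matrix.mul_assoc, ← Matrix.mul_assoc (BI hH), BI_mul_BM,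
        Matrix.one_mul, ← Matrix.transpose_mul, BM_mul_BI, Matrix.transpose_one]
    rw [Matrix.mul_smul] at h1
    exact smul_right_injective _ ht0' h1
  have hWZ : W * Z = 1 := by
    have h1 : (W * Z).map (algebraMap (RL ℓ) Qb) = (1 : Matrix M M (RL ℓ)).map
        (algebraMap (RL ℓ) Qb) := by
      rw [Matrix.map_mul, hWZ', Matrix.map_one _ (map_zero _) (map_one _)]
    exact Matrix.map_injective (algebraMap_RL_injective ℓ) h1
  have hZu : IsUnit Z.det := by
    have h1 := congrArg Matrix.det hWZ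
    rw [Matrix.det_mul, Matrix.det_one] at h1
    exact IsUnit.of_mul_eq_one _ (by rw [mul_comm]; exact h1)
  refine ⟨t, hZu.unit, ht0, ?_⟩
  have h1 : (BM hH).det ^ 2 = (BM hH * (BM hH).transpose).det := by
    rw [Matrix.det_mul, Matrix.det_transpose, sq]
  rw [h1, ← hZ, Matrix.det_smul, map_mul, map_pow, IsUnit.unit_spec, RingHom.map_det]
  rfl

/-- the permutation of `M` given by a Galois element -/
def permAct (act : GQ →* AddMonoid.End M) (σ : GQ) : Equiv.Perm M :=
  ⟨act σ, act σ⁻¹, act_act_inv σ, act_inv_act σ⟩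

omit hH in
@[simp] theorem permAct_apply (act : GQ →* AddMonoid.End M) (σ : GQ) (m : M) :
    permAct act σ m = act σ m := rfl

theorem galois_det (σ : GQ) :
    σ (BM hH).det = ((Equiv.Perm.sign (permAct act σ) : ℤ) : Qb) * (BM hH).det := by
  have h1 : σ (BM hH).det = ((BM hH).map σ).det := RingHom.map_det (σ : Qb →+* Qb) (BM hH)
  have h2 : (BM hH).map σ = (BM hH).submatrix id (permAct act σ) := by
    ext x y
    rw [Matrix.map_apply, Matrix.submatrix_apply, BM_apply, BM_apply, permAct_apply,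
      ← hH.equiv _ (bM hH x).2 σ]
    rfl
  rw [h1, h2, Matrix.det_permute']

omit hH in
theorem padicValRat_nonneg {ℓ : ℕ} [Fact ℓ.Prime] (r : RL ℓ) : 0 ≤ padicValRat ℓ (r : ℚ) := by
  have h1 : (r : ℚ).den.Coprime ℓ := r.2
  have h2 : padicValNat ℓ (r : ℚ).den = 0 := by
    apply padicValNat.eq_zero_of_not_dvd
    intro h
    have h3 := Nat.Coprime.eq_one_of_dvd h1.symm h
    exact (Fact.out : ℓ.Prime).one_lt.ne' h3
  rw [padicValRat, h2, Nat.cast_zero, sub_zero]
  exact Int.natCast_nonneg _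

omit hH in
theorem padicValRat_unit {ℓ : ℕ} [Fact ℓ.Prime] (u : (RL ℓ)ˣ) :
    padicValRat ℓ ((u : RL ℓ) : ℚ) = 0 := by
  have h1 := padicValRat_nonneg (u : RL ℓ)
  have h2 := padicValRat_nonneg ((u⁻¹ : (RL ℓ)ˣ) : RL ℓ)
  have h3 : ((u : RL ℓ) : ℚ) * (((u⁻¹ : (RL ℓ)ˣ) : RL ℓ) : ℚ) = 1 := by
    have h4 : (u : RL ℓ) * ((u⁻¹ : (RL ℓ)ˣ) : RL ℓ) = 1 := by simp
    exact congrArg (fun z : RL ℓ => (z : ℚ)) h4
  have h5 := padicValRat.mul (p := ℓ) (left_ne_zero_of_mul_eq_one h3)
    (right_ne_zero_of_mul_eq_one h3)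
  rw [h3, padicValRat.one] at h5
  omega

omit hH in
/-- **Parity of the discriminant**: if a Galois module `M` of even order has a Hopf order at `ℓ`
and `√c` generates its sign character then `c` has even valuation at `ℓ`. -/
theorem HasHopf.even_padicValRat {ℓ : ℕ} [Fact ℓ.Prime] {M : Type*} [AddCommGroup M] [Fintype M]
    [DecidableEq M] {act : GQ →* AddMonoid.End M} (h : HasHopf ℓ act)
    (hM : Even (Fintype.card M)) {s : Qb} {c : ℚ} (hc : c ≠ 0) (hs : s ^ 2 = algebraMap ℚ Qb c)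
    (hsign : ∀ σ : GQ, σ s = ((Equiv.Perm.sign (permAct act σ) : ℤ) : Qb) * s) :
    Even (padicValRat ℓ c) := by
  obtain ⟨H, hH⟩ := h
  obtain ⟨t, u, ht, hdet⟩ := exists_disc hH
  have hs0 : s ≠ 0 := by
    rintro rfl
    rw [zero_pow two_ne_zero] at hs
    exact hc ((map_eq_zero_iff _ (algebraMap ℚ Qb).injective).mp hs.symm)
  have hfix : ∀ σ : GQ, σ ((BM hH).det * s) = (BM hH).det * s := by
    intro σ
    rw [map_mul, galois_det hH, hsign]
    have h1 : (((Equiv.Perm.sign (permAct act σ) : ℤ) : Qb)) *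
        ((Equiv.Perm.sign (permAct act σ) : ℤ) : Qb) = 1 := by
      rw [← Int.cast_mul, ← Units.val_mul, Int.units_mul_self, Units.val_one, Int.cast_one]
    linear_combination ((BM hH).det * s) * h1
  obtain ⟨q, hq⟩ := fixed_mem_range hfix
  have h2 : q ^ 2 = (t : ℚ) ^ Fintype.card M * ((u : RL ℓ) : ℚ) * c := by
    apply (algebraMap ℚ Qb).injective
    rw [map_pow, hq, mul_pow, hdet, hs, map_mul (algebraMap ℚ Qb)]
    congr 1
  have ht' : (t : ℚ) ≠ 0 := fun h => ht (Subtype.ext h)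
  have hu' : ((u : RL ℓ) : ℚ) ≠ 0 := fun h => u.ne_zero (Subtype.ext h)
  have hq0 : q ≠ 0 := by
    rintro rfl
    rw [zero_pow two_ne_zero] at h2
    exact mul_ne_zero (mul_ne_zero (pow_ne_zero _ ht') hu') hc h2.symm
  have h3 := congrArg (padicValRat ℓ) h2
  rw [padicValRat.mul (mul_ne_zero (pow_ne_zero _ ht') hu') hc,
    padicValRat.mul (pow_ne_zero _ ht') hu', padicValRat.pow, padicValRat.pow,
    padicValRat_unit, add_zero] at h3
  obtain ⟨m, hm⟩ := hM
  refine ⟨padicValRat ℓ q - m * padicValRat ℓ (t : ℚ), ?_⟩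
  rw [hm] at h3
  push_cast at h3
  linear_combination -h3

end Fermat.Agent.H19
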