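import Fermat.Agent.H19.OT2
import Fermat.Agent.H19.S32C
import Fermat.Agent.H28.Final
import Fermat.Agent.DefRing.NRep
import Fermat.Agent.H25.Density

set_option autoImplicit false
set_option linter.unusedSectionVars false
set_option maxSynthPendingDepth 3

/-!
# No mod 2 system of odd level gives a representation with odd discriminant at `2`
-/

noncomputable section

namespace Fermat.Agent.H19

open AlgebraicCurve ModularCurve CongruenceSubgroup
open Fermat.Agent.H01 Fermat.Agent.H05 Fermat.Agent.H02F Fermat.Agent.H26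

/-- the Galois module `𝔽₂²` of a mod 2 representation -/
def matAct (r0 : GQ →* Matrix (Fin 2) (Fin 2) (ZMod 2)) :
    GQ →* AddMonoid.End (Fin 2 → ZMod 2) where
  toFun σ := (Matrix.mulVecLin (r0 σ)).toAddMonoidHom
  map_one' := by
    apply AddMonoidHom.ext
    intro x
    change Matrix.mulVec (r0 1) x = x
    rw [map_one, Matrix.one_mulVec]
  map_mul' σ τ := by
    apply AddMonoidHom.ext
    intro x
    change Matrix.mulVec (r0 (σ * τ)) x = Matrix.mulVec (r0 σ) (Matrix.mulVec (r0 τ) x)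
    rw [map_mul, Matrix.mulVec_mulVec]

theorem matAct_apply (r0 : GQ →* Matrix (Fin 2) (Fin 2) (ZMod 2)) (σ : GQ) (x : Fin 2 → ZMod 2) :
    matAct r0 σ x = (r0 σ).mulVec x := rfl

theorem gr_matAct (r0 : GQ →* Matrix (Fin 2) (Fin 2) (ZMod 2)) (c : GQ →₀ ℤ) (x : Fin 2 → ZMod 2) :
    gr (matAct r0) x c = (∑ g ∈ c.support, c g • r0 g).mulVec x := by
  rw [gr, Finsupp.linearCombination_apply, Finsupp.sum, Matrix.sum_mulVec]
  refine Finset.sum_congr rfl fun g _ => ?_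
  rw [matAct_apply]
  exact (Matrix.smul_mulVec _ _ _).symm

theorem sign_aux1 : ∀ g : Matrix (Fin 2) (Fin 2) (ZMod 2), g.det = 1 →
    (g = 1 ∨ g.trace = 1) → g * g * g = 1 := by decide

theorem sign_aux2 : ∀ g : Matrix (Fin 2) (Fin 2) (ZMod 2), g.det = 1 →
    ¬ (g = 1 ∨ g.trace = 1) → g = !![1, 1; 0, 1] ∨ g = !![1, 0; 1, 1] ∨ g = !![0, 1; 1, 0] := by
  decide

theorem span_aux : ∀ C : Matrix (Fin 2) (Fin 2) (ZMod 2), C.trace = 0 →
    (C * !![1, 1; 0, 1]).trace = 0 → (C * !![0, 1; 1, 0]).trace = 0 →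
    (C * (!![1, 1; 0, 1] * !![0, 1; 1, 0])).trace = 0 → C = 0 := by
  intro C h1 h2 h3 h4
  have key : ∀ a b c d : ZMod 2, (!![a, b; c, d]).trace = 0 →
    (!![a, b; c, d] * !![1, 1; 0, 1]).trace = 0 → (!![a, b; c, d] * !![0, 1; 1, 0]).trace = 0 →
    (!![a, b; c, d] * (!![1, 1; 0, 1] * !![0, 1; 1, 0])).trace = 0 →
    (a = 0 ∧ b = 0 ∧ c = 0 ∧ d = 0) := by decide
  rw [Matrix.eta_fin_two C] at h1 h2 h3 h4 ⊢
  obtain ⟨e1, e2, e3, e4⟩ := key _ _ _ _ h1 h2 h3 h4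
  rw [e1, e2, e3, e4]
  ext i j
  fin_cases i <;> fin_cases j <;> rfl

theorem det_eq_one (r0 : GQ →* Matrix (Fin 2) (Fin 2) (ZMod 2)) (σ : GQ) : (r0 σ).det = 1 := by
  have h1 : (r0 σ).det * (r0 σ⁻¹).det = 1 := by
    rw [← Matrix.det_mul, ← map_mul, mul_inv_cancel, map_one, Matrix.det_one]
  have h2 : ∀ a b : ZMod 2, a * b = 1 → a = 1 := by decide
  exact h2 _ _ h1

theorem sign_matAct (r0 : GQ →* Matrix (Fin 2) (Fin 2) (ZMod 2)) (σ : GQ) :
    Equiv.Perm.sign (permAct (matAct r0) σ) =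
      if (r0 σ = 1 ∨ (r0 σ).trace = 1) then 1 else -1 := by
  split_ifs with h
  · have h1 := sign_aux1 _ (det_eq_one r0 σ) h
    have h2 : permAct (matAct r0) σ ^ 3 = 1 := by
      ext1 x
      rw [pow_succ, pow_two, Equiv.Perm.mul_apply, Equiv.Perm.mul_apply]
      change (r0 σ).mulVec ((r0 σ).mulVec ((r0 σ).mulVec x)) = x
      rw [Matrix.mulVec_mulVec, Matrix.mulVec_mulVec, h1, Matrix.one_mulVec]
    have h3 := congrArg Equiv.Perm.sign h2
    rw [map_pow, map_one] at h3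
    rcases Int.units_eq_one_or (Equiv.Perm.sign (permAct (matAct r0) σ)) with h4 | h4
    · exact h4
    · rw [h4] at h3; exact absurd h3 (by decide)
  · rcases sign_aux2 _ (det_eq_one r0 σ) h with h1 | h1 | h1
    · have h2 : permAct (matAct r0) σ = Equiv.swap ![0, 1] ![1, 1] := by
        ext1 x
        rw [permAct_apply, matAct_apply, h1]
        revert x; decide
      rw [h2, Equiv.Perm.sign_swap (by decide)]
    · have h2 : permAct (matAct r0) σ = Equiv.swap ![1, 0] ![1, 1] := by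
        ext1 x
        rw [permAct_apply, matAct_apply, h1]
        revert x; decide
      rw [h2, Equiv.Perm.sign_swap (by decide)]
    · have h2 : permAct (matAct r0) σ = Equiv.swap ![1, 0] ![0, 1] := by
        ext1 x
        rw [permAct_apply, matAct_apply, h1]
        revert x; decide
      rw [h2, Equiv.Perm.sign_swap (by decide)]

/-- A mod 2 representation with a Hopf order at `2` has discriminant of even valuation. -/
theorem even_of_hasHopf_matAct {r0 : GQ →* Matrix (Fin 2) (Fin 2) (ZMod 2)}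
    (h : HasHopf 2 (matAct r0)) {s : Qb} {c : ℚ} (hc : c ≠ 0) (hs : s ^ 2 = algebraMap ℚ Qb c)
    (hsign : ∀ σ : GQ, σ s = s ↔ (r0 σ = 1 ∨ (r0 σ).trace = 1)) : Even (padicValRat 2 c) := by
  have : Fact (Nat.Prime 2) := ⟨Nat.prime_two⟩
  have hcard : Even (Fintype.card (Fin 2 → ZMod 2)) := by
    rw [Fintype.card_fun, Fintype.card_fin, ZMod.card]
    exact ⟨2, rfl⟩
  refine h.even_padicValRat hcard hc hs fun σ => ?_
  rw [sign_matAct]
  split_ifs with h1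
  · rw [(hsign σ).mpr h1]; simp
  · have h2 : σ s ≠ s := fun h => h1 ((hsign σ).mp h)
    have h3 : (σ s) ^ 2 = s ^ 2 := by
      rw [← map_pow, hs, AlgEquiv.commutes]
    rcases sq_eq_sq_iff_eq_or_eq_neg.mp h3 with h4 | h4
    · exact absurd h4 h2
    · rw [h4]; simp

/-- **A mod 2 eigensystem of level `N` with `J₀(N)[2^m]` finite flat at 2 gives a Hopf order.** -/
theorem hasHopf_of_system {N : ℕ} [NeZero N] {S : Finset ℕ} (h2S : 2 ∈ S)
    (hNS : ∀ q : ℕ, q.Prime → q ∣ N → q ∈ S) {k : Type} [Field k] [CharP k 2]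
    (θ : CuspForm.heckeAlgebra N 2 (↑S : Set ℕ) →+* k)
    (r0 : GQ →* Matrix (Fin 2) (Fin 2) (ZMod 2))
    (hcont : ∃ L : IntermediateField ℚ (AlgebraicClosure ℚ), FiniteDimensional ℚ L ∧
      ∀ σ : GQ, (∀ x ∈ L, σ x = x) → r0 σ = 1)
    (hirr : ∃ σ τ : GQ, r0 σ = !![1, 1; 0, 1] ∧ r0 τ = !![0, 1; 1, 0])
    (hθ : ∀ (ℓ : ℕ) (hℓ : ℓ.Prime) (hℓN : ¬ ℓ ∣ N) (hℓS : ℓ ∉ (↑S : Set ℕ)),
      ∀ A : ValuationSubring (AlgebraicClosure ℚ), A.LiesOverPrime ℓ →
        ∀ φ : GQ, A.IsFrobeniusAt φ ℓ →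
          θ (CuspForm.heckeAlgebra.T hℓ hℓN hℓS) = ZMod.castHom (dvd_refl 2) k (r0 φ).trace)
    (hflat : ∀ (m : ℕ) [NeZero (2 ^ m)], HasHopf 2 (actTor N (2 ^ m))) :
    HasHopf 2 (matAct r0) := by
  classical
  let inst1 : Algebra (AlgebraicClosure ℚ) ℂ :=
    (IsAlgClosed.lift : AlgebraicClosure ℚ →ₐ[ℚ] ℂ).toRingHom.toAlgebra
  let ι : ZMod 2 →+* k := ZMod.castHom (dvd_refl 2) k
  let r : GQ →* Matrix (Fin 2) (Fin 2) k := Fermat.Agent.H04.mapM ι r0
  have hr : Fermat.Agent.H04.IsCont r := by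
    intro n
    obtain ⟨L, hL, h1⟩ := hcont
    refine ⟨L, hL, fun σ hσ i j => ?_⟩
    have h2 : r σ = 1 := by
      change (RingHom.mapMatrix ι) (r0 σ) = 1
      rw [h1 σ hσ, map_one]
    rw [h2, sub_self]
    exact zero_mem _
  let ρ : GaloisRepAdic k := Fermat.Agent.H04.ofMat r hr
  have hρ : ∀ σ, ρ.ρ σ = Matrix.toLin' (r σ) := fun σ => rfl
  have h20 : (2 : k) = 0 := CharTwo.two_eq_zero
  have hfrob : ∀ (ℓ : ℕ) (hℓ : ℓ.Prime) (hℓN : ¬ ℓ ∣ N) (hℓS : ℓ ∉ (↑S : Set ℕ)),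
      ∀ A : ValuationSubring (AlgebraicClosure ℚ), A.LiesOverPrime ℓ →
        ∀ σ : GQ, A.IsFrobeniusAt σ ℓ → LinearMap.charpoly (ρ.ρ σ) =
          Polynomial.X ^ 2 - Polynomial.C (θ (CuspForm.heckeAlgebra.T hℓ hℓN hℓS)) * Polynomial.X +
            Polynomial.C ((ℓ : k)) := by
    intro ℓ hℓ hℓN hℓS A hA σ hσ
    have h1 : LinearMap.charpoly (ρ.ρ σ) = (r σ).charpoly :=
      Matrix.charpoly_toLin' _
    have h2 : (r σ).trace = θ (CuspForm.heckeAlgebra.T hℓ hℓN hℓS) := by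
      rw [hθ ℓ hℓ hℓN hℓS A hA σ hσ]
      exact (AddMonoidHom.map_trace (ι : ZMod 2 →+ k) (r0 σ)).symm
    have h3 : (r σ).det = (ℓ : k) := by
      have h4 : (r σ).det = ι (r0 σ).det := (RingHom.map_det ι (r0 σ)).symm
      rw [h4, det_eq_one, map_one]
      have hodd : ℓ % 2 = 1 := by
        rcases hℓ.eq_two_or_odd with h5 | h5
        · exact absurd (by rw [h5]; exact h2S) hℓS
        · exact h5
      have h6 : ℓ = 2 * (ℓ / 2) + 1 := by omega
      rw [h6]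
      push_cast
      rw [h20, zero_mul, zero_add]
    rw [h1, Matrix.charpoly_fin_two, h2, h3]
  have hpT : ((2 : ℕ) : k) ∈ IsLocalRing.maximalIdeal k := by
    rw [Nat.cast_ofNat, h20]
    exact zero_mem _
  obtain ⟨m, inst, hm⟩ := exists_level_trace Fermat.Agent.H25.weakChebotarev Nat.prime_two h2S hNS
    ρ θ hfrob hpT (fun m ℓ hℓ hℓN hℓ2 A hA φ hφ x hx =>
      Fermat.Agent.H28.frobenius_torsion N hℓ hℓN A hA (m := 2 ^ m)
        (fun h => hℓ2 ((Nat.prime_dvd_prime_iff_eq hℓ Nat.prime_two).mp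
          (hℓ.dvd_of_dvd_pow h))) hφ x hx) 1
  have hfinT : Finite (Tor N (2 ^ m)) := finite_tor N (2 ^ m)
  refine HasHopf.of_ann (hflat m) (fun c hc v => ?_)
  rw [gr_matAct]
  have hzero : ∀ h : GQ, ((∑ g ∈ c.support, c g • r0 g) * r0 h).trace = 0 := by
    intro h
    have h1 := hm c hc h
    rw [pow_one, IsLocalRing.maximalIdeal_eq_bot, Ideal.mem_bot] at h1
    have h2 : rr ρ c * ρ.ρ h =
        Matrix.toLin' ((RingHom.mapMatrix ι) ((∑ g ∈ c.support, c g • r0 g) * r0 h)) := by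
      rw [map_mul, Matrix.toLin'_mul, map_sum, map_sum, rr]
      have h3 : ∀ g, c g • ρ.ρ g =
          Matrix.toLin' ((RingHom.mapMatrix ι) (c g • r0 g)) := by
        intro g
        rw [map_zsmul, map_zsmul]
        rfl
      simp_rw [h3]
      rfl
    rw [h2] at h1
    have h3 : ι (((∑ g ∈ c.support, c g • r0 g) * r0 h).trace) = 0 := by
      rw [← h1]
      refine Eq.trans ?_ (Matrix.trace_toLin'_eq _).symm
      exact AddMonoidHom.map_trace (ι : ZMod 2 →+ k) _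
    exact (map_eq_zero_iff _ ι.injective).mp h3
  obtain ⟨σ, τ, hσ, hτ⟩ := hirr
  have hC : ∑ g ∈ c.support, c g • r0 g = 0 := by
    refine span_aux _ ?_ ?_ ?_ ?_
    · have := hzero 1
      rwa [map_one, mul_one] at this
    · rw [← hσ]; exact hzero σ
    · rw [← hτ]; exact hzero τ
    · rw [← hσ, ← hτ, ← map_mul]; exact hzero _
  rw [hC, Matrix.zero_mulVec]

/-- **OT2**: a mod 2 representation with image `S₃` and discriminant of odd valuation at `2` does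
not come from a level `N` at which `J₀(N)[2^m]` has Hopf orders (i.e. odd level). -/
theorem even_of_system {N : ℕ} [NeZero N] {S : Finset ℕ} (h2S : 2 ∈ S)
    (hNS : ∀ q : ℕ, q.Prime → q ∣ N → q ∈ S) {k : Type} [Field k] [CharP k 2]
    (θ : CuspForm.heckeAlgebra N 2 (↑S : Set ℕ) →+* k)
    (r0 : GQ →* Matrix (Fin 2) (Fin 2) (ZMod 2))
    (hcont : ∃ L : IntermediateField ℚ (AlgebraicClosure ℚ), FiniteDimensional ℚ L ∧
      ∀ σ : GQ, (∀ x ∈ L, σ x = x) → r0 σ = 1)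
    (hirr : ∃ σ τ : GQ, r0 σ = !![1, 1; 0, 1] ∧ r0 τ = !![0, 1; 1, 0])
    (hθ : ∀ (ℓ : ℕ) (hℓ : ℓ.Prime) (hℓN : ¬ ℓ ∣ N) (hℓS : ℓ ∉ (↑S : Set ℕ)),
      ∀ A : ValuationSubring (AlgebraicClosure ℚ), A.LiesOverPrime ℓ →
        ∀ φ : GQ, A.IsFrobeniusAt φ ℓ →
          θ (CuspForm.heckeAlgebra.T hℓ hℓN hℓS) = ZMod.castHom (dvd_refl 2) k (r0 φ).trace)
    (hflat : ∀ (m : ℕ) [NeZero (2 ^ m)], HasHopf 2 (actTor N (2 ^ m)))
    {s : Qb} {c : ℚ} (hc : c ≠ 0) (hs : s ^ 2 = algebraMap ℚ Qb c)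
    (hsign : ∀ σ : GQ, σ s = s ↔ (r0 σ = 1 ∨ (r0 σ).trace = 1)) : Even (padicValRat 2 c) :=
  even_of_hasHopf_matAct (hasHopf_of_system h2S hNS θ r0 hcont hirr hθ hflat) hc hs hsign

end Fermat.Agent.H19
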