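import Fermat.Agent.H19.HopfH
import Fermat.Agent.Descent.Transfer2
import Fermat.Agent.WP.Hecke
import Fermat.Agent.WP.JZero

set_option autoImplicit false
set_option linter.unusedSectionVars false
set_option maxSynthPendingDepth 3

/-!
# S32 : the annihilator argument
-/

noncomputable section

namespace Fermat.Agent.H19

open AlgebraicCurve ModularCurve CongruenceSubgroup
open Fermat.Agent.H01 Fermat.Agent.H05 Fermat.Agent.H02F Fermat.Agent.H26 Fermat.Agent.WP

theorem adj_abstract {X Y : Type*} [AddCommGroup X] [AddCommGroup Y] (act : GQ →* AddMonoid.End X)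
    (e : X →+ X →+ Y) (P : GQ → ℕ → Prop)
    (he : ∀ σ k, P σ k → ∀ x y, k • e (act σ⁻¹ x) y = e x (act σ y))
    (hnd : ∀ x, (∀ y, e x y = 0) → x = 0) (c : GQ →₀ ℤ) (hc : ∀ x, gr act x c = 0) (h : GQ)
    (κ : GQ → ℕ) (hκ : ∀ g ∈ c.support, P (g * h) (κ g)) (w : X) :
    ∑ g ∈ c.support, c g • κ g • act (g * h)⁻¹ w = 0 := by
  apply hnd
  intro y
  have h0 : e (∑ g ∈ c.support, c g • κ g • act (g * h)⁻¹ w) y =
      ∑ g ∈ c.support, c g • κ g • e (act (g * h)⁻¹ w) y := by
    rw [map_sum, AddMonoidHom.finsetSum_apply]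
    refine Finset.sum_congr rfl fun g _ => ?_
    rw [map_zsmul, map_nsmul]
    rfl
  have h2 := congrArg (e w) (hc (act h y))
  rw [map_zero] at h2
  rw [h0, ← h2, gr, Finsupp.linearCombination_apply, Finsupp.sum, map_sum]
  refine Finset.sum_congr rfl fun g hg => ?_
  rw [map_zsmul, he _ _ (hκ g hg), map_mul]
  rfl

section Weil

variable (N : ℕ) [NeZero N] (m : ℕ) [hm : NeZero m]

/-- Galois action on the torsion of `J₀(N)` -/
def actTor : GQ →* AddMonoid.End (Tor N m) where
  toFun σ := (torGal N m σ).toAddMonoidHom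
  map_one' := by
    rw [map_one]
    rfl
  map_mul' σ τ := by
    rw [map_mul]
    rfl

theorem coe_actTor (σ : GQ) (x : Tor N m) : ((actTor N m σ x : Tor N m) : JZero N) =
    σ • (x : JZero N) := rfl

variable {N m}

/-- the Weil pairing, additive in the first variable -/
def eL (y : Tor N m) : Tor N m →+ Additive (AlgebraicClosure ℚ)ˣ :=
  AddMonoidHom.mk' (fun x => Additive.ofMul (weilPairing m (x : JZero N) (y : JZero N)))
    (fun x x' => by
      change Additive.ofMul (weilPairing m ((x : JZero N) + (x' : JZero N)) (y : JZero N)) = _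
      rw [weilPairing_add_left (tor_nsmul x) (tor_nsmul x') (tor_nsmul y)]
      rfl)

/-- the Weil pairing, additive in the second variable -/
def eR (x : Tor N m) : Tor N m →+ Additive (AlgebraicClosure ℚ)ˣ :=
  AddMonoidHom.mk' (fun y => Additive.ofMul (weilPairing m (x : JZero N) (y : JZero N)))
    (fun y y' => by
      change Additive.ofMul (weilPairing m (x : JZero N) ((y : JZero N) + (y' : JZero N))) = _
      rw [weilPairing_add_right (tor_nsmul x) (tor_nsmul y) (tor_nsmul y')]
      rfl)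

theorem eL_eq_eR (x y : Tor N m) : eL y x = eR x y := rfl

theorem eL_act (σ : GQ) (k : ℕ) (hk : ∀ ζ : Qb, ζ ^ m = 1 → σ ζ = ζ ^ k) (x y : Tor N m) :
    k • eL y (actTor N m σ⁻¹ x) = eR x (actTor N m σ y) := by
  have h1 := weilPairing_galois σ (m := m) (x := σ⁻¹ • (x : JZero N)) (y := (y : JZero N))
    (by rw [← coe_actTor]; exact tor_nsmul _) (tor_nsmul y)
  rw [smul_inv_smul] at h1
  have h2 : (weilPairing m (σ⁻¹ • (x : JZero N)) (y : JZero N)) ^ m = 1 := weilPairing_pow _ _ _
  have h3 := hk ((weilPairing m (σ⁻¹ • (x : JZero N)) (y : JZero N) : (AlgebraicClosure ℚ)ˣ) : Qb)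
    (by rw [← Units.val_pow_eq_pow_val, h2, Units.val_one])
  rw [← h1, ← Units.val_pow_eq_pow_val] at h3
  have h4 := Units.ext h3
  change k • Additive.ofMul (weilPairing m (σ⁻¹ • (x : JZero N)) (y : JZero N)) =
    Additive.ofMul (weilPairing m (x : JZero N) (σ • (y : JZero N)))
  rw [h4]
  rfl

theorem eq_zero_of_eL {x : Tor N m} (h : ∀ y : Tor N m, eL y x = 0) : x = 0 := by
  apply Subtype.ext
  refine weilPairing_nondeg_JZero N (Nat.pos_of_ne_zero hm.out) (tor_nsmul x) (fun y hy => ?_)
  exact Additive.ofMul.injective (h ⟨y, mem_tor.mpr hy⟩)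

/-- the Weil pairing as a biadditive map -/
def ee (N m : ℕ) [NeZero N] [NeZero m] : Tor N m →+ Tor N m →+ Additive (AlgebraicClosure ℚ)ˣ :=
  AddMonoidHom.mk' (fun x => eR x) (fun x x' =>
    AddMonoidHom.ext fun y => map_add (eL y) x x')

theorem ee_apply (x y : Tor N m) : ee N m x y = eL y x := rfl

/-- The adjoint of an element of the group ring killing the torsion kills the torsion. -/
theorem adj_eq_zero (c : GQ →₀ ℤ) (hc : ∀ x : Tor N m, gr (actTor N m) x c = 0) (h : GQ)
    (κ : GQ → ℕ) (hκ : ∀ g ∈ c.support, ∀ ζ : Qb, ζ ^ m = 1 → (g * h) ζ = ζ ^ (κ g))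
    (w : Tor N m) : ∑ g ∈ c.support, c g • κ g • actTor N m (g * h)⁻¹ w = 0 :=
  adj_abstract (actTor N m) (ee N m) (fun σ k => ∀ ζ : Qb, ζ ^ m = 1 → σ ζ = ζ ^ k)
    (fun σ k hk x y => eL_act σ k hk x y) (fun _ hx => eq_zero_of_eL hx) c hc h κ hκ w

end Weil

section Trace

/-- trace test for membership in `I V` -/
theorem mem_smul_top_of_trace {T V : Type*} [CommRing T] [AddCommGroup V]
    [Module T V] [Module.Free T V] [Module.Finite T V] (I : Ideal T) (R : Module.End T V)
    (h : ∀ φ : Module.End T V, LinearMap.trace T V (R * φ) ∈ I) (v : V) :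
    R v ∈ I • (⊤ : Submodule T V) := by
  classical
  let b := Module.Free.chooseBasis T V
  have h1 : ∀ i, b.coord i (R v) ∈ I := by
    intro i
    let φ : Module.End T V := (b.coord i).smulRight v
    have h2 := h φ
    have h3 : R * φ = (b.coord i).smulRight (R v) := by
      ext x
      simp [φ]
    rw [h3] at h2
    have h4 : LinearMap.trace T V ((b.coord i).smulRight (R v)) = b.coord i (R v) := by
      have := LinearMap.trace_eq_contract_apply (R := T) (M := V) (b.coord i ⊗ₜ[T] (R v))
      rw [contractLeft_apply] at this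
      rw [← this]
      congr 1
    rwa [h4] at h2
  rw [← b.sum_repr (R v)]
  exact Submodule.sum_mem _ fun i _ => Submodule.smul_mem_smul (h1 i) trivial

end Trace

end Fermat.Agent.H19
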