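import Fermat.Agent.H19.S32A
import Fermat.Agent.H19.FlatHopf

set_option autoImplicit false
set_option linter.unusedSectionVars false
set_option maxSynthPendingDepth 3

noncomputable section

namespace Fermat.Agent.H19

open AlgebraicCurve ModularCurve CongruenceSubgroup
open Fermat.Agent.H01 Fermat.Agent.H05 Fermat.Agent.H02F Fermat.Agent.H26

section Level

variable {N : ℕ} [NeZero N] [Algebra (AlgebraicClosure ℚ) ℂ]

/-- For every `n` there is a level `p ^ m` at which the Hecke algebra acts faithfully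
modulo `p ^ n`. -/
theorem exists_level {p : ℕ} (hp : p.Prime) (S : Set ℕ) (n : ℕ) :
    ∃ (m : ℕ) (_ : NeZero (p ^ m)), ∀ t : CuspForm.heckeAlgebra N 2 S,
      H22.formsPartActAway N (torAct N (p ^ m)) S t = 0 → ∃ s, t = (p ^ n) • s := by
  have key := H22.exists_transport (N := N) S hp n
  obtain ⟨m, hnm, hm⟩ := key
  have hpm : p ^ m ≠ 0 := pow_ne_zero _ hp.ne_zero
  have : NeZero (p ^ m) := ⟨hpm⟩
  let ζ : ℂˣ := (Complex.isPrimitiveRoot_exp (p ^ m) hpm).isUnit hpm |>.unit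
  have hζ : IsPrimitiveRoot ζ (p ^ m) := by
    have := Complex.isPrimitiveRoot_exp (p ^ m) hpm
    exact IsPrimitiveRoot.coe_units_iff.mp this
  refine ⟨m, this, hm (torAct N (p ^ m)) (zetaHom ζ) (fun k hk => ?_) (kappa N (p ^ m))
    kappa_injective (fun ℓ w => ?_) (fun ψ hψ => exists_kappa_eq (surjC N hpm) hζ hψ)⟩
  · exact (hζ.zpow_eq_one_iff_dvd k).mp (Additive.ofMul.injective hk)
  · rw [torAct_heckeGen, kappa_heckeTor]

end Level

section Main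

variable {p N : ℕ} [NeZero N] {S : Finset ℕ} {T : Type} [CommRing T] [IsLocalRing T]

/-- the element of `End V` given by an element of the group ring -/
def rr (ρ : GaloisRepAdic T) (c : GQ →₀ ℤ) : Module.End T ρ.V := ∑ g ∈ c.support, c g • ρ.ρ g

theorem gr_levAct (ρ : GaloisRepAdic T) (I : Ideal T) (c : GQ →₀ ℤ) (v : ρ.V) :
    gr (levAct ρ I) (Submodule.Quotient.mk v) c = Submodule.Quotient.mk (rr ρ c v) := by
  rw [gr, Finsupp.linearCombination_apply, Finsupp.sum, rr, LinearMap.sum_apply]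
  have : (Submodule.Quotient.mk (∑ g ∈ c.support, (c g • ρ.ρ g) v) :
      ρ.V ⧸ (I • (⊤ : Submodule T ρ.V))) =
      ∑ g ∈ c.support, Submodule.Quotient.mk ((c g • ρ.ρ g) v) := by
    rw [← Submodule.mkQ_apply, map_sum]
    rfl
  rw [this]
  refine Finset.sum_congr rfl fun g _ => ?_
  rw [levAct_mk, LinearMap.smul_apply]
  exact (map_zsmul (Submodule.mkQ (I • (⊤ : Submodule T ρ.V))) (c g) (ρ.ρ g v)).symm

omit [IsLocalRing T] [CommRing T] in
theorem es_forms [Algebra (AlgebraicClosure ℚ) ℂ] (S : Set ℕ)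
    (hES : ∀ (m : ℕ) (ℓ : ℕ) (hℓ : ℓ.Prime), ¬ ℓ ∣ N → ℓ ≠ p →
      ∀ A : ValuationSubring (AlgebraicClosure ℚ), A.LiesOverPrime ℓ →
      ∀ φ : AlgebraicClosure ℚ ≃ₐ[ℚ] AlgebraicClosure ℚ, A.IsFrobeniusAt φ ℓ →
      ∀ x : JZero N, (p ^ m) • x = 0 →
        φ • φ • x - heckeOperatorBar N ⟨ℓ, hℓ⟩ (φ • x) + ℓ • x = 0) (m : ℕ) [NeZero (p ^ m)]
    (ℓ : ℕ) (hℓ : ℓ.Prime) (hℓN : ¬ ℓ ∣ N) (hℓS : ℓ ∉ S) (hℓp : ℓ ≠ p)
    (A : ValuationSubring (AlgebraicClosure ℚ)) (hA : A.LiesOverPrime ℓ)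
    (φ : AlgebraicClosure ℚ ≃ₐ[ℚ] AlgebraicClosure ℚ) (hφ : A.IsFrobeniusAt φ ℓ)
    (w : torForms N (p ^ m)) : formsGal N (p ^ m) φ (formsGal N (p ^ m) φ w) -
      H22.formsPartActAway N (torAct N (p ^ m)) S (CuspForm.heckeAlgebra.T hℓ hℓN hℓS)
        (formsGal N (p ^ m) φ w) + ℓ • w = 0 := by
  have h1 := hES m ℓ hℓ hℓN hℓp A hA φ hφ _ (tor_nsmul (w : Tor N (p ^ m)))
  have h2 := H22.formsPartActAway_T (torAct N (p ^ m)) hℓ hℓN hℓS (formsGal N (p ^ m) φ w)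
  have h0 : torAct N (p ^ m) (heckeGen ⟨ℓ, hℓ⟩) = heckeTor N (p ^ m) ⟨ℓ, hℓ⟩ :=
    torAct_heckeGen ⟨ℓ, hℓ⟩
  have h4 := h2.trans (LinearMap.congr_fun h0 _)
  have h3 := congrArg (fun z : Tor N (p ^ m) => (z : JZero N)) h4
  refine Subtype.ext (Subtype.ext ?_)
  refine Eq.trans ?_ h1
  refine congrArg₂ (· + ·) (congrArg₂ (· - ·) rfl h3) rfl

end Main

end Fermat.Agent.H19
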