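import Fermat.Agent.H19.S32C
import Fermat.Prelude.Def_CuspForm_HeckeGaloisRepDatum

set_option autoImplicit false
set_option linter.unusedSectionVars false
set_option maxSynthPendingDepth 3

/-!
# S32 from a Hopf order on the torsion of `J₀(N)`
-/

noncomputable section

namespace Fermat.Agent.H19

open AlgebraicCurve ModularCurve CongruenceSubgroup
open Fermat.Agent.H01 Fermat.Agent.H05 Fermat.Agent.H02F Fermat.Agent.H26

/-- **S32** from the flatness of `J₀(N)[p^m]`. -/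
theorem isFlatAt_of_hasHopf (hCheb : WeakChebotarev) {p N : ℕ} [NeZero N] {S : Finset ℕ}
    {𝒪 : Type} [CommRing 𝒪] [IsDomain 𝒪] [IsDiscreteValuationRing 𝒪]
    [IsAdicComplete (IsLocalRing.maximalIdeal 𝒪) 𝒪]
    {θ : CuspForm.heckeAlgebra N 2 (↑S : Set ℕ) →+* IsLocalRing.ResidueField 𝒪}
    {T : Type} [CommRing T] [IsLocalRing T] [IsNoetherianRing T]
    [IsAdicComplete (IsLocalRing.maximalIdeal T) T] [Algebra 𝒪 T] [IsLocalHom (algebraMap 𝒪 T)]
    [Module.Finite 𝒪 T] [Module.Free 𝒪 T] [Finite (IsLocalRing.ResidueField 𝒪)]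
    (hp : p.Prime) (hp𝒪 : (p : 𝒪) ∈ IsLocalRing.maximalIdeal 𝒪) (hpS : p ∈ S)
    (hNS : ∀ q : ℕ, q.Prime → q ∣ N → q ∈ S)
    (H : CuspForm.HeckeGaloisRepDatum N (↑S : Set ℕ) 𝒪 θ T)
    (hES : ∀ (m : ℕ) (ℓ : ℕ) (hℓ : ℓ.Prime), ¬ ℓ ∣ N → ℓ ≠ p →
      ∀ A : ValuationSubring (AlgebraicClosure ℚ), A.LiesOverPrime ℓ →
      ∀ φ : AlgebraicClosure ℚ ≃ₐ[ℚ] AlgebraicClosure ℚ, A.IsFrobeniusAt φ ℓ →
      ∀ x : JZero N, (p ^ m) • x = 0 →
        φ • φ • x - heckeOperatorBar N ⟨ℓ, hℓ⟩ (φ • x) + ℓ • x = 0)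
    (hflat : ∀ (m : ℕ) [NeZero (p ^ m)], HasHopf p (actTor N (p ^ m))) : H.ρ.IsFlatAt p := by
  classical
  let inst1 : Algebra (AlgebraicClosure ℚ) ℂ :=
    (IsAlgClosed.lift : AlgebraicClosure ℚ →ₐ[ℚ] ℂ).toRingHom.toAlgebra
  have hpT : (p : T) ∈ IsLocalRing.maximalIdeal T := by
    have h1 : algebraMap 𝒪 T (p : 𝒪) ∈ IsLocalRing.maximalIdeal T := by
      rw [IsLocalRing.mem_maximalIdeal] at hp𝒪 ⊢
      exact map_mem_nonunits_iff (algebraMap 𝒪 T) _ |>.mpr hp𝒪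
    rwa [map_natCast] at h1
  refine ⟨?_, fun I hI => ?_⟩
  · have hs : Function.Surjective (IsLocalRing.ResidueField.map (algebraMap 𝒪 T)) := by
      intro y
      obtain ⟨x, rfl⟩ := H.residue_surjective y
      exact ⟨IsLocalRing.residue 𝒪 x, rfl⟩
    exact Finite.of_surjective _ hs
  · obtain ⟨n, hn⟩ : ∃ n : ℕ, IsLocalRing.maximalIdeal T ^ n ≤ I :=
      IsLocalRing.exists_maximalIdeal_pow_le_of_isArtinianRing_quotient I
    obtain ⟨m, inst, hm⟩ := exists_level_trace hCheb hp hpS hNS H.ρ H.π H.charpoly_frob hpT hES n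
    have hfinT : Finite (Tor N (p ^ m)) := finite_tor N (p ^ m)
    have hfinV : Finite (H.ρ.V ⧸ (I • (⊤ : Submodule T H.ρ.V))) := by
      have h1 : Module.Finite (T ⧸ I) (H.ρ.V ⧸ (I • (⊤ : Submodule T H.ρ.V))) :=
        Module.Finite.of_restrictScalars_finite T _ _
      exact Module.finite_of_finite (T ⧸ I)
    have hhopf : HasHopf p (levAct H.ρ I) := by
      refine HasHopf.of_ann (hflat m) (fun c hc v => ?_)
      obtain ⟨v, rfl⟩ := Submodule.Quotient.mk_surjective _ v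
      rw [gr_levAct, Submodule.Quotient.mk_eq_zero]
      refine mem_smul_top_of_trace I _ (fun φ => ?_) v
      have hspan := span_range_eq_top_of_residual_absIrr H.ρ H.residual_absIrr
      have hφ : φ ∈ Submodule.span T (Set.range H.ρ.ρ) := by rw [hspan]; trivial
      induction hφ using Submodule.span_induction with
      | mem y hy =>
        obtain ⟨h, rfl⟩ := hy
        exact hn (hm c hc h)
      | zero => simp
      | add y z _ _ hy hz => rw [mul_add, map_add]; exact I.add_mem hy hz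
      | smul a y _ hy => rw [mul_smul_comm, map_smul]; exact I.mul_mem_left _ hy
    obtain ⟨Ho, hHo⟩ := hhopf
    obtain ⟨H', i1, i2, h1, h2, h3, e, h4, h5⟩ := exists_hopfAlgebra hHo
    exact ⟨H', i1, i2, h1, h2, h3, e, h4, h5⟩

end Fermat.Agent.H19
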