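import Fermat.Agent.H19.LHF
import Fermat.Agent.H09.LHD
import Fermat.Agent.TW.SS2

/-!
# Supersingular case: consequences of the Herbrand inequality
-/

set_option autoImplicit false
set_option linter.unusedSectionVars false

namespace Fermat.Agent.TW

open Fermat.Agent.CC NVal
open scoped Pointwise

/-- the dual of an elementary abelian `p`-group -/
theorem card_addHom_zmod (p : ℕ) [Fact p.Prime] (V : Type*) [AddCommGroup V] [Finite V]
    (hV : ∀ a : V, p • a = 0) :
    Finite (V →+ ZMod p) ∧ Nat.card (V →+ ZMod p) = Nat.card V := by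
  let _ : Module (ZMod p) V := AddCommGroup.zmodModule (n := p) hV
  have hfin : Module.Finite (ZMod p) V := Module.Finite.of_finite
  have hcard : Nat.card (V →ₗ[ZMod p] ZMod p) = Nat.card V := by
    rw [Module.natCard_eq_pow_finrank (K := ZMod p) (V := V →ₗ[ZMod p] ZMod p),
      Module.finrank_linearMap, Module.finrank_self, mul_one,
      ← Module.natCard_eq_pow_finrank (K := ZMod p) (V := V)]
  have hinj : Function.Injective (fun f : V →+ ZMod p => AddMonoidHom.toZModLinearMap p f) :=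
    fun f g h => by
      ext a
      exact LinearMap.congr_fun h a
  have hinj' : Function.Injective (fun f : V →ₗ[ZMod p] ZMod p => f.toAddMonoidHom) :=
    fun f g h => by
      refine LinearMap.ext fun a => ?_
      exact DFunLike.congr_fun h a
  have hne : Nat.card V ≠ 0 := Nat.card_pos.ne'
  have hfin1 : Finite (V →ₗ[ZMod p] ZMod p) := Nat.finite_of_card_ne_zero (by rw [hcard]; exact hne)
  have hfin2 : Finite (V →+ ZMod p) := Finite.of_injective _ hinj
  refine ⟨hfin2, le_antisymm ?_ ?_⟩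
  · rw [← hcard]
    exact Nat.card_le_card_of_injective _ hinj
  · rw [← hcard]
    exact Nat.card_le_card_of_injective _ hinj'

variable {A : ValuationSubring Qb} {p : ℕ} {w : Qb → ℝ} {k : Type} [Field k] [Finite k]
  [hf : Fact p.Prime] [Algebra (ZMod p) k] {π : Qb} {α : GQ → k}
  {K : Subfield k} {τ : K →+* IsLocalRing.ResidueField A}

theorem ss_abs (S : SR p A π α K τ) (P : PL p A w) (hp2 : p ≠ 2) {ζ : Qb} {x : GQ → ZMod p}
    (C : CY p ζ x) (l : k →ₗ[ZMod p] ZMod p) (z : k) {M : Type*} [AddCommGroup M] [Finite M]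
    {act : A.inertiaSubgroupIn ℚ →* AddMonoid.End M} {H : Subalgebra (RI A) (M → Qb)}
    (hH : LH A act H) (γ : k →+ M)
    (hker : ∀ y, γ y = 0 ↔ ∀ a ∈ K, l (z * (a * y)) = 0)
    (hact : ∀ (σ : A.inertiaSubgroupIn ℚ) y, act σ (γ y) = γ (α σ * y)) (z0 : M) {β : GQ → k}
    (hz0 : ∀ s (hs : s ∈ Jt A π), act ⟨s, hs.1⟩ z0 - z0 = γ (β s))
    (hβ : ∀ σ ∈ Jt A π, ∀ τ' ∈ Jt A π, β (σ * τ') = β σ + β τ') {j : ℕ} (hj0 : 0 < j)
    (hpj : ¬ p ∣ j) (hj : j < p * (p + 1)) {r : Qb} (hr : Te p r) (hr0 : r ≠ 0)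
    (hKR : KR w (Jt A π) ζ π (p ^ 2 - 1) j (fun s => l (z * β s)) r) :
    p + 1 ≤ j ∧ (Nat.card {y : k | ∃ s ∈ Jt A π, β s = y} ≤ p → p ^ 2 + 1 ≤ j) := by
  classical
  have hp3 : 3 ≤ p := by
    have := P.prime.two_le
    omega
  have hp1 := P.prime.one_lt
  have hpp : 1 ≤ p ^ 2 := Nat.one_le_pow _ _ P.prime.pos
  have hck := S.charP P
  obtain ⟨U, -, -⟩ := P.uf_tame (S.ndvd P) S.pi
  have h0 := P.tame_ne (S.ndvd P) S.pi
  have hfac : p ^ 2 - 1 = (p + 1) * (p - 1) := by
    obtain ⟨q, hq⟩ : ∃ q, p = q + 1 := ⟨p - 1, (Nat.sub_add_cancel hp1.le).symm⟩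
    rw [hq, Nat.add_sub_cancel, pow_two]
    have : (q + 1) * (q + 1) = (q + 1 + 1) * q + 1 := by ring
    rw [this, Nat.add_sub_cancel]
  have hj' : j * (p - 1) < p * (p ^ 2 - 1) := by
    rw [hfac, ← mul_assoc]
    exact Nat.mul_lt_mul_of_pos_right hj (by omega)
  have hb : ∀ σ ∈ Jt A π, ∀ τ' ∈ Jt A π, l (z * β (σ * τ')) = l (z * β σ) + l (z * β τ') := by
    intro σ hσ τ' hτ'
    rw [hβ σ hσ τ' hτ', mul_add, map_add]
  -- a nontrivial element
  obtain ⟨g, hg, hgl⟩ : ∃ g ∈ Jt A π, l (z * β g) ≠ 0 := by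
    by_contra hno
    push Not at hno
    have h1 : KR w (Jt A π) ζ π (p ^ 2 - 1) j (fun s => l (z * β s)) 0 := by
      refine ⟨1, ⟨one_ne_zero, fun σ hσ => ?_⟩, Or.inl ?_⟩
      · change σ 1 = zp ζ (l (z * β σ)) * 1
        rw [map_one, hno σ hσ, C.zp_zero, mul_one]
      · rw [one_pow, sub_self, zero_mul, sub_self]
    have h2 := U.KR_unique P C hj0 hpj hj' (P.te_Bl hr) (NVal.zero _) hKR h1
    rw [sub_zero] at h2
    have h3 := h2.resolve_left hr0
    rw [P.te_w hr hr0] at h3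
    exact lt_irrefl _ h3
  obtain ⟨y0, hy0⟩ : ∃ y0, y0 = β g := ⟨_, rfl⟩
  rw [← hy0] at hgl
  -- the line
  let i : K →+ M := γ.comp ((AddMonoidHom.mulRight y0).comp K.subtype.toAddMonoidHom)
  have hi : ∀ a : K, i a = γ (a * y0) := fun a => rfl
  have hinj : Function.Injective i := by
    rw [injective_iff_map_eq_zero]
    intro a ha
    by_contra hne
    rw [hi, hker] at ha
    have ha0 : (a : k) ≠ 0 := fun h => hne (Subtype.ext h)
    have h1 := ha (a : k)⁻¹ (K.inv_mem a.2)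
    rw [inv_mul_cancel_left₀ ha0] at h1
    exact hgl h1
  -- every class is on the line
  have hcpA := P.charP
  have hcpK : CharP K p := RingHom.charP τ τ.injective p
  obtain ⟨hfinD, hcardD⟩ := card_addHom_zmod p K (fun a => by
    rw [nsmul_eq_mul, CharP.cast_eq_zero, zero_mul])
  let Lf : k → (K →+ ZMod p) := fun y => l.toAddMonoidHom.comp ((AddMonoidHom.mulLeft z).comp
          ((AddMonoidHom.mulRight y).comp K.subtype.toAddMonoidHom))
  have hLf : ∀ y (a : K), Lf y a = l (z * ((a : k) * y)) := fun y a => rfl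
  let L : k →+ (K →+ ZMod p) :=
    { toFun := Lf
      map_zero' := by
        ext a
        rw [hLf, mul_zero, mul_zero, map_zero]
        rfl
      map_add' := fun y y' => by
        ext a
        rw [AddMonoidHom.add_apply, hLf, hLf, hLf, mul_add, mul_add, map_add] }
  have hL : ∀ y (a : K), L y a = l (z * ((a : k) * y)) := fun y a => rfl
  have hLker : ∀ y, L y = 0 ↔ γ y = 0 := by
    intro y
    rw [hker]
    constructor
    · intro h a ha
      have := DFunLike.congr_fun h (⟨a, ha⟩ : K)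
      rwa [hL] at this
    · intro h
      ext a
      rw [hL]
      exact h a a.2
  have hLinj : Function.Injective (fun b : K => L (b * y0)) := by
    intro b b' h
    have h1 : L ((b : k) * y0 - b' * y0) = 0 := by
      rw [map_sub]
      exact sub_eq_zero.2 h
    rw [hLker, map_sub, sub_eq_zero] at h1
    exact hinj h1
  have hLbij : Function.Bijective (fun b : K => L (b * y0)) :=
    (Nat.bijective_iff_injective_and_card _).2 ⟨hLinj, hcardD.symm⟩
  have hline : ∀ y, ∃ a : K, γ y = i a := by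
    intro y
    obtain ⟨a, ha⟩ := hLbij.2 (L y)
    refine ⟨a, ?_⟩
    have h1 : L (y - a * y0) = 0 := by
      rw [map_sub]
      exact sub_eq_zero.2 ha.symm
    rw [hLker, map_sub, sub_eq_zero] at h1
    exact h1
  -- the Hopf order on the line
  let actK : A.inertiaSubgroupIn ℚ →* AddMonoid.End K :=
    { toFun := fun σ => AddMonoidHom.mulLeft ⟨α σ, S.mem σ σ.2⟩
      map_one' := by
        ext a : 1
        apply hinj
        change γ ((α ((1 : A.inertiaSubgroupIn ℚ) : GQ) * (a : k)) * y0) = γ (a * y0)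
        rw [mul_assoc, ← hact, map_one]
        rfl
      map_mul' := fun σ τ' => by
        ext a : 1
        apply hinj
        change γ ((α ((σ * τ' : A.inertiaSubgroupIn ℚ) : GQ) * (a : k)) * y0) =
          γ ((α σ * (α τ' * (a : k))) * y0)
        rw [mul_assoc, ← hact, map_mul, mul_assoc, ← hact, mul_assoc, ← hact]
        rfl }
  obtain ⟨HK, hHK, hrel⟩ := H09.LHopf.exists_lh_injective hH (act₁ := actK) i (fun σ a => by
    change γ ((α σ * (a : k)) * y0) = act σ (γ (a * y0))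
    rw [mul_assoc, ← hact]) hinj
  have hN : ∀ n ∈ γ.range, n ≠ 0 → ¬ TDS w H (1 / ((p : ℝ) ^ 2 - 1)) n := by
    rintro n ⟨y, rfl⟩ hn htds
    obtain ⟨a, ha⟩ := hline y
    rw [ha] at hn htds
    have ha0 : a ≠ 0 := by
      rintro rfl
      exact hn (map_zero i)
    refine gauss P hp2 S.card τ S.pi (act := actK) (fun s b => ?_) hHK ha0 ?_
    · change τ (⟨α s, S.mem s s.2⟩ * b) = _
      rw [map_mul, S.tau s s.2]
    · intro ψ hψ
      obtain ⟨φ, hφ, rfl⟩ := (hrel ψ).1 hψ
      have h1 := htds φ hφ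
      rwa [← map_zero i] at h1
  -- the Kummer extension
  obtain ⟨u, hu, hur⟩ := hKR
  obtain ⟨ϖ1, U1, hU1⟩ := uf_kummer P U C hu hj0 hpj hj' hr hr0 hur hb
  have hJu : ∀ s, s ∈ Ju (Jt A π) u ↔ s ∈ Jt A π ∧ l (z * β s) = 0 := fun s => mem_Ju_iff C hu
  have hβ1 : β 1 = 0 := by
    have := hβ 1 (one_mem _) 1 (one_mem _)
    rw [mul_one] at this
    exact (left_eq_add.1 this)
  have hβinv : ∀ s ∈ Jt A π, β s⁻¹ = -β s := by
    intro s hs
    have := hβ s⁻¹ (inv_mem hs) s hs
    rw [inv_mul_cancel, hβ1] at this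
    exact eq_neg_of_add_eq_zero_left this.symm
  let Bk : AddSubgroup k :=
    { carrier := {y | ∃ s ∈ Ju (Jt A π) u, β s = y}
      zero_mem' := ⟨1, one_mem _, hβ1⟩
      add_mem' := by
        rintro _ _ ⟨s, hs, rfl⟩ ⟨t, ht, rfl⟩
        exact ⟨s * t, mul_mem hs ht, hβ s hs.1 t ht.1⟩
      neg_mem' := by
        rintro _ ⟨s, hs, rfl⟩
        exact ⟨s⁻¹, inv_mem hs, hβinv s hs.1⟩ }
  have hBk : ∀ y, y ∈ Bk ↔ ∃ s ∈ Ju (Jt A π) u, β s = y := fun y => Iff.rfl
  have hα1 : ∀ s ∈ Jt A π, ∀ y, γ (α s * y) = γ y := by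
    intro s hs y
    have h1 : (⟨α s, S.mem s hs.1⟩ : K) = 1 := by
      apply τ.injective
      rw [S.tau s hs.1, hs.2, div_self h0, P.rsd_one, map_one]
    have h2 : α s = 1 := congrArg Subtype.val h1
    rw [h2, one_mul]
  have hmain := herbrand hH P (J := Jt A π) (J1 := Ju (Jt A π) u) (fun s hs => hs.1) U U1
    (r := 1 / ((p : ℝ) ^ 2 - 1)) z0 γ.range (Bk.map γ) hN
    (fun s hs => ⟨β s, (hz0 s hs).symm⟩)
    (by
      rintro s hs _ ⟨y, rfl⟩
      rw [hact]
      exact hα1 s hs y)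
    (by
      intro y
      constructor
      · rintro ⟨y', ⟨s, hs, rfl⟩, rfl⟩
        exact ⟨s, hs, hz0 s hs.1⟩
      · rintro ⟨s, hs, rfl⟩
        exact ⟨β s, ⟨s, hs, rfl⟩, (hz0 s hs.1).symm⟩)
    hg
    (by
      rintro ⟨y', ⟨s, hs, rfl⟩, h⟩
      have h1 : γ (β g) = γ (β s) := by
        rw [← hz0 g hg]
        exact h.symm
      rw [← sub_eq_zero, ← map_sub, hker] at h1
      have h2 := h1 1 K.one_mem
      rw [one_mul, mul_sub, map_sub, ((hJu s).1 hs).2, sub_zero, ← hy0] at h2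
      exact hgl h2)
  obtain ⟨-, hmain⟩ := hmain
  rw [(hU1 g hg (by change l (z * β g) ≠ 0; rw [← hy0]; exact hgl)).2] at hmain
  -- numerical form
  have hnum : p ^ 2 + p + 1 ≤ j + p * Nat.card (Bk.map γ) := by
    have hpR : (3 : ℝ) ≤ p := by exact_mod_cast hp3
    have he : ((p ^ 2 - 1 : ℕ) : ℝ) = (p : ℝ) ^ 2 - 1 := by
      rw [Nat.cast_sub hpp]
      push_cast
      ring
    rw [he] at hmain
    have hE : (0 : ℝ) < (p : ℝ) ^ 2 - 1 := by nlinarith
    have h1 : (1 : ℝ) / (p * ((p : ℝ) ^ 2 - 1)) + 1 / (p - 1) - j / (p * ((p : ℝ) ^ 2 - 1)) =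
        (1 + p * (p + 1) - j) / (p * ((p : ℝ) ^ 2 - 1)) := by
      have h2 : (p : ℝ) - 1 ≠ 0 := by linarith
      have h3 : (p : ℝ) + 1 ≠ 0 := by linarith
      have h4 : (p : ℝ) ^ 2 - 1 = (p - 1) * (p + 1) := by ring
      rw [h4]
      have h5 : (p : ℝ) ≠ 0 := by linarith
      field_simp
    rw [h1, mul_one_div, div_le_div_iff₀ (by positivity) hE] at hmain
    have h2 : (1 + (p : ℝ) * (p + 1) - j) ≤ Nat.card (Bk.map γ) * p := by
      have h3 : (1 + (p : ℝ) * (p + 1) - j) * ((p : ℝ) ^ 2 - 1) ≤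
          (Nat.card (Bk.map γ) * p) * ((p : ℝ) ^ 2 - 1) := by
        rw [mul_assoc (Nat.card (Bk.map γ) : ℝ)]
        exact hmain
      exact le_of_mul_le_mul_right h3 hE
    have h3 : ((p ^ 2 + p + 1 : ℕ) : ℝ) ≤ ((j + p * Nat.card (Bk.map γ) : ℕ) : ℝ) := by
      push_cast
      linarith
    exact_mod_cast h3
  constructor
  · -- `|B1| ≤ p`
    let l0 : K →+ ZMod p := l.toAddMonoidHom.comp ((AddMonoidHom.mulLeft z).comp
      ((AddMonoidHom.mulRight y0).comp K.subtype.toAddMonoidHom))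
    have hl0 : ∀ a : K, l0 a = l (z * (a * y0)) := fun a => rfl
    have hsurj : Function.Surjective l0 := by
      intro c
      refine ⟨(c * (l0 1)⁻¹).val • 1, ?_⟩
      have h1 : l0 1 ≠ 0 := by
        rw [hl0, OneMemClass.coe_one, one_mul]
        exact hgl
      rw [map_nsmul, nsmul_eq_mul, ZMod.natCast_zmod_val, inv_mul_cancel_right₀ h1]
    have hcardker : Nat.card l0.ker = p := by
      have h1 := l0.ker.card_mul_index
      rw [AddSubgroup.index_ker, S.card] at h1
      have h2 : Nat.card (Set.range l0) = p := by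
        rw [hsurj.range_eq, Nat.card_univ, Nat.card_zmod]
      have h3 : Nat.card l0.range = p := h2
      rw [h3, pow_two] at h1
      exact Nat.eq_of_mul_eq_mul_right P.prime.pos h1
    have hle : Bk.map γ ≤ l0.ker.map i := by
      rintro _ ⟨_, ⟨s, hs, rfl⟩, rfl⟩
      obtain ⟨a, ha⟩ := hline (β s)
      refine ⟨a, ?_, ha.symm⟩
      change l0 a = 0
      have h1 : γ (β s - a * y0) = 0 := by
        rw [map_sub, ha, hi, sub_self]
      rw [hker] at h1
      have h2 := h1 1 K.one_mem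
      rw [one_mul, mul_sub, map_sub, ((hJu s).1 hs).2, zero_sub, neg_eq_zero] at h2
      exact h2
    have hcard : Nat.card (Bk.map γ) ≤ p := by
      have h1 : Nat.card (Bk.map γ) ≤ Nat.card (l0.ker.map i) :=
        Nat.card_le_card_of_injective _ (AddSubgroup.inclusion_injective hle)
      have h2 : Nat.card (l0.ker.map i) ≤ Nat.card l0.ker :=
        Nat.card_le_card_of_surjective (fun a : l0.ker => (⟨i a, a, a.2, rfl⟩ : l0.ker.map i))
          (by rintro ⟨_, a, ha, rfl⟩; exact ⟨⟨a, ha⟩, rfl⟩)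
      rw [hcardker] at h2
      exact h1.trans h2
    have h1 := Nat.mul_le_mul_left p hcard
    rw [pow_two] at hnum
    omega
  · intro hcardT
    have hlt : Nat.card Bk < Nat.card {y : k | ∃ s ∈ Jt A π, β s = y} := by
      have h1 : (Bk : Set k) ⊂ {y : k | ∃ s ∈ Jt A π, β s = y} := by
        refine ⟨?_, fun h => ?_⟩
        · rintro _ ⟨s, hs, rfl⟩
          exact ⟨s, hs.1, rfl⟩
        · obtain ⟨s, hs, h2⟩ := h ⟨g, hg, rfl⟩
          apply hgl
          rw [hy0, ← h2]
          exact ((hJu s).1 hs).2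
      exact Set.ncard_lt_ncard h1 (Set.toFinite _)
    have hbot : Bk = ⊥ := by
      rw [eq_bot_iff]
      intro y hy
      rw [AddSubgroup.mem_bot]
      by_contra hne
      have h1 : addOrderOf y = p := addOrderOf_eq_prime (by
        rw [nsmul_eq_mul, CharP.cast_eq_zero, zero_mul]) hne
      have h2 : AddSubgroup.zmultiples y ≤ Bk := by
        rw [AddSubgroup.zmultiples_le]
        exact hy
      have h3 := Nat.card_le_card_of_injective _ (AddSubgroup.inclusion_injective h2)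
      rw [Nat.card_zmultiples, h1] at h3
      omega
    have hcard : Nat.card (Bk.map γ) = 1 := by
      rw [hbot, AddSubgroup.map_bot]
      exact Nat.card_unique
    rw [hcard, mul_one] at hnum
    omega

end Fermat.Agent.TW
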